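/-
Project MAZUR (S15), node [HOPF] = the abstract theory of ORDERS and TORSOR ORDERS at the prime `r`
(lead ruling #31, section (4); deputy: helper13).  THE DEFINITIONS.  Prefix `mzo_`.  Mathlib only.

Setting (abstract; instantiated once from FF's `ffi_LvlOK`): `L` a field (`= Q̄`), `A` a valuation
subring of `L` (a place over `r`), `Γ` a group acting on `L` by field automorphisms (the inertia
group of `A`), `O` a discrete valuation ring with `O = A ∩ L^Γ` inside `L`, uniformiser `r`.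

* `mzo_Ctx r O L A Γ`          : the hypotheses on the setting;
* `mzo_IsOrder A Γ G H`        : `H ⊆ Map(G, L)` is an ORDER for the finite `Γ`-module `G`
                                 (`= ff_IsLocalOrder`, with `O`-algebra structure and finiteness);
* `mzo_IsCocycle z`            : `z : Γ → G` is a 1-cocycle;
* `mzo_IsTorsorOrder A Γ H z HX`: `HX ⊆ Map(G, L)` is a TORSOR ORDER for the twist `X_z` of `G`
                                 (the set `G` with the action `σ ⋆ x = σ x + z σ`);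
* `mzo_Flat A Γ H z`           : the class of `z` is `H`-FLAT (a torsor order exists);
* `mzo_pull π H`, `mzo_restr ι H`: the induced orders on a quotient / a sub.
-/
import Mathlib

set_option autoImplicit false

noncomputable section

namespace Fermat.Agent.MZ

/-! ### the setting -/

/-- **The local setting at `r`**: `O = A ∩ L^Γ` is a discrete valuation ring with uniformiser `r`
and the same residue field as `A`; `Γ` acts on `L` through the inertia group of `A`. -/
structure mzo_Ctx (r : ℕ) (O : Type) [CommRing O] (L : Type) [Field L] [Algebra O L]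
    (A : ValuationSubring L) (Γ : Type) [Group Γ] [MulSemiringAction Γ L] : Prop where
  r_prime : r.Prime
  /-- `O = A ∩ L^Γ` -/
  range_eq : Set.range (algebraMap O L) = {a : L | a ∈ A ∧ ∀ σ : Γ, σ • a = a}
  /-- `Γ` acts through the inertia group of `A` -/
  inert : ∀ (σ : Γ) (a : L), a ∈ A → σ • a - a ∈ A.nonunits
  /-- `r` is a uniformiser of `O` (`e = 1`) -/
  r_mem : (r : L) ∈ A.nonunits
  r_ne : (r : L) ≠ 0
  unif : ∀ a : L, a ∈ A.nonunits → (∀ σ : Γ, σ • a = a) → a / (r : L) ∈ A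
  /-- the residue field of `O` is all of `A / 𝔪_A` -/
  res_full : ∀ a : L, a ∈ A → ∃ o : O, a - algebraMap O L o ∈ A.nonunits

section Orders

variable {O : Type} [CommRing O] {L : Type} [Field L] [Algebra O L]
  (A : ValuationSubring L) (Γ : Type) [Group Γ] [MulSemiringAction Γ L]

/-! ### orders -/

/-- `H ⊆ Map(G, L)` is an **order** for the finite `Γ`-module `G`: an `O`-algebra of `A`-valued,
`Γ`-equivariant functions, finite over `O`, separating the points of `G` and closed under the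
comultiplication `Δ φ (x, y) = φ (x + y)`. -/
structure mzo_IsOrder (G : Type) [AddCommGroup G] [DistribMulAction Γ G]
    (H : Subalgebra O (G → L)) : Prop where
  int : ∀ φ ∈ H, ∀ x : G, φ x ∈ A
  equiv : ∀ φ ∈ H, ∀ (σ : Γ) (x : G), φ (σ • x) = σ • φ x
  sep : ∀ x y : G, x ≠ y → ∃ φ ∈ H, φ x ≠ φ y
  fin : Module.Finite O ↥H
  comul : ∀ φ ∈ H, ∃ (n : ℕ) (a b : Fin n → G → L), (∀ i, a i ∈ H) ∧ (∀ i, b i ∈ H) ∧
    ∀ x y : G, φ (x + y) = ∑ i, a i x * b i y

/-! ### cocycles, torsor orders, flat classes -/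

variable {Γ} in
/-- `z : Γ → G` is a 1-cocycle. -/
def mzo_IsCocycle {G : Type} [AddCommGroup G] [DistribMulAction Γ G] (z : Γ → G) : Prop :=
  ∀ σ τ : Γ, z (σ * τ) = z σ + σ • z τ

/-- `HX ⊆ Map(G, L)` is a **torsor order** for the order `H` and the twist `X_z` of `G` by the
cocycle `z` (the set `G` with the action `σ ⋆ x = σ • x + z σ`, a `G`-torsor by translation):
an `O`-algebra of `A`-valued functions, equivariant for the TWISTED action, finite, separating,
with (co) `φ (x + g) ∈ HX ⊗ H` and (nabla) `ψ (y - x) ∈ HX ⊗ HX` for `ψ ∈ H`. -/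
structure mzo_IsTorsorOrder {G : Type} [AddCommGroup G] [DistribMulAction Γ G]
    (H : Subalgebra O (G → L)) (z : Γ → G) (HX : Subalgebra O (G → L)) : Prop where
  int : ∀ φ ∈ HX, ∀ x : G, φ x ∈ A
  equiv : ∀ φ ∈ HX, ∀ (σ : Γ) (x : G), φ (σ • x + z σ) = σ • φ x
  sep : ∀ x y : G, x ≠ y → ∃ φ ∈ HX, φ x ≠ φ y
  fin : Module.Finite O ↥HX
  co : ∀ φ ∈ HX, ∃ (n : ℕ) (a b : Fin n → G → L), (∀ i, a i ∈ HX) ∧ (∀ i, b i ∈ H) ∧
    ∀ x g : G, φ (x + g) = ∑ i, a i x * b i g
  nabla : ∀ ψ ∈ H, ∃ (n : ℕ) (a b : Fin n → G → L), (∀ i, a i ∈ HX) ∧ (∀ i, b i ∈ HX) ∧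
    ∀ x y : G, ψ (y - x) = ∑ i, a i x * b i y

/-- the class of the cocycle `z` is **`H`-flat**: its torsor has a torsor order. -/
def mzo_Flat {G : Type} [AddCommGroup G] [DistribMulAction Γ G]
    (H : Subalgebra O (G → L)) (z : Γ → G) : Prop :=
  ∃ HX : Subalgebra O (G → L), mzo_IsTorsorOrder A Γ H z HX

end Orders

/-! ### induced orders -/

section Induced

variable {O : Type} [CommRing O] {L : Type} [Field L] [Algebra O L]

/-- the order induced on a quotient `π : G → E`: the `ψ : E → L` with `ψ ∘ π ∈ H`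
(`= H ∩ Map(G/F, L)`, `F = ker π`). -/
def mzo_pull {G E : Type} (π : G → E) (H : Subalgebra O (G → L)) : Subalgebra O (E → L) where
  carrier := {ψ | ψ ∘ π ∈ H}
  mul_mem' := fun {a b} ha hb => by
    have : (a * b) ∘ π = (a ∘ π) * (b ∘ π) := rfl
    simpa only [Set.mem_ofPred_eq, this] using H.mul_mem ha hb
  add_mem' := fun {a b} ha hb => by
    have : (a + b) ∘ π = (a ∘ π) + (b ∘ π) := rfl
    simpa only [Set.mem_ofPred_eq, this] using H.add_mem ha hb
  algebraMap_mem' := fun c => by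
    have : (algebraMap O (E → L) c) ∘ π = algebraMap O (G → L) c := rfl
    simpa only [Set.mem_ofPred_eq, this] using H.algebraMap_mem c

theorem mzo_mem_pull {G E : Type} {π : G → E} {H : Subalgebra O (G → L)} {ψ : E → L} :
    ψ ∈ mzo_pull π H ↔ ψ ∘ π ∈ H := Iff.rfl

/-- the order induced on a sub `ι : F → G`: the restrictions `φ ∘ ι`, `φ ∈ H` (`= H|_F`). -/
def mzo_restr {F G : Type} (ι : F → G) (H : Subalgebra O (G → L)) : Subalgebra O (F → L) where
  carrier := {χ | ∃ φ ∈ H, χ = φ ∘ ι}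
  mul_mem' := by
    rintro _ _ ⟨φ, hφ, rfl⟩ ⟨ψ, hψ, rfl⟩
    exact ⟨φ * ψ, H.mul_mem hφ hψ, rfl⟩
  add_mem' := by
    rintro _ _ ⟨φ, hφ, rfl⟩ ⟨ψ, hψ, rfl⟩
    exact ⟨φ + ψ, H.add_mem hφ hψ, rfl⟩
  algebraMap_mem' := fun c => ⟨algebraMap O (G → L) c, H.algebraMap_mem c, rfl⟩

theorem mzo_mem_restr {F G : Type} {ι : F → G} {H : Subalgebra O (G → L)} {χ : F → L} :
    χ ∈ mzo_restr ι H ↔ ∃ φ ∈ H, χ = φ ∘ ι := Iff.rfl

end Induced

end Fermat.Agent.MZ
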