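/-
Project MAZUR (S15), node [HOPF] (deputy: helper13).  THE FORMAL CELLS:
[A-sub] restriction to a sub is an order and flat classes restrict (to the fibre over `0`);
[A-cob] flatness is invariant under coboundaries (translate the torsor order);
[B2]    flat for an ÉTALE order (one that separates the points modulo `𝔪_A`) ⟹ unramified.
Prefix `mzo_`.  Mathlib + `MZ/Hopf/Defs.lean` only.
-/
import Mathlib
import Fermat.Agent.MZ.Hopf.Defs

set_option autoImplicit false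

noncomputable section

namespace Fermat.Agent.MZ

variable {O : Type} [CommRing O] {L : Type} [Field L] [Algebra O L]
  {A : ValuationSubring L} {Γ : Type} [Group Γ] [MulSemiringAction Γ L]

/-! ### finiteness of images -/

/-- the `O`-linear map `H → mzo_restr ι H`, `φ ↦ φ ∘ ι` -/
def mzo_restrLin {F G : Type} (ι : F → G) (H : Subalgebra O (G → L)) :
    ↥H →ₗ[O] ↥(mzo_restr ι H) where
  toFun φ := ⟨(φ : G → L) ∘ ι, φ, φ.2, rfl⟩
  map_add' _ _ := rfl
  map_smul' _ _ := rfl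

theorem mzo_restrLin_surjective {F G : Type} (ι : F → G) (H : Subalgebra O (G → L)) :
    Function.Surjective (mzo_restrLin ι H) := by
  rintro ⟨χ, φ, hφ, rfl⟩
  exact ⟨⟨φ, hφ⟩, rfl⟩

theorem mzo_restr_finite {F G : Type} (ι : F → G) (H : Subalgebra O (G → L))
    (h : Module.Finite O ↥H) : Module.Finite O ↥(mzo_restr ι H) :=
  Module.Finite.of_surjective (mzo_restrLin ι H) (mzo_restrLin_surjective ι H)

/-! ### [A-sub] -/

/-- **[A-sub] (orders)** the restriction of an order to a sub is an order. -/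
theorem mzo_restr_isOrder {F G : Type} [AddCommGroup F] [DistribMulAction Γ F]
    [AddCommGroup G] [DistribMulAction Γ G] (ι : F →+ G) (hι : Function.Injective ι)
    (hιe : ∀ (σ : Γ) (x : F), ι (σ • x) = σ • ι x)
    {H : Subalgebra O (G → L)} (hH : mzo_IsOrder A Γ G H) :
    mzo_IsOrder A Γ F (mzo_restr (⇑ι) H) where
  int := by
    rintro _ ⟨φ, hφ, rfl⟩ x
    exact hH.int φ hφ _
  equiv := by
    rintro _ ⟨φ, hφ, rfl⟩ σ x
    simp only [Function.comp_apply, hιe]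
    exact hH.equiv φ hφ σ _
  sep := by
    intro x y hxy
    obtain ⟨φ, hφ, h⟩ := hH.sep (ι x) (ι y) (fun h => hxy (hι h))
    exact ⟨φ ∘ ι, ⟨φ, hφ, rfl⟩, h⟩
  fin := mzo_restr_finite _ H hH.fin
  comul := by
    rintro _ ⟨φ, hφ, rfl⟩
    obtain ⟨n, a, b, ha, hb, h⟩ := hH.comul φ hφ
    refine ⟨n, fun i => a i ∘ ι, fun i => b i ∘ ι, fun i => ⟨a i, ha i, rfl⟩,
      fun i => ⟨b i, hb i, rfl⟩, fun x y => ?_⟩
    simp only [Function.comp_apply, map_add, h]

/-- **[A-sub] (flat classes)** if the cocycle `z'` with values in the sub `F` becomes `H`-flat in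
`G`, then it is flat for the restricted order (restrict the torsor order to the fibre over `0`). -/
theorem mzo_restr_flat {F G : Type} [AddCommGroup F] [DistribMulAction Γ F]
    [AddCommGroup G] [DistribMulAction Γ G] (ι : F →+ G) (hι : Function.Injective ι)
    (hιe : ∀ (σ : Γ) (x : F), ι (σ • x) = σ • ι x)
    {H : Subalgebra O (G → L)} {z' : Γ → F} (hz : mzo_Flat A Γ H (⇑ι ∘ z')) :
    mzo_Flat A Γ (mzo_restr (⇑ι) H) z' := by
  obtain ⟨HX, hX⟩ := hz
  refine ⟨mzo_restr (⇑ι) HX, ?_⟩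
  refine ⟨?_, ?_, ?_, mzo_restr_finite _ HX hX.fin, ?_, ?_⟩
  · rintro _ ⟨φ, hφ, rfl⟩ x
    exact hX.int φ hφ _
  · rintro _ ⟨φ, hφ, rfl⟩ σ x
    have := hX.equiv φ hφ σ (ι x)
    simpa only [Function.comp_apply, map_add, hιe] using this
  · intro x y hxy
    obtain ⟨φ, hφ, h⟩ := hX.sep (ι x) (ι y) (fun h => hxy (hι h))
    exact ⟨φ ∘ ι, ⟨φ, hφ, rfl⟩, h⟩
  · rintro _ ⟨φ, hφ, rfl⟩
    obtain ⟨n, a, b, ha, hb, h⟩ := hX.co φ hφ
    refine ⟨n, fun i => a i ∘ ι, fun i => b i ∘ ι, fun i => ⟨a i, ha i, rfl⟩,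
      fun i => ⟨b i, hb i, rfl⟩, fun x y => ?_⟩
    simp only [Function.comp_apply, map_add, h]
  · rintro _ ⟨ψ, hψ, rfl⟩
    obtain ⟨n, a, b, ha, hb, h⟩ := hX.nabla ψ hψ
    refine ⟨n, fun i => a i ∘ ι, fun i => b i ∘ ι, fun i => ⟨a i, ha i, rfl⟩,
      fun i => ⟨b i, hb i, rfl⟩, fun x y => ?_⟩
    simp only [Function.comp_apply, map_sub, h]

/-! ### [A-cob] -/

/-- **[A-cob]** flatness only depends on the cohomology class: translate the torsor order. -/
theorem mzo_flat_cob {G : Type} [AddCommGroup G] [DistribMulAction Γ G]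
    {H : Subalgebra O (G → L)} {z : Γ → G} (hz : mzo_Flat A Γ H z) (g₀ : G) :
    mzo_Flat A Γ H (fun σ => z σ + σ • g₀ - g₀) := by
  obtain ⟨HX, hX⟩ := hz
  -- `HX' = {φ (· + g₀) : φ ∈ HX} = {ψ | ψ (· - g₀) ∈ HX}`
  refine ⟨mzo_pull (fun x : G => x - g₀) HX, ?_⟩
  have key : ∀ φ : G → L, φ ∈ HX → (fun x => φ (x + g₀)) ∈ mzo_pull (fun x : G => x - g₀) HX := by
    intro φ hφ
    rw [mzo_mem_pull]
    have : (fun x => φ (x + g₀)) ∘ (fun x : G => x - g₀) = φ := by
      funext x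
      simp only [Function.comp_apply, sub_add_cancel]
    rw [this]
    exact hφ
  have key' : ∀ ψ : G → L, ψ ∈ mzo_pull (fun x : G => x - g₀) HX →
      ∀ x, ψ x = (ψ ∘ fun x : G => x - g₀) (x + g₀) := by
    intro ψ _ x
    simp only [Function.comp_apply, add_sub_cancel_right]
  refine ⟨?_, ?_, ?_, ?_, ?_, ?_⟩
  · intro ψ hψ x
    rw [key' ψ hψ x]
    exact hX.int _ hψ _
  · intro ψ hψ σ x
    rw [key' ψ hψ, key' ψ hψ x]
    have := hX.equiv _ hψ σ (x + g₀)
    rw [← this]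
    congr 1
    rw [smul_add]
    abel
  · intro x y hxy
    obtain ⟨φ, hφ, h⟩ := hX.sep (x + g₀) (y + g₀) (fun h => hxy (add_right_cancel h))
    exact ⟨fun x => φ (x + g₀), key φ hφ, h⟩
  · -- finiteness: `HX → HX'`, `φ ↦ φ (· + g₀)` is onto
    let f : ↥HX →ₗ[O] ↥(mzo_pull (fun x : G => x - g₀) HX) :=
      { toFun := fun φ => ⟨fun x => (φ : G → L) (x + g₀), key φ φ.2⟩
        map_add' := fun _ _ => rfl
        map_smul' := fun _ _ => rfl }
    have hf : Function.Surjective f := by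
      rintro ⟨ψ, hψ⟩
      refine ⟨⟨ψ ∘ fun x : G => x - g₀, hψ⟩, ?_⟩
      apply Subtype.ext
      funext x
      exact (key' ψ hψ x).symm
    have := hX.fin
    exact Module.Finite.of_surjective f hf
  · intro ψ hψ
    obtain ⟨n, a, b, ha, hb, h⟩ := hX.co _ hψ
    refine ⟨n, fun i x => a i (x + g₀), b, fun i => key _ (ha i), hb, fun x g => ?_⟩
    rw [key' ψ hψ, show x + g + g₀ = (x + g₀) + g by abel, h]
  · intro ψ hψ
    obtain ⟨n, a, b, ha, hb, h⟩ := hX.nabla ψ hψ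
    refine ⟨n, fun i x => a i (x + g₀), fun i x => b i (x + g₀), fun i => key _ (ha i),
      fun i => key _ (hb i), fun x y => ?_⟩
    rw [← h, show y + g₀ - (x + g₀) = y - x by abel]

/-! ### [B2] étale ⟹ unramified -/

/-- **[B2]** if the order `H` separates every `g ≠ 0` from `0` modulo `𝔪_A` (an ÉTALE order) and
`Γ` acts through inertia, then an `H`-flat cocycle vanishes identically.
[(nabla) for a separating `ψ`, at `(x, y) = (0, σ ⋆ 0)`: `ψ (z σ) - ψ 0 =
`∑ a_i 0 * (σ • b_i 0 - b_i 0) ∈ 𝔪_A`.] -/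
theorem mzo_etale_unram {G : Type} [AddCommGroup G] [DistribMulAction Γ G]
    (hinert : ∀ (σ : Γ) (a : L), a ∈ A → σ • a - a ∈ A.nonunits)
    {H : Subalgebra O (G → L)}
    (hsep : ∀ g : G, g ≠ 0 → ∃ ψ ∈ H, ψ g - ψ 0 ∉ A.nonunits)
    {z : Γ → G} (hz : mzo_Flat A Γ H z) (σ : Γ) : z σ = 0 := by
  obtain ⟨HX, hX⟩ := hz
  by_contra hne
  obtain ⟨ψ, hψ, hψ'⟩ := hsep (z σ) hne
  obtain ⟨n, a, b, ha, hb, h⟩ := hX.nabla ψ hψ
  apply hψ'
  have h1 := h 0 (z σ)
  have h2 := h 0 0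
  rw [sub_zero] at h1 h2
  have hb' : ∀ i, b i (z σ) = σ • b i 0 := by
    intro i
    have := hX.equiv (b i) (hb i) σ 0
    rwa [smul_zero, zero_add] at this
  rw [h1, h2, ← Finset.sum_sub_distrib]
  rw [ValuationSubring.mem_nonunits_iff]
  refine Valuation.map_sum_lt _ one_ne_zero fun i _ => ?_
  rw [hb', ← mul_sub, map_mul]
  have h3 : A.valuation (a i 0) ≤ 1 := (A.valuation_le_one_iff _).mpr (hX.int _ (ha i) 0)
  have h4 : A.valuation (σ • b i 0 - b i 0) < 1 := by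
    rw [← ValuationSubring.mem_nonunits_iff]
    exact hinert σ _ (hX.int _ (hb i) 0)
  calc A.valuation (a i 0) * A.valuation (σ • b i 0 - b i 0)
      ≤ 1 * A.valuation (σ • b i 0 - b i 0) := mul_le_mul_left h3 _
    _ < 1 := by rwa [one_mul]

end Fermat.Agent.MZ
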