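/-
Project MAZUR (S15), node [HOPF] (owner: helper4).  Two linear-algebra tools, Mathlib only.
Prefix `mzhp_`.

* `mzhp_artin`   : (Artin / Dedekind) functions `S → L` which are semi-invariant under a group `Γ`
  acting on the field `L` (`v (σ ⋆ s) = σ (v s)`) and linearly independent over the fixed field
  `L^Γ` are linearly independent over `L`.
* `mzhp_extract` : coefficient extraction: if the `v i` are `L`-independent functions of `y` and
  `x ↦ ∑ i, a i x * v i y` lies in an `L`-subspace `P` for every `y`, then every `a i` lies in `P`.
-/
import Mathlib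

set_option autoImplicit false

namespace Fermat.Agent.MZ

section Artin

variable {L : Type*} [Field L] {Gam : Type*} [Group Gam] [MulSemiringAction Gam L] {S : Type*}

/-- **Artin's lemma** for semi-invariant functions. -/
theorem mzhp_artin (act : Gam → S → S) (hsurj : ∀ σ, Function.Surjective (act σ))
    {ι : Type*} [Fintype ι] (v : ι → S → L)
    (hv : ∀ (i : ι) (σ : Gam) (s : S), v i (act σ s) = σ • v i s)
    (hK : ∀ c : ι → L, (∀ (i : ι) (σ : Gam), σ • c i = c i) → ∑ i, c i • v i = 0 → c = 0) :
    LinearIndependent L v := by
  classical
  have key : ∀ m : ℕ, ∀ g : ι → L, (Finset.univ.filter (fun i => g i ≠ 0)).card = m →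
      ∑ i, g i • v i = 0 → g = 0 := by
    intro m
    induction m using Nat.strong_induction_on with
    | _ m ih =>
      intro g hcard hg
      by_contra hne
      obtain ⟨i₀, hi₀⟩ : ∃ i, g i ≠ 0 := by
        by_contra h
        simp only [not_exists, ne_eq, not_not] at h
        exact hne (funext h)
      set g' : ι → L := fun i => (g i₀)⁻¹ * g i with hg'
      have hg'0 : g' i₀ = 1 := inv_mul_cancel₀ hi₀
      have hg'rel : ∑ i, g' i • v i = 0 := by
        have : ∑ i, g' i • v i = (g i₀)⁻¹ • ∑ i, g i • v i := by
          rw [Finset.smul_sum]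
          refine Finset.sum_congr rfl fun i _ => ?_
          rw [smul_smul]
        rw [this, hg, smul_zero]
      have hσrel : ∀ σ : Gam, ∑ i, (σ • g' i) • v i = 0 := by
        intro σ
        funext s
        obtain ⟨s', rfl⟩ := hsurj σ s
        have h1 := congrFun hg'rel s'
        simp only [Finset.sum_apply, Pi.smul_apply, smul_eq_mul, Pi.zero_apply] at h1 ⊢
        have h2 := congrArg (fun x => σ • x) h1
        simp only [smul_zero, Finset.smul_sum, smul_mul'] at h2
        rw [← h2]
        refine Finset.sum_congr rfl fun i _ => ?_
        rw [hv]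
      have hfix : ∀ (i : ι) (σ : Gam), σ • g' i = g' i := by
        intro i σ
        set h : ι → L := fun i => g' i - σ • g' i with hh
        have hrel : ∑ i, h i • v i = 0 := by
          simp only [hh, sub_smul, Finset.sum_sub_distrib, hg'rel, hσrel σ, sub_zero]
        have hlt : (Finset.univ.filter (fun i => h i ≠ 0)).card < m := by
          rw [← hcard]
          apply Finset.card_lt_card
          rw [Finset.ssubset_iff_of_subset]
          · refine ⟨i₀, ?_, ?_⟩
            · simp [hi₀]
            · simp [hh, hg'0]
          · intro i hi
            simp only [Finset.mem_filter, Finset.mem_univ, true_and] at hi ⊢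
            intro hgi
            apply hi
            simp [hh, hg', hgi]
        have h0 := ih _ hlt h rfl hrel
        have h1 := congrFun h0 i
        simp only [hh, Pi.zero_apply, sub_eq_zero] at h1
        exact h1.symm
      have h0 := hK g' hfix hg'rel
      have h1 := congrFun h0 i₀
      rw [hg'0] at h1
      exact one_ne_zero h1
  rw [Fintype.linearIndependent_iff]
  intro g hg i
  exact congrFun (key _ g rfl hg) i

/-- **coefficient extraction** -/
theorem mzhp_extract {X Y : Type*} {ι : Type*} [Fintype ι] (a : ι → X → L) (v : ι → Y → L)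
    (hv : LinearIndependent L v) (P : Submodule L (X → L))
    (h : ∀ y, (fun x => ∑ i, a i x * v i y) ∈ P) (i : ι) : a i ∈ P := by
  by_contra hi
  obtain ⟨f, hf, hfP⟩ := Submodule.exists_dual_map_eq_bot_of_notMem hi inferInstance
  have hrel : ∑ j, f (a j) • v j = 0 := by
    funext y
    have h1 : (fun x => ∑ j, a j x * v j y) = ∑ j, v j y • a j := by
      funext x
      simp only [Finset.sum_apply, Pi.smul_apply, smul_eq_mul, mul_comm]
    have h2 : f (fun x => ∑ j, a j x * v j y) = 0 := by
      have : f (fun x => ∑ j, a j x * v j y) ∈ P.map f := Submodule.mem_map_of_mem (h y)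
      rw [hfP] at this
      exact (Submodule.mem_bot L).mp this
    rw [h1, map_sum] at h2
    simp only [Finset.sum_apply, Pi.smul_apply, smul_eq_mul, Pi.zero_apply]
    rw [← h2]
    refine Finset.sum_congr rfl fun j _ => ?_
    rw [map_smul, smul_eq_mul, mul_comm]
  rw [Fintype.linearIndependent_iff] at hv
  exact hf (hv _ hrel i)

end Artin

end Fermat.Agent.MZ
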