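/-
Project MAZUR (S15), node [HOPF] (deputy: helper13).  THE SEAMS: one `Prop` per cell.
Prefix `mzo_`.  Mathlib + `MZ/Hopf/Defs.lean` only.

* `mzo_SeamQuot`    [A-quot] the induced order on a quotient, and flat classes push forward;
* `mzo_SeamConn`    [B1]     (E1)/(L3): no `Γ`-fixed `r`-torsion point in the connected part
                             (`r` odd, `e = 1`);
* `mzo_SeamMuOrder` [B4]     the ONLY order on `μ_r` is `⊕ O T^j` (`r` odd);
* `mzo_SeamMuUnit`  [B5]     flat for `⊕ O T^j` ⟹ Kummer cocycle of a UNIT (all `r`);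
* `mzo_SeamTwo`     [D1]     the two orders on a group of order `2` (`r = 2`).
The cells [A-sub], [A-cob], [B2] (étale ⟹ unramified) are proved in `MZ/Hopf/Basic.lean`; the
outputs (OUT-1), (OUT-2) consumed by [MZ-H] are assembled in `MZ/Hopf/Assembly.lean`.
-/
import Mathlib
import Fermat.Agent.MZ.Hopf.Defs

set_option autoImplicit false

noncomputable section

namespace Fermat.Agent.MZ

/-- **[A-quot]** `π : G → E` an equivariant surjection of finite `Γ`-modules, `H` an order for `G`: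
`mzo_pull π H = H ∩ Map(E, L)` is an order for `E`, and if `z` is `H`-flat then `π ∘ z` is flat
for it (take `HX ∩ Map(E, L)`).
[`H ∩ W` is saturated in the free `O`-module `H`, so `H = (H ∩ W) ⊕ C`; `O`-independent elements
of `H` are `L`-independent (Artin); traces over `ker π` show that `H ∩ W` spans `Map(E, L)`; so an
element of `H ⊗ H` which is a function on `E × E` lies in `(H ∩ W) ⊗ (H ∩ W)`.] -/
def mzo_SeamQuot : Prop :=
  ∀ (r : ℕ) (O : Type) [CommRing O] [IsDomain O] [IsDiscreteValuationRing O]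
    (L : Type) [Field L] [Algebra O L] (A : ValuationSubring L)
    (Γ : Type) [Group Γ] [MulSemiringAction Γ L], mzo_Ctx r O L A Γ →
  ∀ (G : Type) [AddCommGroup G] [Finite G] [DistribMulAction Γ G]
    (E : Type) [AddCommGroup E] [DistribMulAction Γ E] (π : G →+ E),
    Function.Surjective π → (∀ (σ : Γ) (x : G), π (σ • x) = σ • π x) →
  ∀ H : Subalgebra O (G → L), mzo_IsOrder A Γ G H →
    mzo_IsOrder A Γ E (mzo_pull π H) ∧
    ∀ z : Γ → G, mzo_IsCocycle z → mzo_Flat A Γ H z → mzo_Flat A Γ (mzo_pull π H) (π ∘ z)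

/-- **[B1]** (`r` odd, `e = 1`) a `Γ`-fixed point `x` with `r x = 0` which is congruent to `0`
modulo `𝔪_A` under every function of an order is `0`.
[helper27 #2870 (L3) / helper17 #2877 (E1): `ev_x = ε + r λ` in the convolution algebra
`Hom_O(H, O)`, `ev_x^{* r} = ε`, binomial theorem, `r ≥ 3`.] -/
def mzo_SeamConn : Prop :=
  ∀ (r : ℕ) (O : Type) [CommRing O] [IsDomain O] [IsDiscreteValuationRing O]
    (L : Type) [Field L] [Algebra O L] (A : ValuationSubring L)
    (Γ : Type) [Group Γ] [MulSemiringAction Γ L], mzo_Ctx r O L A Γ → r ≠ 2 →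
  ∀ (G : Type) [AddCommGroup G] [Finite G] [DistribMulAction Γ G]
    (H : Subalgebra O (G → L)), mzo_IsOrder A Γ G H →
  ∀ x : G, (∀ σ : Γ, σ • x = x) → r • x = 0 →
    (∀ φ ∈ H, φ x - φ 0 ∈ A.nonunits) → x = 0

/-- **[B4]** (`r` odd, `e = 1`) `E ≅ μ_r` through an equivariant injective character `T`: every
order for `E` is `⊕_j O T^j`.
[the dual lattice is an order for the constant group `ℤ/r`, hence étale by [B1]; dualise back.] -/
def mzo_SeamMuOrder : Prop :=
  ∀ (r : ℕ) (O : Type) [CommRing O] [IsDomain O] [IsDiscreteValuationRing O]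
    (L : Type) [Field L] [Algebra O L] (A : ValuationSubring L)
    (Γ : Type) [Group Γ] [MulSemiringAction Γ L], mzo_Ctx r O L A Γ → r ≠ 2 →
  ∀ (E : Type) [AddCommGroup E] [Finite E] [DistribMulAction Γ E], Nat.card E = r →
  ∀ T : E → L, (∀ x y : E, T (x + y) = T x * T y) → Function.Injective T →
    (∀ (σ : Γ) (x : E), T (σ • x) = σ • T x) →
  ∀ H : Subalgebra O (E → L), mzo_IsOrder A Γ E H →
    T ∈ H ∧ ∀ φ ∈ H, ∃ c : ℕ → O, φ = ∑ j ∈ Finset.range r, c j • T ^ j

/-- **[B5]** (all `r`, also `r = 2`) `E ≅ μ_r` through `T`, `H = ⊕_j O T^j`: an `H`-flat cocycle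
is the Kummer cocycle of a UNIT: `T (z σ) = σ β / β` with `β ∈ A^×`.
[(co) grades `HX = ⊕ O π^{n_j} β^j`; (nabla)`(T^j)` and the ring structure give
`n_j + n_{r-j} = - v(β^r)` and `n_{k+1} ≥ n_k + n_1`, so `r n_1 = - v(β^r)`.] -/
def mzo_SeamMuUnit : Prop :=
  ∀ (r : ℕ) (O : Type) [CommRing O] [IsDomain O] [IsDiscreteValuationRing O]
    (L : Type) [Field L] [Algebra O L] (A : ValuationSubring L)
    (Γ : Type) [Group Γ] [MulSemiringAction Γ L], mzo_Ctx r O L A Γ →
  ∀ (E : Type) [AddCommGroup E] [Finite E] [DistribMulAction Γ E], Nat.card E = r →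
  ∀ T : E → L, (∀ x y : E, T (x + y) = T x * T y) → Function.Injective T →
    (∀ (σ : Γ) (x : E), T (σ • x) = σ • T x) →
  ∀ H : Subalgebra O (E → L), mzo_IsOrder A Γ E H → T ∈ H →
    (∀ φ ∈ H, ∃ c : ℕ → O, φ = ∑ j ∈ Finset.range r, c j • T ^ j) →
  ∀ z : Γ → E, mzo_IsCocycle z → mzo_Flat A Γ H z →
    ∃ β : L, β ∈ A ∧ β⁻¹ ∈ A ∧ ∀ σ : Γ, T (z σ) * β = σ • β

/-- **[D1]** (`r = 2`, `e = 1`) a group `E` of order `2`: an order for `E` is either étale
(separates the two points modulo `𝔪_A`) or the order `O ⊕ O T` of `μ_2` (`T` the sign character).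
[`H = O ⊕ O π^s e_1`, `Δ`-closed iff `s ≤ v(2) = 1`.] -/
def mzo_SeamTwo : Prop :=
  ∀ (O : Type) [CommRing O] [IsDomain O] [IsDiscreteValuationRing O]
    (L : Type) [Field L] [Algebra O L] (A : ValuationSubring L)
    (Γ : Type) [Group Γ] [MulSemiringAction Γ L], mzo_Ctx 2 O L A Γ →
  ∀ (E : Type) [AddCommGroup E] [Finite E] [DistribMulAction Γ E], Nat.card E = 2 →
  ∀ T : E → L, (∀ x y : E, T (x + y) = T x * T y) → Function.Injective T →
  ∀ H : Subalgebra O (E → L), mzo_IsOrder A Γ E H →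
    (∀ x : E, x ≠ 0 → ∃ φ ∈ H, φ x - φ 0 ∉ A.nonunits) ∨
    (T ∈ H ∧ ∀ φ ∈ H, ∃ c : ℕ → O, φ = ∑ j ∈ Finset.range 2, c j • T ^ j)

end Fermat.Agent.MZ
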