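/-
Project MAZUR (S15), node [HOPF], cell [A-quot] (owner: helper4).  Prefix `mzhp_`.
Mathlib + `MZ/Hopf/Defs.lean` + `MZ/Hopf/Artin.lean`.

`mzhp_seamQuot : mzo_SeamQuot`: for an equivariant surjection `π : G → E` of finite `Γ`-modules and
an order `H` for `G`, `mzo_pull π H = H ∩ Map(E, L)` is an order for `E`, and flat classes push
forward (`HX ∩ Map(E, L)` is a torsor order for `π ∘ z`).

Method: (fin) Noetherian; (sep) the trace over `ker π` maps `H` to `H ∩ Map(E, L)` + Dedekind
independence of the evaluations; (comul), (co), (nabla): TWO-SIDED EXTRACTION — an element of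
`N1 ⊗ N2` which is invariant in both variables lies in `(N1 ∩ inv) ⊗ (N2 ∩ inv)`, by coefficient
extraction against `O`-bases, which are `L`-independent by Artin's lemma.  No saturation, no
complements, no descent.
-/
import Mathlib
import Fermat.Agent.MZ.Hopf.Defs
import Fermat.Agent.MZ.Hopf.Artin
import Fermat.Agent.MZ.Hopf.Seams

set_option autoImplicit false

noncomputable section

namespace Fermat.Agent.MZ

section Ctx

variable {r : ℕ} {O : Type} [CommRing O] [IsDomain O] [IsDiscreteValuationRing O]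
  {L : Type} [Field L] [Algebra O L] {A : ValuationSubring L}
  {Γ : Type} [Group Γ] [MulSemiringAction Γ L]

/-- `O → L` is injective -/
theorem mzhp_algebraMap_injective (hctx : mzo_Ctx r O L A Γ) :
    Function.Injective (algebraMap O L) := by
  rw [injective_iff_map_eq_zero]
  intro x hx
  by_contra hx0
  obtain ⟨ϖ, hϖ⟩ := IsDiscreteValuationRing.exists_irreducible O
  -- `r` is a nonzero nonunit of `O`
  have hrL : algebraMap O L (r : O) = (r : L) := map_natCast _ _
  have hr0 : (r : O) ≠ 0 := by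
    intro h
    rw [h, map_zero] at hrL
    exact hctx.r_ne hrL.symm
  have hϖL : algebraMap O L ϖ ≠ 0 := by
    intro h
    obtain ⟨n, u, hu⟩ := IsDiscreteValuationRing.eq_unit_mul_pow_irreducible hr0 hϖ
    rcases Nat.eq_zero_or_pos n with hn | hn
    · -- `r` is a unit of `O`: impossible
      rw [hn, pow_zero, mul_one] at hu
      have h1 : (r : L) * algebraMap O L (↑u⁻¹ : O) = 1 := by
        rw [← hrL, ← map_mul, hu, Units.mul_inv, map_one]
      have h2 : algebraMap O L (↑u⁻¹ : O) ∈ A := by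
        have : algebraMap O L (↑u⁻¹ : O) ∈ Set.range (algebraMap O L) := ⟨_, rfl⟩
        rw [hctx.range_eq] at this
        exact this.1
      have h3 := hctx.r_mem
      rw [ValuationSubring.mem_nonunits_iff] at h3
      have h4 : A.valuation ((r : L) * algebraMap O L (↑u⁻¹ : O)) = 1 := by rw [h1, map_one]
      rw [map_mul] at h4
      have h5 : A.valuation (algebraMap O L (↑u⁻¹ : O)) ≤ 1 := (A.valuation_le_one_iff _).mpr h2
      have h6 : A.valuation (r : L) * A.valuation (algebraMap O L (↑u⁻¹ : O)) < 1 := by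
        calc A.valuation (r : L) * A.valuation (algebraMap O L (↑u⁻¹ : O))
            ≤ A.valuation (r : L) * 1 := by gcongr
          _ < 1 := by rwa [mul_one]
      rw [h4] at h6
      exact lt_irrefl _ h6
    · have : algebraMap O L (r : O) = 0 := by
        rw [hu, map_mul, map_pow, h, zero_pow hn.ne', mul_zero]
      rw [hrL] at this
      exact hctx.r_ne this
  obtain ⟨n, u, hu⟩ := IsDiscreteValuationRing.eq_unit_mul_pow_irreducible hx0 hϖ
  rw [hu, map_mul, map_pow] at hx
  rcases mul_eq_zero.mp hx with h | h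
  · have : IsUnit (algebraMap O L (u : O)) := (u.isUnit).map _
    exact this.ne_zero h
  · exact hϖL (eq_zero_of_pow_eq_zero h)

/-- a `Γ`-fixed element of `A` comes from `O` -/
theorem mzhp_mem_range (hctx : mzo_Ctx r O L A Γ) {a : L} (ha : a ∈ A)
    (hfix : ∀ σ : Γ, σ • a = a) : ∃ o : O, algebraMap O L o = a := by
  have : a ∈ Set.range (algebraMap O L) := by
    rw [hctx.range_eq]
    exact ⟨ha, hfix⟩
  exact this

/-- a `Γ`-fixed element of `L` has a denominator in `O` -/
theorem mzhp_exists_denom (hctx : mzo_Ctx r O L A Γ) {c : L} (hfix : ∀ σ : Γ, σ • c = c) :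
    ∃ d o : O, d ≠ 0 ∧ algebraMap O L d * c = algebraMap O L o := by
  rcases A.mem_or_inv_mem c with h | h
  · obtain ⟨o, ho⟩ := mzhp_mem_range hctx h hfix
    exact ⟨1, o, one_ne_zero, by rw [map_one, one_mul, ho]⟩
  · by_cases hc : c = 0
    · exact ⟨1, 0, one_ne_zero, by rw [hc, mul_zero, map_zero]⟩
    · have hfix' : ∀ σ : Γ, σ • c⁻¹ = c⁻¹ := fun σ => by rw [smul_inv'', hfix]
      obtain ⟨d, hd⟩ := mzhp_mem_range hctx h hfix'
      refine ⟨d, 1, ?_, by rw [hd, map_one, inv_mul_cancel₀ hc]⟩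
      intro h0
      rw [h0, map_zero] at hd
      exact hc (inv_eq_zero.mp hd.symm)

end Ctx


section TwoSided

variable {O : Type} [CommRing O] [IsDomain O] [IsPrincipalIdealRing O]
  {L : Type} [Field L] [Algebra O L]

/-- an `O`-lattice of functions: finite over `O`, and `O`-independent families in it are
`L`-independent -/
structure mzhp_Lat {X : Type} (N : Submodule O (X → L)) : Prop where
  fin : Module.Finite O N
  ind : ∀ {ι : Type} [Fintype ι] (v : ι → X → L), (∀ i, v i ∈ N) → LinearIndependent O v →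
    LinearIndependent L v

theorem mzhp_torsionFree (hinj : Function.Injective (algebraMap O L)) {X : Type}
    (N : Submodule O (X → L)) : Module.IsTorsionFree O N := by
  refine Module.IsTorsionFree.of_smul_eq_zero fun c φ h => ?_
  by_cases hc : c = 0
  · exact Or.inl hc
  · right
    ext x
    have h1 : (c • (φ : X → L)) x = 0 := by
      have := congrArg (fun ψ : N => (ψ : X → L) x) h
      simpa using this
    rw [Pi.smul_apply, Algebra.smul_def] at h1
    rcases mul_eq_zero.mp h1 with h2 | h2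
    · exact absurd (hinj (by rw [h2, map_zero])) hc
    · simpa using h2

/-- expansion of a family in a finitely generated torsion-free lattice in a basis -/
theorem mzhp_exists_basis (hinj : Function.Injective (algebraMap O L)) {X : Type}
    (N : Submodule O (X → L)) (hfin : Module.Finite O N) :
    ∃ (m : ℕ) (w : Fin m → X → L), (∀ γ, w γ ∈ N) ∧ LinearIndependent O w ∧
      ∀ φ ∈ N, ∃ c : Fin m → O, φ = ∑ γ, c γ • w γ := by
  have := hfin
  have := mzhp_torsionFree hinj N
  obtain ⟨m, w⟩ : Σ n, Module.Basis (Fin n) O N := Module.basisOfFiniteTypeTorsionFree'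
  refine ⟨m, fun γ => (w γ : X → L), fun γ => (w γ).2, ?_, ?_⟩
  · have := w.linearIndependent
    exact this.map' N.subtype (Submodule.ker_subtype N)
  · intro φ hφ
    refine ⟨fun γ => w.repr ⟨φ, hφ⟩ γ, ?_⟩
    have := w.sum_repr ⟨φ, hφ⟩
    have h2 := congrArg (fun ψ : N => (ψ : X → L)) this
    simp only [Submodule.coe_sum, Submodule.coe_smul] at h2
    exact h2.symm

/-- **two-sided extraction** -/
theorem mzhp_two_sided (hinj : Function.Injective (algebraMap O L)) {X Y : Type}
    (N1 : Submodule O (X → L)) (N2 : Submodule O (Y → L)) (h1 : mzhp_Lat N1) (h2 : mzhp_Lat N2)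
    (P1 : Submodule L (X → L)) (P2 : Submodule L (Y → L))
    (Φ : X → Y → L) {n : ℕ} (a : Fin n → X → L) (b : Fin n → Y → L)
    (ha : ∀ i, a i ∈ N1) (hb : ∀ i, b i ∈ N2)
    (hΦ : ∀ x y, Φ x y = ∑ i, a i x * b i y)
    (hP1 : ∀ y, (fun x => Φ x y) ∈ P1) (hP2 : ∀ x, (fun y => Φ x y) ∈ P2) :
    ∃ (m : ℕ) (a' : Fin m → X → L) (b' : Fin m → Y → L),
      (∀ j, a' j ∈ N1 ∧ a' j ∈ P1) ∧ (∀ j, b' j ∈ N2 ∧ b' j ∈ P2) ∧
      ∀ x y, Φ x y = ∑ j, a' j x * b' j y := by
  -- Step A: a basis of `N2`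
  obtain ⟨m2, w, hwN, hwO, hwrep⟩ := mzhp_exists_basis hinj N2 h2.fin
  choose c hc using fun i => hwrep (b i) (hb i)
  set a'' : Fin m2 → X → L := fun γ => ∑ i, c i γ • a i with ha''
  have ha''N : ∀ γ, a'' γ ∈ N1 := fun γ => N1.sum_mem fun i _ => N1.smul_mem _ (ha i)
  have hΦ2 : ∀ x y, Φ x y = ∑ γ, a'' γ x * w γ y := by
    intro x y
    rw [hΦ]
    have : ∀ i, a i x * b i y = ∑ γ, (c i γ • a i) x * w γ y := by
      intro i
      rw [hc i]
      simp only [Finset.sum_apply, Pi.smul_apply, Finset.mul_sum]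
      refine Finset.sum_congr rfl fun γ _ => ?_
      rw [Algebra.smul_def, Algebra.smul_def]
      ring
    simp only [this]
    rw [Finset.sum_comm]
    refine Finset.sum_congr rfl fun γ _ => ?_
    show _ = (∑ i, c i γ • a i) x * w γ y
    rw [Finset.sum_apply, Finset.sum_mul]
  have hwL : LinearIndependent L w := h2.ind w hwN hwO
  have ha''P : ∀ γ, a'' γ ∈ P1 := by
    intro γ
    refine mzhp_extract a'' w hwL P1 (fun y => ?_) γ
    have := hP1 y
    have e : (fun x => Φ x y) = fun x => ∑ γ, a'' γ x * w γ y := funext fun x => hΦ2 x y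
    rwa [e] at this
  -- Step B: a basis of `N1 ⊓ P1`
  set N1' : Submodule O (X → L) := N1 ⊓ P1.restrictScalars O with hN1'
  have hN1'fin : Module.Finite O N1' := by
    have := h1.fin
    have : IsNoetherian O N1 := isNoetherian_of_isNoetherianRing_of_finite O N1
    have hle : N1' ≤ N1 := inf_le_left
    exact Module.Finite.of_injective (Submodule.inclusion hle) (Submodule.inclusion_injective hle)
  obtain ⟨m1, u, huN, huO, hurep⟩ := mzhp_exists_basis hinj N1' hN1'fin
  have ha''N' : ∀ γ, a'' γ ∈ N1' := fun γ => ⟨ha''N γ, ha''P γ⟩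
  choose d hd using fun γ => hurep (a'' γ) (ha''N' γ)
  set b' : Fin m1 → Y → L := fun α => ∑ γ, d γ α • w γ with hb'
  have hb'N : ∀ α, b' α ∈ N2 := fun α => N2.sum_mem fun γ _ => N2.smul_mem _ (hwN γ)
  have hΦ3 : ∀ x y, Φ x y = ∑ α, u α x * b' α y := by
    intro x y
    rw [hΦ2]
    have : ∀ γ, a'' γ x * w γ y = ∑ α, u α x * (d γ α • w γ) y := by
      intro γ
      rw [hd γ]
      simp only [Finset.sum_apply, Pi.smul_apply, Finset.sum_mul]
      refine Finset.sum_congr rfl fun α _ => ?_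
      rw [Algebra.smul_def, Algebra.smul_def]
      ring
    simp only [this]
    rw [Finset.sum_comm]
    refine Finset.sum_congr rfl fun α _ => ?_
    show _ = u α x * (∑ γ, d γ α • w γ) y
    rw [Finset.sum_apply, Finset.mul_sum]
  have huL : LinearIndependent L u := h1.ind u (fun α => (huN α).1) huO
  have hb'P : ∀ α, b' α ∈ P2 := by
    intro α
    refine mzhp_extract b' u huL P2 (fun x => ?_) α
    have := hP2 x
    have e : (fun y => Φ x y) = fun y => ∑ α, b' α y * u α x :=
      funext fun y => by rw [hΦ3]; exact Finset.sum_congr rfl fun α _ => mul_comm _ _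
    rwa [e] at this
  exact ⟨m1, u, b', fun j => ⟨(huN j).1, (huN j).2⟩, fun j => ⟨hb'N j, hb'P j⟩, hΦ3⟩

end TwoSided


section Lattices

variable {r : ℕ} {O : Type} [CommRing O] [IsDomain O] [IsDiscreteValuationRing O]
  {L : Type} [Field L] [Algebra O L] {A : ValuationSubring L}
  {Γ : Type} [Group Γ] [MulSemiringAction Γ L]

/-- a finite `O`-module of semi-invariant functions is a lattice in the sense of `mzhp_Lat` -/
theorem mzhp_lat_of_equiv (hctx : mzo_Ctx r O L A Γ) {X : Type} (act : Γ → X → X)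
    (hsurj : ∀ σ, Function.Surjective (act σ)) (N : Submodule O (X → L))
    (hfin : Module.Finite O N)
    (hequiv : ∀ φ ∈ N, ∀ (σ : Γ) (x : X), φ (act σ x) = σ • φ x) : mzhp_Lat N where
  fin := hfin
  ind := by
    intro ι _ v hvN hvO
    classical
    refine mzhp_artin act hsurj v (fun i σ s => hequiv (v i) (hvN i) σ s) ?_
    intro c hcfix hrel
    choose d o hd0 hdo using fun i => mzhp_exists_denom hctx (hcfix i)
    -- the common denominator
    set D : O := ∏ i, d i with hD
    have hD0 : D ≠ 0 := Finset.prod_ne_zero_iff.mpr fun i _ => hd0 i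
    set o' : ι → O := fun i => (∏ j ∈ Finset.univ.erase i, d j) * o i with ho'
    have hDo : ∀ i, algebraMap O L D * c i = algebraMap O L (o' i) := by
      intro i
      have : D = (∏ j ∈ Finset.univ.erase i, d j) * d i := by
        rw [hD, Finset.prod_erase_mul _ _ (Finset.mem_univ i)]
      rw [this, map_mul, mul_assoc, hdo i, ← map_mul]
    have hrelO : ∑ i, o' i • v i = 0 := by
      funext x
      have h1 := congrFun hrel x
      simp only [Finset.sum_apply, Pi.smul_apply, smul_eq_mul, Pi.zero_apply] at h1 ⊢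
      have h2 : ∑ i, o' i • v i x = algebraMap O L D * ∑ i, c i * v i x := by
        rw [Finset.mul_sum]
        refine Finset.sum_congr rfl fun i _ => ?_
        rw [Algebra.smul_def, ← hDo i, mul_assoc]
      rw [h2, h1, mul_zero]
    rw [Fintype.linearIndependent_iff] at hvO
    have ho'0 := hvO o' hrelO
    funext i
    have h3 := hDo i
    rw [ho'0 i, map_zero] at h3
    rcases mul_eq_zero.mp h3 with h4 | h4
    · exact absurd (mzhp_algebraMap_injective hctx (by rw [h4, map_zero])) hD0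
    · exact h4

end Lattices

section Push

variable {r : ℕ} {O : Type} [CommRing O] [IsDomain O] [IsDiscreteValuationRing O]
  {L : Type} [Field L] [Algebra O L] {A : ValuationSubring L}
  {Γ : Type} [Group Γ] [MulSemiringAction Γ L]

/-- the functions on `G` which factor through `π` -/
def mzhp_inv {G E : Type} (π : G → E) : Submodule L (G → L) where
  carrier := {φ | ∀ x y, π x = π y → φ x = φ y}
  add_mem' := fun ha hb x y h => by simp only [Pi.add_apply, ha x y h, hb x y h]
  zero_mem' := fun _ _ _ => rfl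
  smul_mem' := fun c _ ha x y h => by simp only [Pi.smul_apply, ha x y h]

theorem mzhp_mem_inv {G E : Type} {π : G → E} {φ : G → L} :
    φ ∈ mzhp_inv (L := L) π ↔ ∀ x y, π x = π y → φ x = φ y := Iff.rfl

theorem mzhp_inv_factor {G E : Type} {π : G → E} (hπ : Function.Surjective π) {φ : G → L}
    (hφ : φ ∈ mzhp_inv (L := L) π) : ∃ ψ : E → L, φ = ψ ∘ π :=
  ⟨fun e => φ (Function.surjInv hπ e),
    funext fun x => hφ _ _ (Function.surjInv_eq hπ (π x)).symm⟩

/-- general form of (comul), (co), (nabla) for the pulled-back algebras -/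
theorem mzhp_push (hinj : Function.Injective (algebraMap O L)) {G1 G2 E1 E2 : Type}
    (π1 : G1 → E1) (π2 : G2 → E2)
    (hπ1 : Function.Surjective π1) (hπ2 : Function.Surjective π2)
    (H1 : Subalgebra O (G1 → L)) (H2 : Subalgebra O (G2 → L))
    (hL1 : mzhp_Lat (Subalgebra.toSubmodule H1)) (hL2 : mzhp_Lat (Subalgebra.toSubmodule H2))
    (Φ : G1 → G2 → L)
    (hΦ : ∃ (n : ℕ) (a : Fin n → G1 → L) (b : Fin n → G2 → L), (∀ i, a i ∈ H1) ∧ (∀ i, b i ∈ H2) ∧
      ∀ x y, Φ x y = ∑ i, a i x * b i y)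
    (hinv1 : ∀ y x x', π1 x = π1 x' → Φ x y = Φ x' y)
    (hinv2 : ∀ x y y', π2 y = π2 y' → Φ x y = Φ x y') :
    ∃ (m : ℕ) (α : Fin m → E1 → L) (β : Fin m → E2 → L),
      (∀ j, α j ∈ mzo_pull π1 H1) ∧ (∀ j, β j ∈ mzo_pull π2 H2) ∧
      ∀ x y, Φ x y = ∑ j, α j (π1 x) * β j (π2 y) := by
  obtain ⟨n, a, b, ha, hb, hab⟩ := hΦ
  obtain ⟨m, a', b', ha', hb', hab'⟩ := mzhp_two_sided hinj (Subalgebra.toSubmodule H1)
    (Subalgebra.toSubmodule H2) hL1 hL2 (mzhp_inv π1) (mzhp_inv π2) Φ a b ha hb hab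
    (fun y x x' h => hinv1 y x x' h) (fun x y y' h => hinv2 x y y' h)
  choose α hα using fun j => mzhp_inv_factor hπ1 (ha' j).2
  choose β hβ using fun j => mzhp_inv_factor hπ2 (hb' j).2
  refine ⟨m, α, β, fun j => ?_, fun j => ?_, fun x y => ?_⟩
  · rw [mzo_mem_pull, ← hα j]
    exact (ha' j).1
  · rw [mzo_mem_pull, ← hβ j]
    exact (hb' j).1
  · rw [hab']
    refine Finset.sum_congr rfl fun j _ => ?_
    rw [hα j, hβ j]
    rfl

end Push

section Trace

variable {r : ℕ} {O : Type} [CommRing O] [IsDomain O] [IsDiscreteValuationRing O]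
  {L : Type} [Field L] [Algebra O L] {A : ValuationSubring L}
  {Γ : Type} [Group Γ] [MulSemiringAction Γ L]

/-- **the trace** over a `Γ`-stable finite set `F` of translations maps `HX` to `HX`
(`HX` a comodule over the order `H`). -/
theorem mzhp_trace_mem (hctx : mzo_Ctx r O L A Γ) {G : Type} [AddCommGroup G]
    [DistribMulAction Γ G] (H HX : Subalgebra O (G → L))
    (hint : ∀ φ ∈ H, ∀ x : G, φ x ∈ A)
    (hequiv : ∀ φ ∈ H, ∀ (σ : Γ) (x : G), φ (σ • x) = σ • φ x)
    (hco : ∀ φ ∈ HX, ∃ (n : ℕ) (a b : Fin n → G → L), (∀ i, a i ∈ HX) ∧ (∀ i, b i ∈ H) ∧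
      ∀ x g : G, φ (x + g) = ∑ i, a i x * b i g)
    (F : Finset G) (hF : ∀ (σ : Γ) (f : G), f ∈ F → σ • f ∈ F)
    (φ : G → L) (hφ : φ ∈ HX) : (fun x => ∑ f ∈ F, φ (x + f)) ∈ HX := by
  obtain ⟨n, a, b, ha, hb, hab⟩ := hco φ hφ
  -- the coefficients `c i = ∑_{f ∈ F} b i f` are `Γ`-fixed elements of `A`
  have hcA : ∀ i, ∑ f ∈ F, b i f ∈ A := fun i => A.sum_mem fun f _ => hint (b i) (hb i) f
  have hcfix : ∀ (i : Fin n) (σ : Γ), σ • ∑ f ∈ F, b i f = ∑ f ∈ F, b i f := by
    intro i σ
    rw [Finset.smul_sum]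
    have h1 : ∀ f ∈ F, σ • b i f = b i (σ • f) := fun f _ => (hequiv (b i) (hb i) σ f).symm
    rw [Finset.sum_congr rfl h1]
    refine Finset.sum_nbij' (fun f => σ • f) (fun f => σ⁻¹ • f) (fun f hf => hF σ f hf)
      (fun f hf => hF σ⁻¹ f hf) (fun f _ => inv_smul_smul σ f) (fun f _ => smul_inv_smul σ f)
      (fun f _ => rfl)
  choose o ho using fun i => mzhp_mem_range hctx (hcA i) (hcfix i)
  have : (fun x => ∑ f ∈ F, φ (x + f)) = ∑ i, o i • a i := by
    funext x
    simp only [Finset.sum_apply, Pi.smul_apply, hab]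
    rw [Finset.sum_comm]
    refine Finset.sum_congr rfl fun i _ => ?_
    rw [Algebra.smul_def, ho i, Finset.sum_mul]
    exact Finset.sum_congr rfl fun f _ => mul_comm _ _
  rw [this]
  exact HX.sum_mem fun i _ => HX.smul_mem (ha i) (o i)

/-- **Dedekind**: a nontrivial `L`-combination of evaluations at distinct points does not vanish
on a point-separating subalgebra. -/
theorem mzhp_dedekind {G : Type} [Fintype G] (HX : Subalgebra O (G → L))
    (hsep : ∀ x y : G, x ≠ y → ∃ φ ∈ HX, φ x ≠ φ y) (g : G → L)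
    (hg : ∀ φ ∈ HX, ∑ x, g x * φ x = 0) : g = 0 := by
  classical
  -- the evaluations as monoid homomorphisms `HX →* L`
  let ev : G → (HX →* L) := fun x =>
    { toFun := fun φ => (φ : G → L) x
      map_one' := rfl
      map_mul' := fun _ _ => rfl }
  have hev : Function.Injective ev := by
    intro x y hxy
    by_contra hne
    obtain ⟨φ, hφ, h⟩ := hsep x y hne
    exact h (congrArg (fun e : HX →* L => e ⟨φ, hφ⟩) hxy)
  have hli : LinearIndependent L (fun x : G => ((ev x : HX →* L) : HX → L)) :=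
    (linearIndependent_monoidHom HX L).comp ev hev
  rw [Fintype.linearIndependent_iff] at hli
  funext x
  refine hli g ?_ x
  funext φ
  simp only [Finset.sum_apply, Pi.smul_apply, smul_eq_mul, Pi.zero_apply]
  exact hg φ φ.2

end Trace

section Sep

variable {r : ℕ} {O : Type} [CommRing O] [IsDomain O] [IsDiscreteValuationRing O]
  {L : Type} [Field L] [Algebra O L] {A : ValuationSubring L}
  {Γ : Type} [Group Γ] [MulSemiringAction Γ L]

/-- the pulled-back algebra separates the points of the quotient -/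
theorem mzhp_pull_sep (hctx : mzo_Ctx r O L A Γ) {G E : Type} [AddCommGroup G] [Finite G]
    [DistribMulAction Γ G] [AddCommGroup E] [DistribMulAction Γ E] (π : G →+ E)
    (hπ : Function.Surjective π) (hπe : ∀ (σ : Γ) (x : G), π (σ • x) = σ • π x)
    (H HX : Subalgebra O (G → L))
    (hint : ∀ φ ∈ H, ∀ x : G, φ x ∈ A)
    (hequiv : ∀ φ ∈ H, ∀ (σ : Γ) (x : G), φ (σ • x) = σ • φ x)
    (hco : ∀ φ ∈ HX, ∃ (n : ℕ) (a b : Fin n → G → L), (∀ i, a i ∈ HX) ∧ (∀ i, b i ∈ H) ∧
      ∀ x g : G, φ (x + g) = ∑ i, a i x * b i g)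
    (hsep : ∀ x y : G, x ≠ y → ∃ φ ∈ HX, φ x ≠ φ y)
    (e e' : E) (hee' : e ≠ e') : ∃ ψ ∈ mzo_pull (⇑π) HX, ψ e ≠ ψ e' := by
  classical
  have : Fintype G := Fintype.ofFinite G
  by_contra hcon
  have hcon' : ∀ ψ ∈ mzo_pull (⇑π) HX, ψ e = ψ e' := by
    intro ψ hψ
    by_contra h
    exact hcon ⟨ψ, hψ, h⟩
  set F : Finset G := Finset.univ.filter (fun f => π f = 0) with hFdef
  have hF : ∀ (σ : Γ) (f : G), f ∈ F → σ • f ∈ F := by
    intro σ f hf
    simp only [hFdef, Finset.mem_filter, Finset.mem_univ, true_and] at hf ⊢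
    rw [hπe, hf, smul_zero]
  -- the trace, in its manifestly invariant form
  have htr : ∀ φ ∈ HX, (fun x => ∑ y ∈ Finset.univ.filter (fun y => π y = π x), φ y) ∈ HX := by
    intro φ hφ
    have h1 := mzhp_trace_mem hctx H HX hint hequiv hco F hF φ hφ
    have h2 : (fun x => ∑ y ∈ Finset.univ.filter (fun y => π y = π x), φ y)
        = fun x => ∑ f ∈ F, φ (x + f) := by
      funext x
      refine Finset.sum_nbij' (fun y => y - x) (fun f => x + f) ?_ ?_ ?_ ?_ ?_
      · intro y hy
        simp only [hFdef, Finset.mem_filter, Finset.mem_univ, true_and] at hy ⊢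
        rw [map_sub, hy, sub_self]
      · intro f hf
        simp only [hFdef, Finset.mem_filter, Finset.mem_univ, true_and] at hf ⊢
        rw [map_add, hf, add_zero]
      · intro y _
        simp only [add_sub_cancel]
      · intro f _
        simp only [add_sub_cancel_left]
      · intro y _
        simp only [add_sub_cancel]
    rw [h2]
    exact h1
  obtain ⟨x₀, hx₀⟩ := hπ e
  obtain ⟨x₀', hx₀'⟩ := hπ e'
  set g : G → L := fun x => (if π x = e then 1 else 0) - (if π x = e' then 1 else 0) with hg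
  have hg0 : g = 0 := by
    refine mzhp_dedekind HX hsep g fun φ hφ => ?_
    -- the trace of `φ` factors through `π`
    set T : G → L := fun x => ∑ y ∈ Finset.univ.filter (fun y => π y = π x), φ y with hT
    have hTinv : T ∈ mzhp_inv (L := L) (⇑π) := by
      intro x y hxy
      simp only [hT, hxy]
    obtain ⟨ψ, hψ⟩ := mzhp_inv_factor hπ hTinv
    have hψmem : ψ ∈ mzo_pull (⇑π) HX := by
      rw [mzo_mem_pull, ← hψ]
      exact htr φ hφ
    have h3 := hcon' ψ hψmem
    have h4 : T x₀ = T x₀' := by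
      rw [hψ]
      simp only [Function.comp_apply, hx₀, hx₀', h3]
    simp only [hg, sub_mul, Finset.sum_sub_distrib, ite_mul, one_mul, zero_mul]
    rw [← Finset.sum_filter, ← Finset.sum_filter, sub_eq_zero]
    have h5 : T x₀ = ∑ y ∈ Finset.univ.filter (fun y => π y = e), φ y := by
      simp only [hT, hx₀]
    have h6 : T x₀' = ∑ y ∈ Finset.univ.filter (fun y => π y = e'), φ y := by
      simp only [hT, hx₀']
    rw [← h5, ← h6, h4]
  have h7 := congrFun hg0 x₀
  simp only [hg, hx₀, if_true, Pi.zero_apply, if_neg hee', sub_zero] at h7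
  exact one_ne_zero h7

end Sep

section Main

variable {r : ℕ} {O : Type} [CommRing O] [IsDomain O] [IsDiscreteValuationRing O]
  {L : Type} [Field L] [Algebra O L] {A : ValuationSubring L}
  {Γ : Type} [Group Γ] [MulSemiringAction Γ L]

/-- finiteness of the pulled-back algebra -/
theorem mzhp_pull_finite {G E : Type} (π : G → E) (hπ : Function.Surjective π)
    (H : Subalgebra O (G → L)) (hfin : Module.Finite O ↥H) :
    Module.Finite O ↥(mzo_pull π H) := by
  have : IsNoetherian O ↥H := isNoetherian_of_isNoetherianRing_of_finite O ↥H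
  let f : ↥(mzo_pull π H) →ₗ[O] ↥H :=
    { toFun := fun ψ => ⟨(ψ : E → L) ∘ π, ψ.2⟩
      map_add' := fun _ _ => rfl
      map_smul' := fun _ _ => rfl }
  refine Module.Finite.of_injective f ?_
  intro ψ ψ' h
  ext e
  obtain ⟨x, rfl⟩ := hπ e
  have := congrArg (fun φ : ↥H => (φ : G → L) x) h
  exact this

/-- the lattice property of an order -/
theorem mzhp_lat_order (hctx : mzo_Ctx r O L A Γ) {G : Type} [AddCommGroup G]
    [DistribMulAction Γ G] {H : Subalgebra O (G → L)} (hH : mzo_IsOrder A Γ G H) :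
    mzhp_Lat (Subalgebra.toSubmodule H) :=
  mzhp_lat_of_equiv hctx (fun σ x => σ • x)
    (fun σ x => ⟨σ⁻¹ • x, smul_inv_smul σ x⟩) _ hH.fin (fun φ hφ σ x => hH.equiv φ hφ σ x)

/-- the lattice property of a torsor order -/
theorem mzhp_lat_torsor (hctx : mzo_Ctx r O L A Γ) {G : Type} [AddCommGroup G]
    [DistribMulAction Γ G] {H HX : Subalgebra O (G → L)} {z : Γ → G}
    (hX : mzo_IsTorsorOrder A Γ H z HX) : mzhp_Lat (Subalgebra.toSubmodule HX) :=
  mzhp_lat_of_equiv hctx (fun σ x => σ • x + z σ)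
    (fun σ x => ⟨σ⁻¹ • (x - z σ), by simp only [smul_inv_smul, sub_add_cancel]⟩) _ hX.fin
    (fun φ hφ σ x => hX.equiv φ hφ σ x)

/-- **[A-quot]** -/
theorem mzhp_seamQuot : mzo_SeamQuot := by
  intro r O _ _ _ L _ _ A Γ _ _ hctx G _ _ _ E _ _ π hπ hπe H hH
  have hinj := mzhp_algebraMap_injective hctx
  have hLH := mzhp_lat_order hctx hH
  refine ⟨⟨?_, ?_, ?_, mzhp_pull_finite _ hπ H hH.fin, ?_⟩, ?_⟩
  · -- int
    intro ψ hψ e
    obtain ⟨x, rfl⟩ := hπ e
    exact hH.int _ hψ x
  · -- equiv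
    intro ψ hψ σ e
    obtain ⟨x, rfl⟩ := hπ e
    rw [← hπe]
    exact hH.equiv _ hψ σ x
  · -- sep
    intro e e' hee'
    exact mzhp_pull_sep hctx π hπ hπe H H hH.int hH.equiv hH.comul hH.sep e e' hee'
  · -- comul
    intro ψ hψ
    obtain ⟨m, α, β, hα, hβ, hαβ⟩ := mzhp_push hinj (⇑π) (⇑π) hπ hπ H H hLH hLH
      (fun x y => ψ (π (x + y))) (hH.comul _ hψ)
      (fun y x x' h => by simp only [map_add, h]) (fun x y y' h => by simp only [map_add, h])
    refine ⟨m, α, β, hα, hβ, fun e e' => ?_⟩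
    obtain ⟨x, rfl⟩ := hπ e
    obtain ⟨y, rfl⟩ := hπ e'
    rw [← map_add]
    exact hαβ x y
  · -- flat classes push forward
    intro z _ hz
    obtain ⟨HX, hX⟩ := hz
    have hLX := mzhp_lat_torsor hctx hX
    refine ⟨mzo_pull (⇑π) HX, ⟨?_, ?_, ?_, mzhp_pull_finite _ hπ HX hX.fin, ?_, ?_⟩⟩
    · intro ψ hψ e
      obtain ⟨x, rfl⟩ := hπ e
      exact hX.int _ hψ x
    · intro ψ hψ σ e
      obtain ⟨x, rfl⟩ := hπ e
      have := hX.equiv _ hψ σ x
      simpa only [Function.comp_apply, map_add, hπe] using this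
    · intro e e' hee'
      exact mzhp_pull_sep hctx π hπ hπe H HX hH.int hH.equiv hX.co hX.sep e e' hee'
    · intro ψ hψ
      obtain ⟨m, α, β, hα, hβ, hαβ⟩ := mzhp_push hinj (⇑π) (⇑π) hπ hπ HX H hLX hLH
        (fun x g => ψ (π (x + g))) (hX.co _ hψ)
        (fun y x x' h => by simp only [map_add, h]) (fun x y y' h => by simp only [map_add, h])
      refine ⟨m, α, β, hα, hβ, fun e e' => ?_⟩
      obtain ⟨x, rfl⟩ := hπ e
      obtain ⟨y, rfl⟩ := hπ e'
      rw [← map_add]
      exact hαβ x y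
    · intro ψ hψ
      obtain ⟨m, α, β, hα, hβ, hαβ⟩ := mzhp_push hinj (⇑π) (⇑π) hπ hπ HX HX hLX hLX
        (fun x y => ψ (π (y - x))) (hX.nabla _ hψ)
        (fun y x x' h => by simp only [map_sub, h]) (fun x y y' h => by simp only [map_sub, h])
      refine ⟨m, α, β, hα, hβ, fun e e' => ?_⟩
      obtain ⟨x, rfl⟩ := hπ e
      obtain ⟨y, rfl⟩ := hπ e'
      rw [← map_sub]
      exact hαβ x y

end Main

end Fermat.Agent.MZ
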