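/-
Project MAZUR (S15), node [HOPF] (deputy: helper13).  SERVICE LEMMAS on the setting `mzo_Ctx`:
`O → L` is injective with image `A ∩ L^Γ`, `r` is a uniformiser of `O`, `L^Γ = Frac O`,
`O` is `r`-adically separated.  Prefix `mzo_`.  Mathlib + `MZ/Hopf/Defs.lean` only.
-/
import Mathlib
import Fermat.Agent.MZ.Hopf.Defs

set_option autoImplicit false
set_option linter.unusedSectionVars false

noncomputable section

namespace Fermat.Agent.MZ

variable {r : ℕ} {O : Type} [CommRing O] [IsDomain O] [IsDiscreteValuationRing O]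
  {L : Type} [Field L] [Algebra O L] {A : ValuationSubring L}
  {Γ : Type} [Group Γ] [MulSemiringAction Γ L]

/-- `Γ` fixes the natural numbers. -/
theorem mzo_smul_natCast (σ : Γ) (n : ℕ) : σ • (n : L) = n :=
  map_natCast (MulSemiringAction.toRingHom Γ L σ) n

theorem mzo_Ctx.mem_A (h : mzo_Ctx r O L A Γ) (o : O) : algebraMap O L o ∈ A := by
  have : algebraMap O L o ∈ Set.range (algebraMap O L) := ⟨o, rfl⟩
  rw [h.range_eq] at this
  exact this.1

theorem mzo_Ctx.fixed (h : mzo_Ctx r O L A Γ) (o : O) (σ : Γ) :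
    σ • algebraMap O L o = algebraMap O L o := by
  have : algebraMap O L o ∈ Set.range (algebraMap O L) := ⟨o, rfl⟩
  rw [h.range_eq] at this
  exact this.2 σ

theorem mzo_Ctx.exists_of_fixed (h : mzo_Ctx r O L A Γ) {a : L} (ha : a ∈ A)
    (hf : ∀ σ : Γ, σ • a = a) : ∃ o : O, algebraMap O L o = a := by
  have : a ∈ Set.range (algebraMap O L) := by
    rw [h.range_eq]
    exact ⟨ha, hf⟩
  exact this

theorem mzo_Ctx.r_not_unit (h : mzo_Ctx r O L A Γ) : ¬ IsUnit ((r : ℕ) : O) := by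
  intro hu
  obtain ⟨u, hu⟩ := hu
  have h1 : algebraMap O L ((u⁻¹ : Oˣ) : O) * (r : L) = 1 := by
    have : ((u⁻¹ : Oˣ) : O) * ((r : ℕ) : O) = 1 := by rw [← hu]; exact Units.inv_mul u
    have := congrArg (algebraMap O L) this
    simpa only [map_mul, map_natCast, map_one] using this
  have h2 := h.r_mem
  rw [ValuationSubring.mem_nonunits_iff] at h2
  have h3 : A.valuation (algebraMap O L ((u⁻¹ : Oˣ) : O)) ≤ 1 :=
    (A.valuation_le_one_iff _).mpr (h.mem_A _)
  have h4 := congrArg A.valuation h1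
  rw [map_mul, map_one] at h4
  have : A.valuation (algebraMap O L ((u⁻¹ : Oˣ) : O)) * A.valuation (r : L) < 1 := by
    calc A.valuation (algebraMap O L ((u⁻¹ : Oˣ) : O)) * A.valuation (r : L)
        ≤ 1 * A.valuation (r : L) := mul_le_mul_left h3 _
      _ < 1 := by rwa [one_mul]
  rw [h4] at this
  exact lt_irrefl _ this

theorem mzo_Ctx.inj (h : mzo_Ctx r O L A Γ) : Function.Injective (algebraMap O L) := by
  rw [injective_iff_map_eq_zero]
  intro o ho
  by_contra hne
  have hker : RingHom.ker (algebraMap O L) ≠ ⊥ := by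
    intro hbot
    have : o ∈ RingHom.ker (algebraMap O L) := ho
    rw [hbot] at this
    exact hne this
  have hprime : (RingHom.ker (algebraMap O L)).IsPrime := RingHom.ker_isPrime _
  have hmax : (RingHom.ker (algebraMap O L)).IsMaximal := hprime.isMaximal hker
  have heq := IsLocalRing.eq_maximalIdeal hmax
  have hr : ((r : ℕ) : O) ∈ IsLocalRing.maximalIdeal O := by
    rw [IsLocalRing.mem_maximalIdeal]
    exact h.r_not_unit
  rw [← heq, RingHom.mem_ker, map_natCast] at hr
  exact h.r_ne hr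

theorem mzo_Ctx.nonunit_iff (h : mzo_Ctx r O L A Γ) (o : O) :
    algebraMap O L o ∈ A.nonunits ↔ ¬ IsUnit o := by
  rw [ValuationSubring.mem_nonunits_iff]
  constructor
  · rintro hlt ⟨u, rfl⟩
    have h1 : algebraMap O L ((u⁻¹ : Oˣ) : O) * algebraMap O L (u : O) = 1 := by
      rw [← map_mul, Units.inv_mul, map_one]
    have h3 : A.valuation (algebraMap O L ((u⁻¹ : Oˣ) : O)) ≤ 1 :=
      (A.valuation_le_one_iff _).mpr (h.mem_A _)
    have h4 := congrArg A.valuation h1
    rw [map_mul, map_one] at h4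
    have : A.valuation (algebraMap O L ((u⁻¹ : Oˣ) : O)) * A.valuation (algebraMap O L (u : O)) < 1 := by
      calc A.valuation (algebraMap O L ((u⁻¹ : Oˣ) : O)) * A.valuation (algebraMap O L (u : O))
          ≤ 1 * A.valuation (algebraMap O L (u : O)) := mul_le_mul_left h3 _
        _ < 1 := by rwa [one_mul]
    rw [h4] at this
    exact lt_irrefl _ this
  · intro hnu
    by_contra hge
    push Not at hge
    have hle : A.valuation (algebraMap O L o) ≤ 1 := (A.valuation_le_one_iff _).mpr (h.mem_A _)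
    have heq : A.valuation (algebraMap O L o) = 1 := le_antisymm hle hge
    have hne : algebraMap O L o ≠ 0 := by
      intro h0
      rw [h0, map_zero] at heq
      exact zero_ne_one heq
    have hinv : (algebraMap O L o)⁻¹ ∈ A := by
      rw [← A.valuation_le_one_iff, map_inv₀, heq, inv_one]
    have hfix : ∀ σ : Γ, σ • (algebraMap O L o)⁻¹ = (algebraMap O L o)⁻¹ := by
      intro σ
      rw [smul_inv'', h.fixed]
    obtain ⟨o', ho'⟩ := h.exists_of_fixed hinv hfix
    apply hnu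
    refine IsUnit.of_mul_eq_one o' ?_
    apply h.inj
    rw [map_mul, ho', map_one, mul_inv_cancel₀ hne]

theorem mzo_Ctx.dvd_of_nonunit (h : mzo_Ctx r O L A Γ) {o : O}
    (ho : algebraMap O L o ∈ A.nonunits) : ((r : ℕ) : O) ∣ o := by
  have h1 := h.unif _ ho (h.fixed o)
  have hfix : ∀ σ : Γ, σ • (algebraMap O L o / (r : L)) = algebraMap O L o / (r : L) := by
    intro σ
    rw [div_eq_mul_inv, smul_mul', smul_inv'', h.fixed, mzo_smul_natCast]
  obtain ⟨o', ho'⟩ := h.exists_of_fixed h1 hfix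
  refine ⟨o', ?_⟩
  apply h.inj
  rw [map_mul, ho', map_natCast, mul_div_cancel₀ _ h.r_ne]

theorem mzo_Ctx.maximalIdeal_eq (h : mzo_Ctx r O L A Γ) :
    IsLocalRing.maximalIdeal O = Ideal.span {((r : ℕ) : O)} := by
  apply le_antisymm
  · intro o ho
    rw [IsLocalRing.mem_maximalIdeal] at ho
    rw [Ideal.mem_span_singleton]
    exact h.dvd_of_nonunit ((h.nonunit_iff o).mpr ho)
  · rw [Ideal.span_singleton_le_iff_mem, IsLocalRing.mem_maximalIdeal]
    exact h.r_not_unit

theorem mzo_Ctx.irreducible_r (h : mzo_Ctx r O L A Γ) : Irreducible ((r : ℕ) : O) :=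
  IsDiscreteValuationRing.irreducible_iff_uniformizer _ |>.mpr h.maximalIdeal_eq

theorem mzo_Ctx.r_ne_zero (h : mzo_Ctx r O L A Γ) : ((r : ℕ) : O) ≠ 0 := h.irreducible_r.ne_zero

/-- `O` is `r`-adically separated. -/
theorem mzo_Ctx.sep (h : mzo_Ctx r O L A Γ) (o : O) (ho : ∀ n : ℕ, ((r : ℕ) : O) ^ n ∣ o) :
    o = 0 := by
  by_contra hne
  obtain ⟨n, u, hu⟩ := IsDiscreteValuationRing.eq_unit_mul_pow_irreducible hne h.irreducible_r
  obtain ⟨c, hc⟩ := ho (n + 1)
  rw [hu, pow_succ, mul_assoc] at hc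
  have h1 : ((r : ℕ) : O) ^ n * ((u : O) - (r : O) * c) = 0 := by
    rw [mul_sub, mul_comm _ (u : O), hc]
    ring
  rcases mul_eq_zero.mp h1 with h2 | h2
  · exact h.r_ne_zero (pow_eq_zero_iff (by
      intro hn; subst hn; simp at hc h2) |>.mp h2)
  · have : IsUnit ((r : ℕ) : O) := by
      have h3 : (u : O) = (r : O) * c := sub_eq_zero.mp h2
      exact isUnit_of_mul_isUnit_left (h3 ▸ u.isUnit)
    exact h.r_not_unit this

/-- `L^Γ = Frac O`. -/
theorem mzo_Ctx.exists_frac (h : mzo_Ctx r O L A Γ) {a : L} (hf : ∀ σ : Γ, σ • a = a) :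
    ∃ o₁ o₂ : O, o₂ ≠ 0 ∧ a = algebraMap O L o₁ / algebraMap O L o₂ := by
  rcases A.mem_or_inv_mem a with ha | ha
  · obtain ⟨o, ho⟩ := h.exists_of_fixed ha hf
    exact ⟨o, 1, one_ne_zero, by rw [map_one, div_one, ho]⟩
  · by_cases ha0 : a = 0
    · exact ⟨0, 1, one_ne_zero, by rw [ha0, map_zero, zero_div]⟩
    have hfix : ∀ σ : Γ, σ • a⁻¹ = a⁻¹ := fun σ => by rw [smul_inv'', hf]
    obtain ⟨o, ho⟩ := h.exists_of_fixed ha hfix
    have ho0 : o ≠ 0 := by
      intro h0
      rw [h0, map_zero] at ho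
      exact inv_ne_zero ha0 ho.symm
    exact ⟨1, o, ho0, by rw [map_one, ho, one_div, inv_inv]⟩

end Fermat.Agent.MZ
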