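/-
Project MAZUR (S15), node [HOPF], part `r = 2` (lead ruling #31 (4)(d),(e); deputy: helper13).
THE DEFINITIONS for Cartier duality of orders.  Prefix `mzo_`.  Mathlib + `MZ/Hopf/Defs.lean`.

* `mzo_Dual G L`       : the character group `Ĝ = Hom(G, L^×)` of a `Γ`-module `G`, written
                         ADDITIVELY, with the `Γ`-action `(σ • χ) x = σ • χ (σ⁻¹ • x)`;
* `mzo_dualRes ι`, `mzo_dualInf π` : restriction / inflation of characters;
* `mzo_dualSet H`, `mzo_dualOrder H` : THE DUAL LATTICE of an order `H`, as functions on `Ĝ`: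
                         `χ ↦ μ χ` for the `L`-linear functionals `μ` on `Map(G, L)` with
                         `μ (H) ⊆ O`;
* `mzo_Cong A H x y`   : `x ≡ y` modulo `𝔪_A` for the order `H` (helper4's `red_H`);
* `mzo_IsEtale A H`    : `H` separates every `x ≠ 0` from `0` modulo `𝔪_A`;
* `mzo_IsConn A H`     : every `x` is congruent to `0`.
-/
import Mathlib
import Fermat.Agent.MZ.Hopf.Defs

set_option autoImplicit false

noncomputable section

namespace Fermat.Agent.MZ

/-! ### the character group -/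

/-- a character `G → L^×` of the additive group `G` (as a function `G → L`). -/
structure mzo_Dual (G L : Type) [AddCommGroup G] [Field L] where
  toFun : G → L
  map_zero' : toFun 0 = 1
  map_add' : ∀ x y : G, toFun (x + y) = toFun x * toFun y

namespace mzo_Dual

variable {G L : Type} [AddCommGroup G] [Field L]

instance : CoeFun (mzo_Dual G L) (fun _ => G → L) := ⟨mzo_Dual.toFun⟩

@[ext] theorem ext {χ ψ : mzo_Dual G L} (h : ∀ x, χ x = ψ x) : χ = ψ := by
  cases χ; cases ψ
  congr
  exact funext h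

theorem map_zero (χ : mzo_Dual G L) : χ 0 = 1 := χ.map_zero'

theorem map_add (χ : mzo_Dual G L) (x y : G) : χ (x + y) = χ x * χ y := χ.map_add' x y

theorem map_neg_mul (χ : mzo_Dual G L) (x : G) : χ (-x) * χ x = 1 := by
  rw [← χ.map_add, neg_add_cancel, χ.map_zero]

theorem ne_zero (χ : mzo_Dual G L) (x : G) : χ x ≠ 0 := fun h => by
  have := χ.map_neg_mul x
  rw [h, mul_zero] at this
  exact zero_ne_one this

theorem map_neg (χ : mzo_Dual G L) (x : G) : χ (-x) = (χ x)⁻¹ :=
  eq_inv_of_mul_eq_one_left (χ.map_neg_mul x)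

theorem map_sub (χ : mzo_Dual G L) (x y : G) : χ (x - y) = χ x / χ y := by
  rw [sub_eq_add_neg, χ.map_add, χ.map_neg, div_eq_mul_inv]

theorem map_nsmul (χ : mzo_Dual G L) (n : ℕ) (x : G) : χ (n • x) = χ x ^ n := by
  induction n with
  | zero => rw [zero_nsmul, pow_zero, χ.map_zero]
  | succ n ih => rw [succ_nsmul, χ.map_add, ih, pow_succ]

instance : Zero (mzo_Dual G L) := ⟨⟨fun _ => 1, rfl, fun _ _ => (one_mul 1).symm⟩⟩

instance : Add (mzo_Dual G L) :=
  ⟨fun χ ψ => ⟨fun x => χ x * ψ x, by rw [χ.map_zero, ψ.map_zero, one_mul],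
    fun x y => by rw [χ.map_add, ψ.map_add]; ring⟩⟩

instance : Neg (mzo_Dual G L) :=
  ⟨fun χ => ⟨fun x => χ (-x), by rw [neg_zero, χ.map_zero],
    fun x y => by rw [neg_add, χ.map_add]⟩⟩

@[simp] theorem zero_apply (x : G) : (0 : mzo_Dual G L) x = 1 := rfl

@[simp] theorem add_apply (χ ψ : mzo_Dual G L) (x : G) : (χ + ψ) x = χ x * ψ x := rfl

@[simp] theorem neg_apply (χ : mzo_Dual G L) (x : G) : (-χ) x = χ (-x) := rfl

instance : AddCommGroup (mzo_Dual G L) where
  add_assoc χ ψ θ := ext fun x => mul_assoc _ _ _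
  zero_add χ := ext fun x => one_mul _
  add_zero χ := ext fun x => mul_one _
  add_comm χ ψ := ext fun x => mul_comm _ _
  neg_add_cancel χ := ext fun x => χ.map_neg_mul x
  nsmul := nsmulRec
  zsmul := zsmulRec

theorem nsmul_apply (χ : mzo_Dual G L) (n : ℕ) (x : G) : (n • χ) x = χ x ^ n := by
  induction n with
  | zero => rw [zero_nsmul, pow_zero, zero_apply]
  | succ n ih => rw [succ_nsmul, add_apply, ih, pow_succ]

theorem sub_apply (χ ψ : mzo_Dual G L) (x : G) : (χ - ψ) x = χ x / ψ x := by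
  rw [sub_eq_add_neg, add_apply, neg_apply, ψ.map_neg, div_eq_mul_inv]

/-! ### the `Γ`-action -/

variable {Γ : Type} [Group Γ] [DistribMulAction Γ G] [MulSemiringAction Γ L]

instance : SMul Γ (mzo_Dual G L) :=
  ⟨fun σ χ => ⟨fun x => σ • χ (σ⁻¹ • x), by rw [smul_zero, χ.map_zero, smul_one],
    fun x y => by rw [smul_add, χ.map_add, smul_mul']⟩⟩

@[simp] theorem smul_apply (σ : Γ) (χ : mzo_Dual G L) (x : G) :
    (σ • χ) x = σ • χ (σ⁻¹ • x) := rfl

instance : DistribMulAction Γ (mzo_Dual G L) where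
  one_smul χ := ext fun x => by rw [smul_apply, inv_one, one_smul, one_smul]
  mul_smul σ τ χ := ext fun x => by
    rw [smul_apply, smul_apply, smul_apply, mul_inv_rev, mul_smul, mul_smul]
  smul_zero σ := ext fun x => by rw [smul_apply, zero_apply, zero_apply, smul_one]
  smul_add σ χ ψ := ext fun x => by
    rw [smul_apply, add_apply, add_apply, smul_apply, smul_apply, smul_mul']

/-- `σ • χ = χ` iff `χ` is a `Γ`-equivariant function. -/
theorem smul_eq_self_iff (σ : Γ) (χ : mzo_Dual G L) :
    σ • χ = χ ↔ ∀ x : G, χ (σ • x) = σ • χ x := by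
  constructor
  · intro h x
    have := congrArg (fun ψ : mzo_Dual G L => ψ (σ • x)) h
    simp only [smul_apply, inv_smul_smul] at this
    exact this.symm
  · intro h
    ext x
    rw [smul_apply, ← h, smul_inv_smul]

end mzo_Dual

/-! ### restriction and inflation -/

section Maps

variable {L : Type} [Field L]

/-- restriction of characters along `ι : F →+ G` -/
def mzo_dualRes {F G : Type} [AddCommGroup F] [AddCommGroup G] (ι : F →+ G) :
    mzo_Dual G L →+ mzo_Dual F L where
  toFun χ := ⟨fun x => χ (ι x), by rw [map_zero, χ.map_zero], fun x y => by rw [map_add, χ.map_add]⟩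
  map_zero' := rfl
  map_add' _ _ := rfl

@[simp] theorem mzo_dualRes_apply {F G : Type} [AddCommGroup F] [AddCommGroup G] (ι : F →+ G)
    (χ : mzo_Dual G L) (x : F) : mzo_dualRes ι χ x = χ (ι x) := rfl

/-- inflation of characters along `π : G →+ E` (the same operation; a second name for clarity) -/
def mzo_dualInf {G E : Type} [AddCommGroup G] [AddCommGroup E] (π : G →+ E) :
    mzo_Dual E L →+ mzo_Dual G L := mzo_dualRes π

@[simp] theorem mzo_dualInf_apply {G E : Type} [AddCommGroup G] [AddCommGroup E] (π : G →+ E)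
    (χ : mzo_Dual E L) (x : G) : mzo_dualInf π χ x = χ (π x) := rfl

theorem mzo_dualRes_smul {Γ : Type} [Group Γ] [MulSemiringAction Γ L]
    {F G : Type} [AddCommGroup F] [AddCommGroup G] [DistribMulAction Γ F] [DistribMulAction Γ G]
    (ι : F →+ G) (hι : ∀ (σ : Γ) (x : F), ι (σ • x) = σ • ι x) (σ : Γ) (χ : mzo_Dual G L) :
    mzo_dualRes ι (σ • χ) = σ • mzo_dualRes ι χ := by
  ext x
  simp only [mzo_dualRes_apply, mzo_Dual.smul_apply, hι]

end Maps

/-! ### the dual lattice -/

section DualOrder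

variable {O : Type} [CommRing O] {L : Type} [Field L] [Algebra O L]
  {G : Type} [AddCommGroup G]

/-- the functions `χ ↦ μ χ` on `Ĝ`, for the `L`-linear functionals `μ` on `Map(G, L)` which are
`O`-valued on `H`. -/
def mzo_dualSet (H : Subalgebra O (G → L)) : Set (mzo_Dual G L → L) :=
  {f | ∃ μ : (G → L) →ₗ[L] L, (∀ φ ∈ H, μ φ ∈ Set.range (algebraMap O L)) ∧
    ∀ χ : mzo_Dual G L, f χ = μ ⇑χ}

/-- **the dual order** `H^D ⊆ Map(Ĝ, L)` (for an order `H` the generating set `mzo_dualSet H` is
already a subalgebra: `mzo_SeamDualOrder`). -/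
def mzo_dualOrder (H : Subalgebra O (G → L)) : Subalgebra O (mzo_Dual G L → L) :=
  Algebra.adjoin O (mzo_dualSet H)

end DualOrder

/-! ### congruence modulo `𝔪_A` -/

section Cong

variable {O : Type} [CommRing O] {L : Type} [Field L] [Algebra O L] (A : ValuationSubring L)
  {G : Type} [AddCommGroup G]

/-- `x ≡ y` modulo `𝔪_A` for the order `H`: the "reduction map" `red_H`. -/
def mzo_Cong (H : Subalgebra O (G → L)) (x y : G) : Prop := ∀ φ ∈ H, φ x - φ y ∈ A.nonunits

/-- `H` is **étale**: it separates every `x ≠ 0` from `0` modulo `𝔪_A`. -/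
def mzo_IsEtale (H : Subalgebra O (G → L)) : Prop :=
  ∀ x : G, x ≠ 0 → ∃ φ ∈ H, φ x - φ 0 ∉ A.nonunits

/-- `H` is **connected**: every point is congruent to `0`. -/
def mzo_IsConn (H : Subalgebra O (G → L)) : Prop := ∀ x : G, mzo_Cong A H x 0

end Cong

end Fermat.Agent.MZ
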