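/-
Project MAZUR (S15), node [HOPF], part `r = 2` (lead ruling #31 (4)(d),(e); deputy: helper13).
THE SEAMS of the Cartier-duality cells.  Prefix `mzo_`.  Mathlib + `MZ/Hopf/{Defs,DualDefs}.lean`.

* `mzo_SeamCharA`     [E-charA] `|Ĝ| = |G|`, characters separate points, characters extend;
* `mzo_SeamCharB`     [E-charB] the characters are an `L`-basis of `Map(G, L)`;
* `mzo_SeamDualOrder` [E-dual]  the dual lattice of an order is an order for `Ĝ`;
* `mzo_SeamSwapQuot`  [E-swap]  `(H ∩ Map(G/F))^D ⊆ H^D |_{(G/F)^}` (integral functionals extend from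
                                the saturated sublattice);
* `mzo_SeamTwoDual`   [E-two]   the dual of the `μ_2`-order `O ⊕ O T` is étale;
* `mzo_SeamNorm`      [D2]      the norm trick: a point incongruent to `ker π` is separated from
                                `0` by a function of `H` which factors through `π`.
Assembly (`MZ/Hopf/Cyc.lean`, helper13; `an order filtered by étale orders is étale` is immediate
with `mzo_IsEtale`): a CONNECTED order on a `2`-group with a `Γ`-stable
filtration by groups of order `2` has an étale dual; hence `Γ` acts on it through the cyclotomic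
character.
-/
import Mathlib
import Fermat.Agent.MZ.Hopf.Defs
import Fermat.Agent.MZ.Hopf.DualDefs

set_option autoImplicit false

noncomputable section

namespace Fermat.Agent.MZ

/-- **[E-charA]** finite abelian duality for `mzo_Dual` (wrap `Mathlib.GroupTheory.FiniteAbelian.
Duality` for `Multiplicative G →* Lˣ`): cardinality, separation, extension of characters. -/
def mzo_SeamCharA : Prop :=
  ∀ (L : Type) [Field L], (∀ n : ℕ, n ≠ 0 → ∃ ζ : L, IsPrimitiveRoot ζ n) →
  ∀ (G : Type) [AddCommGroup G] [Finite G],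
    (Finite (mzo_Dual G L) ∧ Nat.card (mzo_Dual G L) = Nat.card G) ∧
    (∀ x : G, x ≠ 0 → ∃ χ : mzo_Dual G L, χ x ≠ 1) ∧
    ∀ (F : Type) [AddCommGroup F] (ι : F →+ G), Function.Injective ι →
      Function.Surjective (mzo_dualRes (L := L) ι)

/-- **[E-charB]** the characters of a finite abelian group are an `L`-basis of `Map(G, L)`
(independence: `linearIndependent_monoidHom`; spanning: dimension count with [E-charA]). -/
def mzo_SeamCharB : Prop :=
  ∀ (L : Type) [Field L], (∀ n : ℕ, n ≠ 0 → ∃ ζ : L, IsPrimitiveRoot ζ n) →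
  ∀ (G : Type) [AddCommGroup G] [Finite G],
    LinearIndependent L (fun χ : mzo_Dual G L => (χ : G → L)) ∧
    Submodule.span L (Set.range fun χ : mzo_Dual G L => (χ : G → L)) = ⊤

/-- **[E-dual]** the dual lattice of an order `H` for `G` is an order for `Ĝ`; the generating set
`mzo_dualSet H` is already the whole algebra.
[`H` is `O`-free and `L ⊗ H = Map(G, L)` (`mzhp_lat_order`, `mzhp_dedekind`): integral functionals
`= Hom_O(H, O)`, finite; product of `f_μ, f_ν` is `f_{μ * ν}` (convolution, integral by (comul));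
integrality of values: a finite `O`-algebra is integral and `A` is integrally closed; equivariance:
`σ ∘ μ ∘ σ⁻¹ = μ` on `H`, hence everywhere; separation: integral functionals span all functionals;
(comul): `μ (χ χ') = ∑ μ (h_i h_j) μ_i (χ) μ_j (χ')` for a basis `h_i` with dual basis `μ_i`.] -/
def mzo_SeamDualOrder : Prop :=
  ∀ (r : ℕ) (O : Type) [CommRing O] [IsDomain O] [IsDiscreteValuationRing O]
    (L : Type) [Field L] [Algebra O L] (A : ValuationSubring L)
    (Γ : Type) [Group Γ] [MulSemiringAction Γ L], mzo_Ctx r O L A Γ →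
    (∀ n : ℕ, n ≠ 0 → ∃ ζ : L, IsPrimitiveRoot ζ n) →
  ∀ (G : Type) [AddCommGroup G] [Finite G] [DistribMulAction Γ G]
    (H : Subalgebra O (G → L)), mzo_IsOrder A Γ G H →
    (∀ f ∈ mzo_dualOrder H, f ∈ mzo_dualSet H) ∧
    mzo_IsOrder A Γ (mzo_Dual G L) (mzo_dualOrder H)

/-- **[E-swap]** `π : G → E` onto: every integral functional for `mzo_pull π H = H ∩ Map(E, L)`
is induced by an integral functional for `H` (`H ∩ Map(E, L)` is saturated in the free module `H`,
hence a direct summand). -/
def mzo_SeamSwapQuot : Prop :=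
  ∀ (r : ℕ) (O : Type) [CommRing O] [IsDomain O] [IsDiscreteValuationRing O]
    (L : Type) [Field L] [Algebra O L] (A : ValuationSubring L)
    (Γ : Type) [Group Γ] [MulSemiringAction Γ L], mzo_Ctx r O L A Γ →
  ∀ (G : Type) [AddCommGroup G] [Finite G] [DistribMulAction Γ G]
    (E : Type) [AddCommGroup E] [DistribMulAction Γ E] (π : G →+ E),
    Function.Surjective π → (∀ (σ : Γ) (x : G), π (σ • x) = σ • π x) →
  ∀ H : Subalgebra O (G → L), mzo_IsOrder A Γ G H →
  ∀ f ∈ mzo_dualSet (mzo_pull (⇑π) H), ∃ f' ∈ mzo_dualSet H, f = f' ∘ ⇑(mzo_dualInf (L := L) π)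

/-- **[E-two]** `|E| = 2`, `T` the sign character, `H = O ⊕ O T`: the dual order is étale
(the functional `φ ↦ (φ 0 - φ e) / 2 = ` coefficient of `T` is integral and separates the two
characters). -/
def mzo_SeamTwoDual : Prop :=
  ∀ (r : ℕ) (O : Type) [CommRing O] [IsDomain O] [IsDiscreteValuationRing O]
    (L : Type) [Field L] [Algebra O L] (A : ValuationSubring L)
    (Γ : Type) [Group Γ] [MulSemiringAction Γ L], mzo_Ctx r O L A Γ → (2 : L) ≠ 0 →
  ∀ (E : Type) [AddCommGroup E] [Finite E] [DistribMulAction Γ E], Nat.card E = 2 →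
  ∀ T : E → L, (∀ x y : E, T (x + y) = T x * T y) → Function.Injective T →
  ∀ H : Subalgebra O (E → L), mzo_IsOrder A Γ E H → T ∈ H →
    (∀ φ ∈ H, ∃ c : ℕ → O, φ = ∑ j ∈ Finset.range 2, c j • T ^ j) →
    mzo_IsEtale A (mzo_dualOrder H)

/-- **[D2]** THE NORM TRICK.  `π : G → E` onto and equivariant, `H` an order for `G`, `x : G`
incongruent (for `H`, modulo `𝔪_A`) to every point of `ker π`: then some `ψ ∈ H ∩ Map(E, L)`
separates `π x` from `0` modulo `𝔪_A`.
[Lagrange interpolation modulo `𝔪_A` (residue field of `O` = residue field of `A`) gives `φ ∈ H`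
with `φ ≡ 1` on `ker π`, `φ ≡ 0` on `x + ker π`; `ψ (y) := ∏_{f ∈ ker π} φ (y + f)` lies in the
`A`-span of `H` and is `Γ`-equivariant, hence in `H` (`O`-basis of `H` is `L`-independent).] -/
def mzo_SeamNorm : Prop :=
  ∀ (r : ℕ) (O : Type) [CommRing O] [IsDomain O] [IsDiscreteValuationRing O]
    (L : Type) [Field L] [Algebra O L] (A : ValuationSubring L)
    (Γ : Type) [Group Γ] [MulSemiringAction Γ L], mzo_Ctx r O L A Γ →
  ∀ (G : Type) [AddCommGroup G] [Finite G] [DistribMulAction Γ G]
    (E : Type) [AddCommGroup E] [DistribMulAction Γ E] (π : G →+ E),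
    Function.Surjective π → (∀ (σ : Γ) (x : G), π (σ • x) = σ • π x) →
  ∀ H : Subalgebra O (G → L), mzo_IsOrder A Γ G H →
  ∀ x : G, (∀ f : G, π f = 0 → ¬ mzo_Cong A H x f) →
    ∃ ψ ∈ mzo_pull (⇑π) H, ψ (π x) - ψ 0 ∉ A.nonunits

end Fermat.Agent.MZ
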