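/-
Project MAZUR (S15), node [HOPF], part `r = 2` (deputy: helper13).  CELL [E-dual] =
`mzo_SeamDualOrder`: the dual lattice of an order `H` for `G` is an order for the character group
`Ĝ = mzo_Dual G L`, and `mzo_dualSet H` is already an algebra.  Prefix `mzo_`.
Uses helper4's lattice tools (`MZ/Hopf/Quot.lean`).
-/
import Mathlib
import Fermat.Agent.MZ.Hopf.Defs
import Fermat.Agent.MZ.Hopf.DualDefs
import Fermat.Agent.MZ.Hopf.Seams2
import Fermat.Agent.MZ.Hopf.Ctx
import Fermat.Agent.MZ.Hopf.Conn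
import Fermat.Agent.MZ.Hopf.Quot

set_option autoImplicit false
set_option linter.unusedSectionVars false

noncomputable section

namespace Fermat.Agent.MZ

open Polynomial in
/-- a valuation ring containing the image of `O` contains every element integral over `O`. -/
theorem mzo_mem_of_isIntegral {O L : Type} [CommRing O] [Field L] [Algebra O L]
    (A : ValuationSubring L) (hO : ∀ o : O, algebraMap O L o ∈ A) {x : L}
    (hx : IsIntegral O x) : x ∈ A := by
  rw [← A.valuation_le_one_iff]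
  obtain ⟨f, hm, hf⟩ := hx
  by_contra hlt
  push Not at hlt
  by_cases hn : f.natDegree = 0
  · have h1 : f = 1 := Polynomial.eq_one_of_monic_natDegree_zero hm hn
    rw [h1, eval₂_one] at hf
    exact one_ne_zero hf
  · rw [Polynomial.eval₂_eq_sum_range, Finset.sum_range_succ, Polynomial.Monic.coeff_natDegree hm,
      map_one, one_mul, add_eq_zero_iff_eq_neg] at hf
    have hf' := congrArg A.valuation hf
    rw [Valuation.map_neg, map_pow] at hf'
    refine absurd hf' (ne_of_lt (A.valuation.map_sum_lt ?_ ?_))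
    · exact pow_ne_zero _ (ne_of_gt (lt_trans zero_lt_one hlt))
    · intro i hi
      rw [Finset.mem_range] at hi
      rw [map_mul, map_pow]
      have h2 : A.valuation (algebraMap O L (f.coeff i)) ≤ 1 :=
        (A.valuation_le_one_iff _).mpr (hO _)
      exact mul_lt_of_le_one_of_lt h2 (pow_lt_pow_right₀ hlt hi)

section

variable {r : ℕ} {O : Type} [CommRing O] [IsDomain O] [IsDiscreteValuationRing O]
  {L : Type} [Field L] [Algebra O L] {A : ValuationSubring L}
  {Γ : Type} [Group Γ] [MulSemiringAction Γ L]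
  {G : Type} [AddCommGroup G] [DistribMulAction Γ G]

/-- the coefficients of a functional on `Map(G, L)` -/
def mzo_coef [DecidableEq G] (μ : (G → L) →ₗ[L] L) (g : G) : L :=
  μ (fun j => if g = j then 1 else 0)

theorem mzo_functional_eq_sum [Fintype G] [DecidableEq G] (μ : (G → L) →ₗ[L] L) (φ : G → L) :
    μ φ = ∑ g, mzo_coef μ g * φ g := by
  rw [LinearMap.pi_apply_eq_sum_univ μ φ]
  refine Finset.sum_congr rfl fun g _ => ?_
  rw [smul_eq_mul, mul_comm]
  rfl

/-- the functional with given coefficients -/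
def mzo_ofCoef [Fintype G] (m : G → L) : (G → L) →ₗ[L] L where
  toFun φ := ∑ g, m g * φ g
  map_add' φ ψ := by
    simp only [Pi.add_apply, mul_add, Finset.sum_add_distrib]
  map_smul' c φ := by
    simp only [Pi.smul_apply, smul_eq_mul, RingHom.id_apply, Finset.mul_sum]
    refine Finset.sum_congr rfl fun g _ => ?_
    ring

theorem mzo_ofCoef_apply [Fintype G] (m : G → L) (φ : G → L) :
    mzo_ofCoef m φ = ∑ g, m g * φ g := rfl

/-- **an `O`-basis of an order is an `L`-basis of `Map(G, L)`** -/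
theorem mzo_order_basis [Finite G] (hctx : mzo_Ctx r O L A Γ) {H : Subalgebra O (G → L)}
    (hH : mzo_IsOrder A Γ G H) :
    ∃ (m : ℕ) (b : Module.Basis (Fin m) L (G → L)), (∀ γ, (b γ : G → L) ∈ H) ∧
      ∀ φ ∈ H, ∃ c : Fin m → O, φ = ∑ γ, c γ • (b γ : G → L) := by
  classical
  have : Fintype G := Fintype.ofFinite G
  have hinj := hctx.inj
  obtain ⟨m, w, hwN, hwO, hwrep⟩ :=
    mzhp_exists_basis hinj (Subalgebra.toSubmodule H) hH.fin
  have hwL : LinearIndependent L w := (mzhp_lat_order hctx hH).ind w hwN hwO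
  have hspan : ⊤ ≤ Submodule.span L (Set.range w) := by
    by_contra hne
    have hlt : Submodule.span L (Set.range w) < ⊤ := lt_of_le_of_ne le_top (fun h => hne h.ge)
    obtain ⟨f, hf0, hfker⟩ := Submodule.exists_le_ker_of_lt_top _ hlt
    apply hf0
    have hcoef : mzo_coef f = 0 := by
      refine mzhp_dedekind H hH.sep (mzo_coef f) fun φ hφ => ?_
      rw [← mzo_functional_eq_sum]
      obtain ⟨c, hc⟩ := hwrep φ hφ
      rw [hc, map_sum]
      refine Finset.sum_eq_zero fun γ _ => ?_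
      have h1 : f (w γ) = 0 := hfker (Submodule.subset_span ⟨γ, rfl⟩)
      have h2 : c γ • w γ = algebraMap O L (c γ) • w γ := by
        funext x
        simp only [Pi.smul_apply, Algebra.smul_def, Algebra.algebraMap_self, RingHom.id_apply]
      rw [h2, map_smul, h1, smul_zero]
    refine LinearMap.ext fun φ => ?_
    rw [mzo_functional_eq_sum, hcoef]
    simp
  refine ⟨m, Module.Basis.mk hwL hspan, fun γ => ?_, fun φ hφ => ?_⟩
  · rw [Module.Basis.mk_apply]
    exact hwN γ
  · obtain ⟨c, hc⟩ := hwrep φ hφ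
    refine ⟨c, ?_⟩
    rw [hc]
    refine Finset.sum_congr rfl fun γ _ => ?_
    rw [Module.Basis.mk_apply]

end

/-! ### the range of `O → L` is a subring -/

section Range

variable {O : Type} [CommRing O] {L : Type} [Field L] [Algebra O L]

theorem mzo_range_mul {a b : L} (ha : a ∈ Set.range (algebraMap O L))
    (hb : b ∈ Set.range (algebraMap O L)) : a * b ∈ Set.range (algebraMap O L) := by
  obtain ⟨x, rfl⟩ := ha
  obtain ⟨y, rfl⟩ := hb
  exact ⟨x * y, map_mul _ _ _⟩

theorem mzo_range_add {a b : L} (ha : a ∈ Set.range (algebraMap O L))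
    (hb : b ∈ Set.range (algebraMap O L)) : a + b ∈ Set.range (algebraMap O L) := by
  obtain ⟨x, rfl⟩ := ha
  obtain ⟨y, rfl⟩ := hb
  exact ⟨x + y, map_add _ _ _⟩

theorem mzo_range_sum {ι : Type} (s : Finset ι) (f : ι → L)
    (h : ∀ i ∈ s, f i ∈ Set.range (algebraMap O L)) :
    ∑ i ∈ s, f i ∈ Set.range (algebraMap O L) := by
  classical
  induction s using Finset.induction_on with
  | empty => exact ⟨0, by simp⟩
  | insert a s ha ih =>
    rw [Finset.sum_insert ha]
    exact mzo_range_add (h a (Finset.mem_insert_self a s))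
      (ih fun i hi => h i (Finset.mem_insert_of_mem hi))

end Range

section Main

variable {r : ℕ} {O : Type} [CommRing O] [IsDomain O] [IsDiscreteValuationRing O]
  {L : Type} [Field L] [Algebra O L] {A : ValuationSubring L}
  {Γ : Type} [Group Γ] [MulSemiringAction Γ L]
  {G : Type} [AddCommGroup G] [DistribMulAction Γ G] [Finite G]

/-- the constants lie in the dual lattice -/
theorem mzo_dualSet_const (hctx : mzo_Ctx r O L A Γ) {H : Subalgebra O (G → L)}
    (hH : mzo_IsOrder A Γ G H) (c : O) :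
    algebraMap O (mzo_Dual G L → L) c ∈ mzo_dualSet H := by
  refine ⟨algebraMap O L c • LinearMap.proj 0, fun φ hφ => ?_, fun χ => ?_⟩
  · obtain ⟨o, ho⟩ := mzo_exists_val hctx hH hφ (y := 0) (fun σ => smul_zero σ)
    refine ⟨c * o, ?_⟩
    rw [LinearMap.smul_apply, LinearMap.proj_apply, smul_eq_mul, map_mul, ho]
  · rw [LinearMap.smul_apply, LinearMap.proj_apply, smul_eq_mul, χ.map_zero, mul_one]
    rfl

theorem mzo_dualSet_add {H : Subalgebra O (G → L)} {f g : mzo_Dual G L → L}
    (hf : f ∈ mzo_dualSet H) (hg : g ∈ mzo_dualSet H) : f + g ∈ mzo_dualSet H := by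
  obtain ⟨μ, hμ, hfμ⟩ := hf
  obtain ⟨ν, hν, hgν⟩ := hg
  refine ⟨μ + ν, fun φ hφ => ?_, fun χ => ?_⟩
  · rw [LinearMap.add_apply]
    exact mzo_range_add (hμ φ hφ) (hν φ hφ)
  · rw [Pi.add_apply, LinearMap.add_apply, hfμ, hgν]

/-- products: the convolution of two integral functionals is integral -/
theorem mzo_dualSet_mul {H : Subalgebra O (G → L)} (hH : mzo_IsOrder A Γ G H)
    {f g : mzo_Dual G L → L} (hf : f ∈ mzo_dualSet H) (hg : g ∈ mzo_dualSet H) :
    f * g ∈ mzo_dualSet H := by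
  classical
  have : Fintype G := Fintype.ofFinite G
  obtain ⟨μ, hμ, hfμ⟩ := hf
  obtain ⟨ν, hν, hgν⟩ := hg
  set m := mzo_coef μ with hm
  set n := mzo_coef ν with hn
  let lam : (G → L) →ₗ[L] L := ∑ x, ∑ y, (m x * n y) • LinearMap.proj (x + y)
  have hlam : ∀ φ : G → L, lam φ = ∑ x, ∑ y, m x * n y * φ (x + y) := by
    intro φ
    simp only [lam, LinearMap.sum_apply, LinearMap.smul_apply, LinearMap.proj_apply, smul_eq_mul]
  refine ⟨lam, fun φ hφ => ?_, fun χ => ?_⟩
  · obtain ⟨k, a, b, ha, hb, hab⟩ := hH.comul φ hφ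
    have h1 : lam φ = ∑ i, μ (a i) * ν (b i) := by
      rw [hlam]
      have h2 : ∀ i, μ (a i) * ν (b i) = ∑ x, ∑ y, m x * n y * (a i x * b i y) := by
        intro i
        rw [mzo_functional_eq_sum μ, mzo_functional_eq_sum ν, Finset.sum_mul_sum]
        refine Finset.sum_congr rfl fun x _ => Finset.sum_congr rfl fun y _ => ?_
        ring
      calc ∑ x, ∑ y, m x * n y * φ (x + y)
          = ∑ x, ∑ y, ∑ i, m x * n y * (a i x * b i y) := by
            refine Finset.sum_congr rfl fun x _ => Finset.sum_congr rfl fun y _ => ?_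
            rw [hab, Finset.mul_sum]
        _ = ∑ x, ∑ i, ∑ y, m x * n y * (a i x * b i y) := by
            refine Finset.sum_congr rfl fun x _ => ?_
            exact Finset.sum_comm
        _ = ∑ i, ∑ x, ∑ y, m x * n y * (a i x * b i y) := Finset.sum_comm
        _ = ∑ i, μ (a i) * ν (b i) := by simp only [h2]
    rw [h1]
    exact mzo_range_sum _ _ fun i _ => mzo_range_mul (hμ _ (ha i)) (hν _ (hb i))
  · rw [Pi.mul_apply, hfμ, hgν, hlam, mzo_functional_eq_sum μ, mzo_functional_eq_sum ν,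
      Finset.sum_mul_sum]
    refine Finset.sum_congr rfl fun x _ => Finset.sum_congr rfl fun y _ => ?_
    rw [χ.map_add]
    ring

/-- the dual lattice as a subalgebra -/
def mzo_dualSub (hctx : mzo_Ctx r O L A Γ) {H : Subalgebra O (G → L)}
    (hH : mzo_IsOrder A Γ G H) : Subalgebra O (mzo_Dual G L → L) where
  carrier := mzo_dualSet H
  mul_mem' := fun hf hg => mzo_dualSet_mul hH hf hg
  add_mem' := fun hf hg => mzo_dualSet_add hf hg
  algebraMap_mem' := fun c => mzo_dualSet_const hctx hH c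

theorem mzo_dualOrder_eq (hctx : mzo_Ctx r O L A Γ) {H : Subalgebra O (G → L)}
    (hH : mzo_IsOrder A Γ G H) : mzo_dualOrder H = mzo_dualSub hctx hH := by
  apply le_antisymm
  · exact Algebra.adjoin_le fun f hf => hf
  · intro f hf
    exact Algebra.subset_adjoin hf

theorem mzo_mem_dualOrder_iff (hctx : mzo_Ctx r O L A Γ) {H : Subalgebra O (G → L)}
    (hH : mzo_IsOrder A Γ G H) {f : mzo_Dual G L → L} :
    f ∈ mzo_dualOrder H ↔ f ∈ mzo_dualSet H := by
  rw [mzo_dualOrder_eq hctx hH]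
  rfl

/-- the coordinate functionals of an `O`-basis of `H` are integral -/
theorem mzo_coord_mem {H : Subalgebra O (G → L)} {m : ℕ} (b : Module.Basis (Fin m) L (G → L))
    (hrep : ∀ φ ∈ H, ∃ c : Fin m → O, φ = ∑ γ, c γ • (b γ : G → L)) (γ : Fin m) :
    (fun χ : mzo_Dual G L => b.coord γ ⇑χ) ∈ mzo_dualSet H := by
  refine ⟨b.coord γ, fun φ hφ => ?_, fun χ => rfl⟩
  obtain ⟨c, hc⟩ := hrep φ hφ
  refine ⟨c γ, ?_⟩
  have h2 : ∀ δ, c δ • (b δ : G → L) = algebraMap O L (c δ) • (b δ : G → L) := by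
    intro δ
    funext x
    simp only [Pi.smul_apply, Algebra.smul_def, Algebra.algebraMap_self, RingHom.id_apply]
  rw [hc]
  simp only [h2]
  rw [map_sum]
  simp only [map_smul, Module.Basis.coord_apply, Module.Basis.repr_self, smul_eq_mul]
  rw [Finset.sum_eq_single γ]
  · simp
  · intro δ _ hδ
    simp [hδ]
  · intro h
    exact absurd (Finset.mem_univ γ) h

/-- an integral functional is the `O`-combination of the coordinate functionals -/
theorem mzo_functional_eq_coord {m : ℕ}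
    (b : Module.Basis (Fin m) L (G → L)) (μ : (G → L) →ₗ[L] L) (φ : G → L) :
    μ φ = ∑ γ, μ (b γ) * b.coord γ φ := by
  conv_lhs => rw [← b.sum_repr φ]
  rw [map_sum]
  refine Finset.sum_congr rfl fun γ _ => ?_
  rw [map_smul, smul_eq_mul, mul_comm]
  rfl

/-- finiteness of the dual order -/
theorem mzo_dualOrder_finite (hctx : mzo_Ctx r O L A Γ) {H : Subalgebra O (G → L)}
    (hH : mzo_IsOrder A Γ G H) : Module.Finite O ↥(mzo_dualOrder H) := by
  obtain ⟨m, b, hbH, hrep⟩ := mzo_order_basis hctx hH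
  have hmem : ∀ c : Fin m → O,
      (∑ γ, c γ • (fun χ : mzo_Dual G L => b.coord γ ⇑χ)) ∈ mzo_dualOrder H := by
    intro c
    exact Subalgebra.sum_mem _ fun γ _ => Subalgebra.smul_mem _
      ((mzo_mem_dualOrder_iff hctx hH).mpr (mzo_coord_mem b hrep γ)) _
  let F : (Fin m → O) →ₗ[O] ↥(mzo_dualOrder H) :=
    { toFun := fun c => ⟨∑ γ, c γ • (fun χ : mzo_Dual G L => b.coord γ ⇑χ), hmem c⟩
      map_add' := fun c d => by
        apply Subtype.ext
        simp only [Pi.add_apply, add_smul, Finset.sum_add_distrib]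
        rfl
      map_smul' := fun a c => by
        apply Subtype.ext
        show (∑ γ, (a • c) γ • (fun χ : mzo_Dual G L => b.coord γ ⇑χ))
          = a • ∑ γ, c γ • (fun χ : mzo_Dual G L => b.coord γ ⇑χ)
        rw [Finset.smul_sum]
        refine Finset.sum_congr rfl fun γ _ => ?_
        rw [Pi.smul_apply, smul_eq_mul, mul_smul] }
  refine Module.Finite.of_surjective F ?_
  rintro ⟨f, hf⟩
  obtain ⟨μ, hμ, hfμ⟩ := (mzo_mem_dualOrder_iff hctx hH).mp hf
  choose o ho using fun γ => hμ (b γ) (hbH γ)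
  refine ⟨o, ?_⟩
  apply Subtype.ext
  funext χ
  show (∑ γ, o γ • (fun χ : mzo_Dual G L => b.coord γ ⇑χ)) χ = f χ
  rw [hfμ, mzo_functional_eq_coord b μ ⇑χ, Finset.sum_apply]
  refine Finset.sum_congr rfl fun γ _ => ?_
  rw [Pi.smul_apply, Algebra.smul_def, ho]

/-- integrality of the values of the dual order -/
theorem mzo_dualOrder_int (hctx : mzo_Ctx r O L A Γ) {H : Subalgebra O (G → L)}
    (hH : mzo_IsOrder A Γ G H) (f : mzo_Dual G L → L) (hf : f ∈ mzo_dualOrder H)
    (χ : mzo_Dual G L) : f χ ∈ A := by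
  have := mzo_dualOrder_finite hctx hH
  have hint : Algebra.IsIntegral O ↥(mzo_dualOrder H) := Algebra.IsIntegral.of_finite O _
  have h1 : IsIntegral O (⟨f, hf⟩ : ↥(mzo_dualOrder H)) := Algebra.IsIntegral.isIntegral _
  let ev : ↥(mzo_dualOrder H) →ₐ[O] L :=
    (Pi.evalAlgHom O (fun _ : mzo_Dual G L => L) χ).comp (mzo_dualOrder H).val
  have h2 : IsIntegral O (ev ⟨f, hf⟩) := h1.map ev
  exact mzo_mem_of_isIntegral A hctx.mem_A h2

/-- the coefficients of an integral functional are equivariant -/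
theorem mzo_coef_equiv [Fintype G] [DecidableEq G] (hctx : mzo_Ctx r O L A Γ)
    {H : Subalgebra O (G → L)} (hH : mzo_IsOrder A Γ G H) (μ : (G → L) →ₗ[L] L)
    (hμ : ∀ φ ∈ H, μ φ ∈ Set.range (algebraMap O L)) (σ : Γ) (g : G) :
    σ • mzo_coef μ (σ⁻¹ • g) = mzo_coef μ g := by
  have key : (fun g => σ • mzo_coef μ (σ⁻¹ • g) - mzo_coef μ g) = 0 := by
    refine mzhp_dedekind H hH.sep _ fun φ hφ => ?_
    simp only [sub_mul, Finset.sum_sub_distrib]
    rw [← mzo_functional_eq_sum μ φ, sub_eq_zero]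
    obtain ⟨o, ho⟩ := hμ φ hφ
    have h1 : σ • μ φ = μ φ := by rw [← ho, hctx.fixed]
    rw [← h1, mzo_functional_eq_sum μ φ, Finset.smul_sum]
    refine Finset.sum_nbij' (fun g => σ⁻¹ • g) (fun g => σ • g) (fun _ _ => Finset.mem_univ _)
      (fun _ _ => Finset.mem_univ _) (fun g _ => smul_inv_smul σ g) (fun g _ => inv_smul_smul σ g)
      (fun g _ => ?_)
    rw [smul_mul', ← hH.equiv φ hφ, smul_inv_smul]
  have := congrFun key g
  simpa [sub_eq_zero] using this

/-- equivariance of the dual lattice -/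
theorem mzo_dualSet_equiv (hctx : mzo_Ctx r O L A Γ) {H : Subalgebra O (G → L)}
    (hH : mzo_IsOrder A Γ G H) (f : mzo_Dual G L → L) (hf : f ∈ mzo_dualSet H) (σ : Γ)
    (χ : mzo_Dual G L) : f (σ • χ) = σ • f χ := by
  classical
  have : Fintype G := Fintype.ofFinite G
  obtain ⟨μ, hμ, hfμ⟩ := hf
  rw [hfμ, hfμ, mzo_functional_eq_sum μ, mzo_functional_eq_sum μ, Finset.smul_sum]
  refine Finset.sum_nbij' (fun g => σ⁻¹ • g) (fun g => σ • g) (fun _ _ => Finset.mem_univ _)
    (fun _ _ => Finset.mem_univ _) (fun g _ => smul_inv_smul σ g) (fun g _ => inv_smul_smul σ g)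
    (fun g _ => ?_)
  rw [smul_mul', mzo_coef_equiv hctx hH μ hμ σ g, mzo_Dual.smul_apply]

/-- **[E-dual]** -/
theorem mzo_dualOrder_main : mzo_SeamDualOrder := by
  intro r O _ _ _ L _ _ A Γ _ _ hctx _ G _ _ _ H hH
  classical
  refine ⟨fun f hf => (mzo_mem_dualOrder_iff hctx hH).mp hf, ?_⟩
  obtain ⟨m, b, hbH, hrep⟩ := mzo_order_basis hctx hH
  have hcoord : ∀ γ, (fun χ : mzo_Dual G L => b.coord γ ⇑χ) ∈ mzo_dualOrder H :=
    fun γ => (mzo_mem_dualOrder_iff hctx hH).mpr (mzo_coord_mem b hrep γ)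
  refine ⟨mzo_dualOrder_int hctx hH, ?_, ?_, mzo_dualOrder_finite hctx hH, ?_⟩
  · intro f hf σ χ
    exact mzo_dualSet_equiv hctx hH f ((mzo_mem_dualOrder_iff hctx hH).mp hf) σ χ
  · intro χ χ' hne
    by_contra hcon
    apply hne
    apply mzo_Dual.ext
    have h1 : (⇑χ : G → L) = ⇑χ' := by
      apply b.ext_elem
      intro γ
      by_contra h
      exact hcon ⟨_, hcoord γ, h⟩
    exact fun x => congrFun h1 x
  · intro f hf
    obtain ⟨μ, hμ, hfμ⟩ := (mzo_mem_dualOrder_iff hctx hH).mp hf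
    choose o ho using fun p : Fin m × Fin m =>
      hμ ((b p.1 : G → L) * (b p.2 : G → L)) (H.mul_mem (hbH p.1) (hbH p.2))
    let e := Fintype.equivFin (Fin m × Fin m)
    refine ⟨Fintype.card (Fin m × Fin m),
      fun i => o (e.symm i) • (fun χ : mzo_Dual G L => b.coord (e.symm i).1 ⇑χ),
      fun i => (fun χ : mzo_Dual G L => b.coord (e.symm i).2 ⇑χ),
      fun i => Subalgebra.smul_mem _ (hcoord _) _, fun i => hcoord _, fun χ χ' => ?_⟩
    rw [hfμ]
    have h1 : (⇑(χ + χ') : G → L) = ∑ p : Fin m × Fin m,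
        (b.coord p.1 ⇑χ * b.coord p.2 ⇑χ') • ((b p.1 : G → L) * (b p.2 : G → L)) := by
      have hχ : (⇑(χ + χ') : G → L) = (⇑χ : G → L) * ⇑χ' := rfl
      rw [hχ]
      conv_lhs => rw [← b.sum_repr ⇑χ, ← b.sum_repr ⇑χ']
      rw [Finset.sum_mul_sum, Fintype.sum_prod_type]
      refine Finset.sum_congr rfl fun γ _ => Finset.sum_congr rfl fun δ _ => ?_
      rw [smul_mul_smul_comm]
      rfl
    rw [h1, map_sum]
    rw [← Equiv.sum_comp e.symm]
    refine Finset.sum_congr rfl fun i _ => ?_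
    rw [map_smul, ← ho]
    show _ • _ = (o (e.symm i) • fun χ : mzo_Dual G L => b.coord (e.symm i).1 ⇑χ) χ
      * b.coord (e.symm i).2 ⇑χ'
    rw [Pi.smul_apply, smul_eq_mul, Algebra.smul_def]
    ring

end Main

end Fermat.Agent.MZ
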