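/-
MAZUR / node [HOPF], cell (E1) (helper17, prefix `mzh1_`): the "e = 1 lemma" in function form.

Let `R` be a commutative ring in which the odd number `r` is a non-zero-divisor and which is
`r`-adically separated (e.g. a DVR with uniformiser `r`).  Let `𝒥` be a set of functions `G → R` on an
additive group, vanishing at `0` and satisfying the *primitive-up-to-`𝒥 ⊗ 𝒥`* property

  `[A]`  `f (x + y) = f x + f y + ∑ i, a i x * b i y` with `a i, b i ∈ 𝒥`

(this is what closedness under the comultiplication gives on the augmentation ideal of a Hopf order).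
If `r • x = 0` and every `f ∈ 𝒥` takes values divisible by `r` on the multiples of `x`
("`x` lies in the connected part"), then every `f ∈ 𝒥` vanishes on the multiples of `x`.
Mathlib only.
-/
import Mathlib

set_option autoImplicit false

namespace Fermat.Agent.MZ

open Finset

/-- property `[A]` of a set of functions -/
def mzh1_A {G R : Type*} [AddCommGroup G] [CommRing R] (J : Set (G → R)) : Prop :=
  ∀ f ∈ J, ∃ (n : ℕ) (a b : Fin n → G → R), (∀ i, a i ∈ J) ∧ (∀ i, b i ∈ J) ∧
    ∀ x y : G, f (x + y) = f x + f y + ∑ i, a i x * b i y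

section

variable {G R : Type*} [AddCommGroup G] [CommRing R]

/-- additivity modulo `c ^ (2 t)` along the multiples of `y` -/
theorem mzh1_additive_mod (J : Set (G → R)) (hA : mzh1_A J) (h0 : ∀ f ∈ J, f 0 = 0) (c : R) (t : ℕ)
    (y : G) (hdiv : ∀ f ∈ J, ∀ k : ℕ, c ^ t ∣ f (k • y)) (f : G → R) (hf : f ∈ J) (j : ℕ) :
    c ^ (2 * t) ∣ f (j • y) - j * f y := by
  induction j with
  | zero => simp [h0 f hf]
  | succ j ih =>
    obtain ⟨n, a, b, ha, hb, hab⟩ := hA f hf
    have e : f ((j + 1) • y) - ((j + 1 : ℕ) : R) * f y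
        = (f (j • y) - j * f y) + ∑ i, a i (j • y) * b i y := by
      rw [succ_nsmul, hab]; push_cast; ring
    rw [e]
    refine dvd_add ih (Finset.dvd_sum fun i _ => ?_)
    have h1 := hdiv (a i) (ha i) j
    have h2 := hdiv (b i) (hb i) 1
    rw [one_nsmul] at h2
    rw [two_mul, pow_add]
    exact mul_dvd_mul h1 h2

/-- the telescoping identity `f (m • y) = m * f y + ∑_{j < m} ∑ i, a i (j • y) * b i y` -/
theorem mzh1_telescope (f : G → R) (h0 : f 0 = 0) {n : ℕ} (a b : Fin n → G → R)
    (hab : ∀ x y : G, f (x + y) = f x + f y + ∑ i, a i x * b i y) (y : G) (m : ℕ) :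
    f (m • y) = m * f y + ∑ j ∈ range m, ∑ i, a i (j • y) * b i y := by
  induction m with
  | zero => simp [h0]
  | succ m ih =>
    rw [succ_nsmul, hab, ih, sum_range_succ]; push_cast; ring

/-- **(E1), inductive step.** -/
theorem mzh1_step (J : Set (G → R)) (hA : mzh1_A J) (h0 : ∀ f ∈ J, f 0 = 0) (r : ℕ) (hodd : Odd r)
    (hnzd : ∀ a : R, (r : R) * a = 0 → a = 0) (x : G) (hx : r • x = 0) (t : ℕ) (ht : 1 ≤ t)
    (hdiv : ∀ f ∈ J, ∀ k : ℕ, (r : R) ^ t ∣ f (k • x)) :
    ∀ f ∈ J, ∀ k : ℕ, (r : R) ^ (t + 1) ∣ f (k • x) := by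
  intro f hf k
  set y := k • x with hy
  have hry : r • y = 0 := by rw [hy, smul_comm, hx, smul_zero]
  have hdivy : ∀ g ∈ J, ∀ j : ℕ, (r : R) ^ t ∣ g (j • y) := by
    intro g hg j
    rw [hy, ← mul_smul]
    exact hdiv g hg _
  obtain ⟨n, a, b, ha, hb, hab⟩ := hA f hf
  have htel := mzh1_telescope f (h0 f hf) a b hab y r
  rw [hry, h0 f hf] at htel
  obtain ⟨m, hm⟩ := hodd
  -- each inner term
  have hterm : ∀ i : Fin n, (r : R) ^ (t + 2) ∣ ∑ j ∈ range r, a i (j • y) * b i y := by
    intro i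
    have hsplit : ∑ j ∈ range r, a i (j • y) * b i y
        = (∑ j ∈ range r, (a i (j • y) - j * a i y) * b i y)
          + (∑ j ∈ range r, (j : R)) * (a i y * b i y) := by
      rw [Finset.sum_mul, ← Finset.sum_add_distrib]
      refine Finset.sum_congr rfl fun j _ => ?_
      ring
    rw [hsplit]
    refine dvd_add (Finset.dvd_sum fun j _ => ?_) ?_
    · have h1 := mzh1_additive_mod J hA h0 (r : R) t y hdivy (a i) (ha i) j
      have h2 := hdivy (b i) (hb i) 1
      rw [one_nsmul] at h2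
      have h3 : (r : R) ^ (2 * t + t) ∣ (a i (j • y) - j * a i y) * b i y := by
        rw [pow_add]; exact mul_dvd_mul h1 h2
      exact (pow_dvd_pow _ (by omega)).trans h3
    · have hs : (∑ j ∈ range r, (j : R)) = (r : R) * (m : R) := by
        have key : ((∑ j ∈ range r, j : ℕ) : R) = (m : R) * (r : R) := by
          have h4 : (∑ j ∈ range r, j) * 2 = (m * r) * 2 := by
            rw [Finset.sum_range_id_mul_two, hm]
            have : 2 * m + 1 - 1 = 2 * m := by omega
            rw [this]; ring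
          have h5 : (∑ j ∈ range r, j) = m * r := Nat.eq_of_mul_eq_mul_right (by norm_num) h4
          rw [h5]; push_cast; ring
        rw [← Nat.cast_sum, key]; ring
      rw [hs]
      have h1 := hdivy (a i) (ha i) 1
      have h2 := hdivy (b i) (hb i) 1
      rw [one_nsmul] at h1 h2
      have h3 : (r : R) ^ (1 + (t + t)) ∣ (r : R) * (m : R) * (a i y * b i y) := by
        rw [pow_add, pow_one, mul_assoc]
        refine mul_dvd_mul_left _ ?_
        rw [pow_add]
        exact Dvd.dvd.mul_left (mul_dvd_mul h1 h2) _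
      exact (pow_dvd_pow _ (by omega)).trans h3
  have hsum : (r : R) ^ (t + 2) ∣ ∑ j ∈ range r, ∑ i, a i (j • y) * b i y := by
    rw [Finset.sum_comm]
    exact Finset.dvd_sum fun i _ => hterm i
  obtain ⟨w, hw⟩ := hsum
  refine ⟨-w, ?_⟩
  apply sub_eq_zero.mp
  apply hnzd
  have : (r : R) * (f y - (r : R) ^ (t + 1) * -w)
      = (r : R) * f y + ∑ j ∈ range r, ∑ i, a i (j • y) * b i y := by
    rw [hw]; ring
  rw [this]
  exact htel.symm

/-- **(E1).**  `r` odd and a non-zero-divisor in the `r`-adically separated ring `R`; `𝒥` has property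
`[A]`; `r • x = 0`; every `f ∈ 𝒥` is divisible by `r` on the multiples of `x`.  Then every `f ∈ 𝒥`
vanishes on the multiples of `x`. -/
theorem mzh1_E1 (J : Set (G → R)) (hA : mzh1_A J) (h0 : ∀ f ∈ J, f 0 = 0) (r : ℕ) (hodd : Odd r)
    (hnzd : ∀ a : R, (r : R) * a = 0 → a = 0)
    (hsep : ∀ a : R, (∀ n : ℕ, (r : R) ^ n ∣ a) → a = 0)
    (x : G) (hx : r • x = 0) (hconn : ∀ f ∈ J, ∀ k : ℕ, (r : R) ∣ f (k • x)) :
    ∀ f ∈ J, ∀ k : ℕ, f (k • x) = 0 := by
  have hall : ∀ t : ℕ, 1 ≤ t → ∀ f ∈ J, ∀ k : ℕ, (r : R) ^ t ∣ f (k • x) := by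
    intro t ht
    induction t, ht using Nat.le_induction with
    | base => simpa using hconn
    | succ t ht ih => exact mzh1_step J hA h0 r hodd hnzd x hx t ht ih
  intro f hf k
  apply hsep
  intro n
  rcases Nat.eq_zero_or_pos n with rfl | hn
  · simp
  · exact hall n hn f hf k

end

end Fermat.Agent.MZ
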