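/-
Project MAZUR (S15), node [HOPF] (deputy: helper13).  CELL [B1] = `mzo_SeamConn`, from helper17's
function-form lemma `mzh1_E1` (`MZ/Hopf/E1.lean`): for `r` odd and `e = 1`, a `Γ`-fixed point `x`
with `r x = 0` which every function of an order sends into `φ 0 + 𝔪_A` is `0`.
Prefix `mzo_`.
-/
import Mathlib
import Fermat.Agent.MZ.Hopf.Defs
import Fermat.Agent.MZ.Hopf.Seams
import Fermat.Agent.MZ.Hopf.Ctx
import Fermat.Agent.MZ.Hopf.E1

set_option autoImplicit false
set_option linter.unusedSectionVars false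

noncomputable section

namespace Fermat.Agent.MZ

variable {r : ℕ} {O : Type} [CommRing O] [IsDomain O] [IsDiscreteValuationRing O]
  {L : Type} [Field L] [Algebra O L] {A : ValuationSubring L}
  {Γ : Type} [Group Γ] [MulSemiringAction Γ L]

/-! ### the ideal `𝔪_A` -/

theorem mzo_nonunits_zero : (0 : L) ∈ A.nonunits := by
  rw [ValuationSubring.mem_nonunits_iff, map_zero]
  exact zero_lt_one

theorem mzo_nonunits_add {a b : L} (ha : a ∈ A.nonunits) (hb : b ∈ A.nonunits) :
    a + b ∈ A.nonunits := by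
  rw [ValuationSubring.mem_nonunits_iff] at *
  exact Valuation.map_add_lt _ ha hb

theorem mzo_nonunits_neg {a : L} (ha : a ∈ A.nonunits) : -a ∈ A.nonunits := by
  rw [ValuationSubring.mem_nonunits_iff] at *
  rwa [Valuation.map_neg]

theorem mzo_nonunits_sub {a b : L} (ha : a ∈ A.nonunits) (hb : b ∈ A.nonunits) :
    a - b ∈ A.nonunits := by
  rw [sub_eq_add_neg]
  exact mzo_nonunits_add ha (mzo_nonunits_neg hb)

theorem mzo_nonunits_mul_mem {a b : L} (ha : a ∈ A.nonunits) (hb : b ∈ A) :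
    a * b ∈ A.nonunits := by
  rw [ValuationSubring.mem_nonunits_iff] at *
  rw [map_mul]
  have hb' : A.valuation b ≤ 1 := (A.valuation_le_one_iff _).mpr hb
  calc A.valuation a * A.valuation b ≤ A.valuation a * 1 := mul_le_mul_right hb' _
    _ < 1 := by rwa [mul_one]

theorem mzo_mem_mul_nonunits {a b : L} (ha : a ∈ A) (hb : b ∈ A.nonunits) :
    a * b ∈ A.nonunits := by
  rw [mul_comm]
  exact mzo_nonunits_mul_mem hb ha

theorem mzo_nonunits_sum {ι : Type} (s : Finset ι) (f : ι → L) (h : ∀ i ∈ s, f i ∈ A.nonunits) :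
    ∑ i ∈ s, f i ∈ A.nonunits := by
  rw [ValuationSubring.mem_nonunits_iff]
  refine Valuation.map_sum_lt _ one_ne_zero fun i hi => ?_
  rw [← ValuationSubring.mem_nonunits_iff]
  exact h i hi

/-! ### values at fixed points -/

/-- the value of a function of an order at a `Γ`-fixed point lies in `O`. -/
theorem mzo_exists_val (hctx : mzo_Ctx r O L A Γ)
    {G : Type} [AddCommGroup G] [DistribMulAction Γ G] {H : Subalgebra O (G → L)}
    (hH : mzo_IsOrder A Γ G H) {φ : G → L} (hφ : φ ∈ H) {y : G} (hy : ∀ σ : Γ, σ • y = y) :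
    ∃ o : O, algebraMap O L o = φ y := by
  refine hctx.exists_of_fixed (hH.int φ hφ y) fun σ => ?_
  rw [← hH.equiv φ hφ σ y, hy]

/-- `φ - φ 0 ∈ H` (the constant `φ 0` lies in `O`). -/
theorem mzo_sub_const_mem (hctx : mzo_Ctx r O L A Γ)
    {G : Type} [AddCommGroup G] [DistribMulAction Γ G] {H : Subalgebra O (G → L)}
    (hH : mzo_IsOrder A Γ G H) {φ : G → L} (hφ : φ ∈ H) :
    (fun y => φ y - φ 0) ∈ H := by
  obtain ⟨o, ho⟩ := mzo_exists_val hctx hH hφ (y := 0) (fun σ => smul_zero σ)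
  have : (fun y => φ y - φ 0) = φ - algebraMap O (G → L) o := by
    funext y
    simp only [Pi.sub_apply, Pi.algebraMap_apply, ho]
  rw [this]
  exact H.sub_mem hφ (H.algebraMap_mem o)

/-- the congruence class of `0` modulo `𝔪_A` is closed under multiples. -/
theorem mzo_conn_nsmul {G : Type} [AddCommGroup G] [DistribMulAction Γ G]
    {H : Subalgebra O (G → L)} (hH : mzo_IsOrder A Γ G H) {x : G}
    (hconn : ∀ φ ∈ H, φ x - φ 0 ∈ A.nonunits) (k : ℕ) :
    ∀ φ ∈ H, φ (k • x) - φ 0 ∈ A.nonunits := by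
  induction k with
  | zero =>
    intro φ _
    rw [zero_nsmul, sub_self]
    exact mzo_nonunits_zero
  | succ k ih =>
    intro φ hφ
    obtain ⟨n, a, b, ha, hb, h⟩ := hH.comul φ hφ
    have h1 : φ ((k + 1) • x) = ∑ i, a i (k • x) * b i x := by rw [succ_nsmul, h]
    have h2 : φ 0 = ∑ i, a i 0 * b i 0 := by
      have := h 0 0
      rwa [add_zero] at this
    rw [h1, h2, ← Finset.sum_sub_distrib]
    refine mzo_nonunits_sum _ _ fun i _ => ?_
    have : a i (k • x) * b i x - a i 0 * b i 0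
        = (a i (k • x) - a i 0) * b i x + a i 0 * (b i x - b i 0) := by ring
    rw [this]
    exact mzo_nonunits_add (mzo_nonunits_mul_mem (ih (a i) (ha i)) (hH.int _ (hb i) _))
      (mzo_mem_mul_nonunits (hH.int _ (ha i) _) (hconn (b i) (hb i)))

/-! ### [B1] -/

/-- **[B1]** `mzo_SeamConn`. -/
theorem mzo_conn : mzo_SeamConn := by
  intro r O _ _ _ L _ _ A Γ _ _ hctx hr2 G _ _ _ H hH x hfix hrx hconn
  classical
  have hodd : Odd r := hctx.r_prime.eq_two_or_odd'.resolve_left hr2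
  -- the cyclic group generated by `x`: all its points are `Γ`-fixed
  let G' := AddSubgroup.zmultiples x
  have hfix' : ∀ y : ↥G', ∀ σ : Γ, σ • (y : G) = y := by
    rintro ⟨y, hy⟩ σ
    obtain ⟨n, rfl⟩ := AddSubgroup.mem_zmultiples_iff.mp hy
    show σ • (n • x) = n • x
    have := map_zsmul (DistribSMul.toAddMonoidHom G σ) n x
    simp only [DistribSMul.toAddMonoidHom_apply] at this
    rw [this, hfix]
  -- the set `J` of `O`-valued functions on `G'` induced by the `φ ∈ H` with `φ 0 = 0`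
  let J : Set (↥G' → O) :=
    {f | ∃ φ ∈ H, φ 0 = 0 ∧ ∀ y : ↥G', algebraMap O L (f y) = φ y}
  have hlift : ∀ φ ∈ H, φ 0 = 0 → ∃ f ∈ J, ∀ y : ↥G', algebraMap O L (f y) = φ y := by
    intro φ hφ h0
    have hex : ∀ y : ↥G', ∃ o : O, algebraMap O L o = φ y :=
      fun y => mzo_exists_val hctx hH hφ (hfix' y)
    exact ⟨fun y => (hex y).choose, ⟨φ, hφ, h0, fun y => (hex y).choose_spec⟩,
      fun y => (hex y).choose_spec⟩
  have hA : mzh1_A J := by
    rintro f ⟨φ, hφ, h0, hf⟩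
    obtain ⟨n, a, b, ha, hb, h⟩ := hH.comul φ hφ
    have ha' : ∀ i, (fun y => a i y - a i 0) ∈ H := fun i => mzo_sub_const_mem hctx hH (ha i)
    have hb' : ∀ i, (fun y => b i y - b i 0) ∈ H := fun i => mzo_sub_const_mem hctx hH (hb i)
    choose fa hfaJ hfa using fun i => hlift _ (ha' i) (sub_self _)
    choose fb hfbJ hfb using fun i => hlift _ (hb' i) (sub_self _)
    refine ⟨n, fa, fb, hfaJ, hfbJ, fun u v => ?_⟩
    apply hctx.inj
    rw [map_add, map_add, map_sum, hf, hf, hf]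
    simp only [map_mul, hfa, hfb]
    have e1 : φ ((u : G) + 0) = ∑ i, a i u * b i 0 := h u 0
    have e2 : φ (0 + (v : G)) = ∑ i, a i 0 * b i v := h 0 v
    have e3 : φ ((0 : G) + 0) = ∑ i, a i 0 * b i 0 := h 0 0
    rw [add_zero] at e1 e3
    rw [zero_add] at e2
    have e4 : ∑ i, (a i u - a i 0) * (b i v - b i 0)
        = (∑ i, a i u * b i v) - (∑ i, a i u * b i 0) - (∑ i, a i 0 * b i v)
          + ∑ i, a i 0 * b i 0 := by
      rw [← Finset.sum_sub_distrib, ← Finset.sum_sub_distrib, ← Finset.sum_add_distrib]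
      refine Finset.sum_congr rfl fun i _ => ?_
      ring
    rw [e4, ← e1, ← e2, ← e3, h0, AddSubgroup.coe_add, h]
    ring
  have hJ0 : ∀ f ∈ J, f 0 = 0 := by
    rintro f ⟨φ, _, h0, hf⟩
    apply hctx.inj
    rw [hf, map_zero]
    exact h0
  have hnzd : ∀ a : O, ((r : ℕ) : O) * a = 0 → a = 0 := by
    intro a ha
    rcases mul_eq_zero.mp ha with h | h
    · exact absurd h hctx.r_ne_zero
    · exact h
  let x' : ↥G' := ⟨x, AddSubgroup.mem_zmultiples x⟩
  have hx' : r • x' = 0 := Subtype.ext hrx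
  have hconnJ : ∀ f ∈ J, ∀ k : ℕ, ((r : ℕ) : O) ∣ f (k • x') := by
    rintro f ⟨φ, hφ, h0, hf⟩ k
    apply hctx.dvd_of_nonunit
    rw [hf]
    have := mzo_conn_nsmul hH hconn k φ hφ
    rw [h0, sub_zero] at this
    exact this
  have hE1 := mzh1_E1 J hA hJ0 r hodd hnzd hctx.sep x' hx' hconnJ
  -- conclusion: all `φ ∈ H` agree at `x` and `0`
  by_contra hne
  obtain ⟨φ, hφ, hsep⟩ := hH.sep x 0 hne
  apply hsep
  obtain ⟨f, hfJ, hf⟩ := hlift _ (mzo_sub_const_mem hctx hH hφ) (sub_self _)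
  have h1 := hE1 f hfJ 1
  rw [one_nsmul] at h1
  have h2 := hf x'
  rw [h1, map_zero] at h2
  exact (sub_eq_zero.mp h2.symm)

end Fermat.Agent.MZ
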