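/-
MAZUR / node [HOPF], cell [D2] (helper3, prefix `mzhp_n_`): the seam `mzo_SeamNorm` (THE NORM TRICK)
is CLOSED.

`π : G → E` onto and equivariant, `H` an order for `G`, `x : G` incongruent (mod `𝔪_A`, for `H`) to
every point of `ker π`: some `ψ ∈ H ∩ Map(E, L)` separates `π x` from `0` modulo `𝔪_A`.
1. `mzo_Cong` is translation invariant (comul);
2. LAGRANGE INTERPOLATION modulo `𝔪_A` inside `H` (`res_full`: the residue field of `O` is all of
   `A / 𝔪_A`): for finite sets `Z0`, `Z1` of pairwise incongruent points there is `φ ∈ H` with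
   `φ ≡ 1` on `Z0`, `φ ≡ 0` on `Z1`;
3. the NORM `ψ y = ∏_{f ∈ ker π} φ (y + f)` lies in the `A`-span of `H` (translates of `φ` do, by
   comul), is `Γ`-equivariant and `ker π`-invariant; an equivariant element of the `A`-span of `H`
   lies in `H` (an `O`-basis of `H` is `L`-independent: helper4's `mzhp_lat_of_equiv`, and
   `A ∩ L^Γ = O`).
-/
import Mathlib
import Fermat.Agent.MZ.Hopf.Defs
import Fermat.Agent.MZ.Hopf.DualDefs
import Fermat.Agent.MZ.Hopf.Seams2
import Fermat.Agent.MZ.Hopf.Ctx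
import Fermat.Agent.MZ.Hopf.Conn
import Fermat.Agent.MZ.Hopf.Quot

set_option autoImplicit false
set_option linter.unusedSectionVars false

noncomputable section

namespace Fermat.Agent.MZ

open Finset

section

variable {r : ℕ} {O : Type} [CommRing O] [IsDomain O] [IsDiscreteValuationRing O]
  {L : Type} [Field L] [Algebra O L] {A : ValuationSubring L}
  {Γ : Type} [Group Γ] [MulSemiringAction Γ L]
  {G : Type} [AddCommGroup G] [DistribMulAction Γ G] {H : Subalgebra O (G → L)}

/-! ### congruences modulo `𝔪_A` -/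

theorem mzhp_n_one_not_mem : (1 : L) ∉ A.nonunits := by
  rw [ValuationSubring.mem_nonunits_iff, map_one]
  exact lt_irrefl _

/-- an element of `A` which is not in `𝔪_A` is a unit of `A` -/
theorem mzhp_n_inv_mem {a : L} (ha : a ∈ A) (hn : a ∉ A.nonunits) : a ≠ 0 ∧ a⁻¹ ∈ A := by
  rw [ValuationSubring.mem_nonunits_iff, not_lt] at hn
  have h1 : A.valuation a = 1 := le_antisymm ((A.valuation_le_one_iff a).mpr ha) hn
  refine ⟨fun h0 => ?_, ?_⟩
  · rw [h0, map_zero] at h1
    exact zero_ne_one h1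
  · rw [← A.valuation_le_one_iff, map_inv₀, h1, inv_one]

/-- a product of elements of `A`, one of which is a non-unit, is a non-unit -/
theorem mzhp_n_prod_mem_nonunits {ι : Type} (s : Finset ι) (f : ι → L) (hA : ∀ i ∈ s, f i ∈ A)
    {i0 : ι} (hi0 : i0 ∈ s) (h0 : f i0 ∈ A.nonunits) : ∏ i ∈ s, f i ∈ A.nonunits := by
  classical
  rw [← Finset.mul_prod_erase s f hi0]
  exact mzo_nonunits_mul_mem h0 (prod_mem fun i hi => hA i (Finset.mem_of_mem_erase hi))

/-- a product of elements `≡ 1` is `≡ 1` -/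
theorem mzhp_n_prod_sub_one {ι : Type} (s : Finset ι) (f : ι → L)
    (h : ∀ i ∈ s, f i - 1 ∈ A.nonunits) : ∏ i ∈ s, f i - 1 ∈ A.nonunits := by
  classical
  induction s using Finset.induction_on with
  | empty => rw [Finset.prod_empty, sub_self]; exact mzo_nonunits_zero
  | insert a s ha ih =>
    rw [Finset.prod_insert ha]
    have h1 : f a * ∏ i ∈ s, f i - 1 = f a * (∏ i ∈ s, f i - 1) + (f a - 1) := by ring
    rw [h1]
    have h2 := h a (Finset.mem_insert_self a s)
    have hfa : f a ∈ A := by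
      have h3 : f a = (f a - 1) + 1 := by ring
      rw [h3]
      exact add_mem (A.nonunits_subset h2) (one_mem A)
    exact mzo_nonunits_add
      (mzo_mem_mul_nonunits hfa (ih fun i hi => h i (Finset.mem_insert_of_mem hi))) h2

theorem mzhp_n_cong_refl (x : G) : mzo_Cong A H x x := fun φ _ => by
  rw [sub_self]; exact mzo_nonunits_zero

theorem mzhp_n_cong_symm {x y : G} (h : mzo_Cong A H x y) : mzo_Cong A H y x := fun φ hφ => by
  have := mzo_nonunits_neg (h φ hφ)
  rwa [neg_sub] at this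

/-- **translation invariance of the congruence** -/
theorem mzhp_n_cong_add (hH : mzo_IsOrder A Γ G H) {x y : G} (h : mzo_Cong A H x y) (g : G) :
    mzo_Cong A H (x + g) (y + g) := by
  intro φ hφ
  obtain ⟨n, a, b, ha, hb, hab⟩ := hH.comul φ hφ
  rw [hab, hab, ← Finset.sum_sub_distrib]
  refine mzo_nonunits_sum _ _ fun i _ => ?_
  rw [← sub_mul]
  exact mzo_nonunits_mul_mem (h (a i) (ha i)) (hH.int _ (hb i) g)

/-! ### Lagrange interpolation modulo `𝔪_A` -/

/-- **Lagrange interpolation modulo `𝔪_A`** inside an order. -/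
theorem mzhp_n_lagrange (hctx : mzo_Ctx r O L A Γ) (hH : mzo_IsOrder A Γ G H)
    (Z0 Z1 : Finset G) (hsep : ∀ u ∈ Z1, ∀ v ∈ Z0, ¬ mzo_Cong A H u v) :
    ∃ φ ∈ H, (∀ v ∈ Z0, φ v - 1 ∈ A.nonunits) ∧ ∀ u ∈ Z1, φ u ∈ A.nonunits := by
  classical
  -- step 1: separate one pair
  have step1 : ∀ u ∈ Z1, ∀ v ∈ Z0, ∃ e : G → L, e ∈ H ∧ e u ∈ A.nonunits ∧
      e v - 1 ∈ A.nonunits := by
    intro u hu v hv
    have h1 := hsep u hu v hv
    unfold mzo_Cong at h1
    push Not at h1
    obtain ⟨φ, hφ, hne⟩ := h1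
    have htA : φ v - φ u ∈ A := sub_mem (hH.int φ hφ v) (hH.int φ hφ u)
    have htn : φ v - φ u ∉ A.nonunits := fun h => hne (by
      have := mzo_nonunits_neg h
      rwa [neg_sub] at this)
    obtain ⟨ht0, hwA⟩ := mzhp_n_inv_mem htA htn
    obtain ⟨c, hc⟩ := hctx.res_full (φ u) (hH.int φ hφ u)
    obtain ⟨d, hd⟩ := hctx.res_full _ hwA
    refine ⟨(φ - algebraMap O (G → L) c) * algebraMap O (G → L) d,
      H.mul_mem (H.sub_mem hφ (H.algebraMap_mem c)) (H.algebraMap_mem d), ?_, ?_⟩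
    · show (φ u - algebraMap O L c) * algebraMap O L d ∈ A.nonunits
      exact mzo_nonunits_mul_mem hc (hctx.mem_A d)
    · show (φ v - algebraMap O L c) * algebraMap O L d - 1 ∈ A.nonunits
      have hw : (φ v - φ u) * (φ v - φ u)⁻¹ = 1 := mul_inv_cancel₀ ht0
      have h2 : (φ v - algebraMap O L c) * algebraMap O L d - 1
          = -((φ v - φ u) * ((φ v - φ u)⁻¹ - algebraMap O L d))
            + (φ u - algebraMap O L c) * algebraMap O L d := by
        linear_combination hw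
      rw [h2]
      exact mzo_nonunits_add (mzo_nonunits_neg (mzo_mem_mul_nonunits htA hd))
        (mzo_nonunits_mul_mem hc (hctx.mem_A d))
  choose! e he using step1
  -- step 2: `g v ≡ 1` at `v`, `≡ 0` on `Z1`
  have hgH : ∀ v ∈ Z0, (∏ u ∈ Z1, e u v) ∈ H := fun v hv =>
    prod_mem fun u hu => (he u hu v hv).1
  have hg1 : ∀ v ∈ Z0, ∀ u' ∈ Z1, (∏ u ∈ Z1, e u v) u' ∈ A.nonunits := by
    intro v hv u' hu'
    rw [Finset.prod_apply]
    exact mzhp_n_prod_mem_nonunits Z1 _ (fun u hu => hH.int _ (he u hu v hv).1 u') hu'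
      (he u' hu' v hv).2.1
  have hg0 : ∀ v ∈ Z0, (∏ u ∈ Z1, e u v) v - 1 ∈ A.nonunits := by
    intro v hv
    rw [Finset.prod_apply]
    exact mzhp_n_prod_sub_one Z1 _ fun u hu => (he u hu v hv).2.2
  -- step 3
  refine ⟨1 - ∏ v ∈ Z0, (1 - ∏ u ∈ Z1, e u v),
    H.sub_mem H.one_mem (prod_mem fun v hv => H.sub_mem H.one_mem (hgH v hv)), ?_, ?_⟩
  · intro v hv
    have h1 : (1 - ∏ v ∈ Z0, (1 - ∏ u ∈ Z1, e u v)) v - 1
        = -∏ v' ∈ Z0, (1 - (∏ u ∈ Z1, e u v') v) := by
      rw [Pi.sub_apply, Finset.prod_apply]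
      simp only [Pi.sub_apply, Pi.one_apply]
      ring
    rw [h1]
    refine mzo_nonunits_neg (mzhp_n_prod_mem_nonunits Z0 _ (fun v' hv' => ?_) hv ?_)
    · exact sub_mem (one_mem A) (hH.int _ (hgH v' hv') v)
    · have := mzo_nonunits_neg (hg0 v hv)
      rwa [neg_sub] at this
  · intro u hu
    have h1 : (1 - ∏ v ∈ Z0, (1 - ∏ u ∈ Z1, e u v)) u
        = -(∏ v' ∈ Z0, (1 - (∏ u ∈ Z1, e u v') u) - 1) := by
      rw [Pi.sub_apply, Finset.prod_apply]
      simp only [Pi.sub_apply, Pi.one_apply]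
      ring
    rw [h1]
    refine mzo_nonunits_neg (mzhp_n_prod_sub_one Z0 _ fun v' hv' => ?_)
    have h2 : 1 - (∏ u ∈ Z1, e u v') u - 1 = -((∏ u ∈ Z1, e u v') u) := by ring
    rw [h2]
    exact mzo_nonunits_neg (hg1 v' hv' u hu)

/-! ### equivariant elements of the `A`-span of `H` lie in `H` -/

/-- **`(A · H)^Γ = H`**: an equivariant function in the `A`-span of an order lies in the order. -/
theorem mzhp_n_mem_of_span [Finite G] (hctx : mzo_Ctx r O L A Γ) (hH : mzo_IsOrder A Γ G H)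
    {θ : G → L} (hθ : θ ∈ Submodule.span A (H : Set (G → L)))
    (hequiv : ∀ (σ : Γ) (y : G), θ (σ • y) = σ • θ y) : θ ∈ H := by
  classical
  have hinj := hctx.inj
  have hfinN : Module.Finite O (Subalgebra.toSubmodule H) := hH.fin
  obtain ⟨m, w, hwN, hwO, hwrep⟩ := mzhp_exists_basis hinj (Subalgebra.toSubmodule H) hfinN
  have hlat : mzhp_Lat (Subalgebra.toSubmodule H) :=
    mzhp_lat_of_equiv hctx (fun (σ : Γ) (y : G) => σ • y) (fun σ => MulAction.surjective σ)
      (Subalgebra.toSubmodule H) hfinN (fun φ hφ σ y => hH.equiv φ hφ σ y)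
  have hwL : LinearIndependent L w := hlat.ind w hwN hwO
  -- representation of the elements of the `A`-span
  have hrep : ∀ θ ∈ Submodule.span A (H : Set (G → L)),
      ∃ α : Fin m → L, (∀ γ, α γ ∈ A) ∧ θ = ∑ γ, α γ • w γ := by
    intro θ hθ
    induction hθ using Submodule.span_induction with
    | mem θ h =>
      obtain ⟨c, hc⟩ := hwrep θ h
      refine ⟨fun γ => algebraMap O L (c γ), fun γ => hctx.mem_A _, ?_⟩
      rw [hc]
      refine Finset.sum_congr rfl fun γ _ => ?_
      funext y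
      rw [Pi.smul_apply, Pi.smul_apply, Algebra.smul_def, smul_eq_mul]
    | zero => exact ⟨fun _ => 0, fun _ => zero_mem A, by simp⟩
    | add θ₁ θ₂ _ _ ih₁ ih₂ =>
      obtain ⟨α, hα, h1⟩ := ih₁
      obtain ⟨β, hβ, h2⟩ := ih₂
      refine ⟨fun γ => α γ + β γ, fun γ => add_mem (hα γ) (hβ γ), ?_⟩
      rw [h1, h2, ← Finset.sum_add_distrib]
      exact Finset.sum_congr rfl fun γ _ => (add_smul _ _ _).symm
    | smul a θ _ ih =>
      obtain ⟨α, hα, h1⟩ := ih
      refine ⟨fun γ => (a : L) * α γ, fun γ => mul_mem a.2 (hα γ), ?_⟩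
      rw [h1, Finset.smul_sum]
      refine Finset.sum_congr rfl fun γ _ => ?_
      rw [mul_smul]
      rfl
  obtain ⟨α, hαA, hθeq⟩ := hrep θ hθ
  -- the coefficients are `Γ`-fixed
  have hfix : ∀ (σ : Γ) (γ : Fin m), σ • α γ = α γ := by
    intro σ γ
    have hsum : ∑ γ, (σ • α γ - α γ) • w γ = 0 := by
      funext y
      have h1 := hequiv σ (σ⁻¹ • y)
      rw [smul_inv_smul, hθeq] at h1
      simp only [Finset.sum_apply, Pi.smul_apply, smul_eq_mul, Pi.zero_apply] at h1 ⊢
      rw [Finset.smul_sum] at h1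
      have h2 : ∀ γ, σ • (α γ * w γ (σ⁻¹ • y)) = σ • α γ * w γ y := by
        intro γ
        rw [smul_mul', ← hH.equiv (w γ) (hwN γ), smul_inv_smul]
      simp only [h2] at h1
      simp only [sub_mul, Finset.sum_sub_distrib]
      rw [h1, sub_self]
    have := Fintype.linearIndependent_iff.mp hwL (fun γ => σ • α γ - α γ) hsum γ
    exact sub_eq_zero.mp this
  choose o ho using fun γ => hctx.exists_of_fixed (hαA γ) (fun σ => hfix σ γ)
  have h3 : θ = ∑ γ, o γ • w γ := by
    rw [hθeq]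
    refine Finset.sum_congr rfl fun γ _ => ?_
    funext y
    rw [Pi.smul_apply, Pi.smul_apply, smul_eq_mul, Algebra.smul_def, ho]
  rw [h3]
  exact H.sum_mem fun γ _ => H.smul_mem (hwN γ) _

/-- **the norm** of `φ ∈ H` over a `Γ`-stable finite set lies in `H`. -/
theorem mzhp_n_norm_mem [Finite G] (hctx : mzo_Ctx r O L A Γ) (hH : mzo_IsOrder A Γ G H)
    (K : Finset G) (hK : ∀ (σ : Γ) (f : G), f ∈ K ↔ σ • f ∈ K) {φ : G → L} (hφ : φ ∈ H) :
    (fun y => ∏ f ∈ K, φ (y + f)) ∈ H := by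
  classical
  apply mzhp_n_mem_of_span hctx hH
  · have hmul : ∀ a b : G → L, a ∈ Submodule.span A (H : Set (G → L)) →
        b ∈ Submodule.span A (H : Set (G → L)) →
        a * b ∈ Submodule.span A (H : Set (G → L)) := by
      intro a b ha hb
      have h1 : Submodule.span A (H : Set (G → L)) * Submodule.span A (H : Set (G → L))
          ≤ Submodule.span A (H : Set (G → L)) := by
        rw [Submodule.span_mul_span]
        apply Submodule.span_mono
        rintro _ ⟨a, ha, b, hb, rfl⟩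
        exact H.mul_mem ha hb
      exact h1 (Submodule.mul_mem_mul ha hb)
    have htr : ∀ f : G, (fun y => φ (y + f)) ∈ Submodule.span A (H : Set (G → L)) := by
      intro f
      obtain ⟨n, a, b, ha, hb, hab⟩ := hH.comul φ hφ
      have h1 : (fun y => φ (y + f)) = ∑ i, (⟨b i f, hH.int _ (hb i) f⟩ : A) • a i := by
        funext y
        rw [hab, Finset.sum_apply]
        refine Finset.sum_congr rfl fun i _ => ?_
        rw [Pi.smul_apply, mul_comm]
        rfl
      rw [h1]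
      exact Submodule.sum_mem _ fun i _ => Submodule.smul_mem _ _ (Submodule.subset_span (ha i))
    have h2 : (fun y => ∏ f ∈ K, φ (y + f)) = ∏ f ∈ K, (fun y => φ (y + f)) := by
      funext y
      rw [Finset.prod_apply]
    rw [h2]
    exact Finset.prod_induction _ (· ∈ Submodule.span A (H : Set (G → L))) hmul
      (Submodule.subset_span H.one_mem) (fun f _ => htr f)
  · intro σ y
    rw [Finset.smul_prod']
    have h1 : ∏ f ∈ K, φ (σ • y + σ • f) = ∏ f ∈ K, φ (σ • y + f) :=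
      Finset.prod_equiv (MulAction.toPerm σ) (fun f => hK σ f) (fun f _ => rfl)
    rw [← h1]
    refine Finset.prod_congr rfl fun f _ => ?_
    rw [← smul_add, hH.equiv φ hφ]

end

/-- **[D2]** `mzo_SeamNorm` holds: the norm trick. -/
theorem mzhp_n_seamNorm : mzo_SeamNorm := by
  intro r O _ _ _ L _ _ A Γ _ _ hctx G _ _ _ E _ _ π hπ hπe H hH x hx
  classical
  let _ : Fintype G := Fintype.ofFinite G
  set K : Finset G := Finset.univ.filter (fun f => π f = 0) with hKdef
  have hKmem : ∀ f, f ∈ K ↔ π f = 0 := fun f => by simp [hKdef]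
  have hK0 : (0 : G) ∈ K := (hKmem 0).mpr (map_zero π)
  have hKσ : ∀ (σ : Γ) (f : G), f ∈ K ↔ σ • f ∈ K := by
    intro σ f
    rw [hKmem, hKmem, hπe]
    constructor
    · intro h
      rw [h, smul_zero]
    · intro h
      have := congrArg (fun e => σ⁻¹ • e) h
      simpa using this
  -- Lagrange interpolation: `φ ≡ 1` on `ker π`, `φ ≡ 0` on `x + ker π`
  obtain ⟨φ, hφ, hφ0, hφ1⟩ := mzhp_n_lagrange hctx hH K (K.image (fun f => x + f)) (by
    intro u hu v hv hcong
    obtain ⟨f', hf', rfl⟩ := Finset.mem_image.mp hu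
    have h1 := mzhp_n_cong_add hH hcong (-f')
    rw [add_neg_cancel_right] at h1
    exact hx (v + -f') (by
      rw [map_add, map_neg, (hKmem v).mp hv, (hKmem f').mp hf', neg_zero, add_zero]) h1)
  -- the norm
  set ψ : G → L := fun y => ∏ f ∈ K, φ (y + f) with hψ
  have hψH : ψ ∈ H := mzhp_n_norm_mem hctx hH K hKσ hφ
  have hψinv : ∀ y y' : G, π y = π y' → ψ y = ψ y' := by
    intro y y' hyy'
    show ∏ f ∈ K, φ (y + f) = ∏ f ∈ K, φ (y' + f)
    refine Finset.prod_equiv (Equiv.addLeft (y - y')) (fun f => ?_) (fun f _ => ?_)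
    · rw [Equiv.coe_addLeft, hKmem, hKmem, map_add, map_sub, hyy', sub_self, zero_add]
    · rw [Equiv.coe_addLeft, ← add_assoc, add_sub_cancel]
  -- descend to `E`
  let ψ' : E → L := fun e => ψ (Function.surjInv hπ e)
  have hψ' : ψ' ∘ π = ψ := funext fun y => hψinv _ _ (Function.surjInv_eq hπ (π y))
  refine ⟨ψ', by rw [mzo_mem_pull, hψ']; exact hψH, ?_⟩
  have e1 : ψ' (π x) = ψ x := congrFun hψ' x
  have e2 : ψ' 0 = ψ 0 := by
    rw [← map_zero π]
    exact congrFun hψ' 0
  rw [e1, e2]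
  have hx1 : ψ x ∈ A.nonunits :=
    mzhp_n_prod_mem_nonunits K _ (fun f _ => hH.int φ hφ _) hK0
      (by rw [add_zero]; exact hφ1 _ (Finset.mem_image.mpr ⟨0, hK0, add_zero x⟩))
  have hx0 : ψ 0 - 1 ∈ A.nonunits :=
    mzhp_n_prod_sub_one K _ (fun f hf => by rw [zero_add]; exact hφ0 f hf)
  intro hcon
  apply mzhp_n_one_not_mem (A := A)
  have h1 : (1 : L) = ψ x - (ψ 0 - 1) - (ψ x - ψ 0) := by ring
  rw [h1]
  exact mzo_nonunits_sub (mzo_nonunits_sub hx1 hx0) hcon

end Fermat.Agent.MZ
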