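/-
Project MAZUR (S15), node [HOPF], part `r = 2`, cells [E-charA] + [E-charB] (helper26; deputy
helper13).  Prefix `mzo_ch_`.  Mathlib + `MZ/Hopf/{Defs,DualDefs,Seams2}.lean`.

FINITE ABELIAN DUALITY FOR `mzo_Dual G L` (characters `G → L^×` of an additive group, as functions
`G → L`), `L` a field containing all roots of unity:

* `mzo_ch_equiv`       : `mzo_Dual G L ≃ (Multiplicative G →* Lˣ)`;
* `mzo_ch_seamCharA`   : `mzo_SeamCharA` — `|Ĝ| = |G|`, characters separate points, characters
                         extend along injections (`Mathlib.GroupTheory.FiniteAbelian.Duality`);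
* `mzo_ch_seamCharB`   : `mzo_SeamCharB` — the characters are an `L`-basis of `Map(G, L)`
                         (`linearIndependent_monoidHom` + dimension count).
-/
import Mathlib
import Fermat.Agent.MZ.Hopf.Defs
import Fermat.Agent.MZ.Hopf.DualDefs
import Fermat.Agent.MZ.Hopf.Seams2

set_option autoImplicit false
set_option linter.style.haveILetI false

noncomputable section

namespace Fermat.Agent.MZ

section Bridge

variable {G L : Type} [AddCommGroup G] [Field L]

/-- a character as a homomorphism `Multiplicative G →* Lˣ` -/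
def mzo_ch_toHom (χ : mzo_Dual G L) : Multiplicative G →* Lˣ where
  toFun x := Units.mk0 (χ x.toAdd) (χ.ne_zero _)
  map_one' := Units.ext χ.map_zero
  map_mul' x y := Units.ext (χ.map_add x.toAdd y.toAdd)

/-- a homomorphism `Multiplicative G →* Lˣ` as a character -/
def mzo_ch_ofHom (φ : Multiplicative G →* Lˣ) : mzo_Dual G L where
  toFun x := (φ (Multiplicative.ofAdd x) : L)
  map_zero' := by
    show ((φ 1 : Lˣ) : L) = 1
    rw [map_one, Units.val_one]
  map_add' x y := by
    show ((φ (Multiplicative.ofAdd x * Multiplicative.ofAdd y) : Lˣ) : L) = _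
    rw [map_mul, Units.val_mul]

@[simp] theorem mzo_ch_toHom_apply (χ : mzo_Dual G L) (x : Multiplicative G) :
    ((mzo_ch_toHom χ x : Lˣ) : L) = χ x.toAdd := rfl

@[simp] theorem mzo_ch_ofHom_apply (φ : Multiplicative G →* Lˣ) (x : G) :
    mzo_ch_ofHom φ x = (φ (Multiplicative.ofAdd x) : L) := rfl

/-- `mzo_Dual G L ≃ (Multiplicative G →* Lˣ)` -/
def mzo_ch_equiv : mzo_Dual G L ≃ (Multiplicative G →* Lˣ) where
  toFun := mzo_ch_toHom
  invFun := mzo_ch_ofHom
  left_inv _ := mzo_Dual.ext fun _ => rfl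
  right_inv _ := MonoidHom.ext fun _ => Units.ext rfl

/-- a character as a homomorphism into the multiplicative monoid of `L` -/
def mzo_ch_toMonoidHom (χ : mzo_Dual G L) : Multiplicative G →* L where
  toFun x := χ x.toAdd
  map_one' := χ.map_zero
  map_mul' x y := χ.map_add x.toAdd y.toAdd

theorem mzo_ch_toMonoidHom_injective :
    Function.Injective (mzo_ch_toMonoidHom : mzo_Dual G L → (Multiplicative G →* L)) := by
  intro χ ψ h
  ext x
  exact DFunLike.congr_fun h (Multiplicative.ofAdd x)

end Bridge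

section Roots

variable (L : Type) [Field L] (hL : ∀ n : ℕ, n ≠ 0 → ∃ ζ : L, IsPrimitiveRoot ζ n)

include hL in
theorem mzo_ch_enough (n : ℕ) (hn : n ≠ 0) : HasEnoughRootsOfUnity L n := by
  haveI : NeZero n := ⟨hn⟩
  exact ⟨hL n hn, rootsOfUnity.isCyclic L n⟩

variable (G : Type) [AddCommGroup G] [Finite G]

include hL in
theorem mzo_ch_enough_exp : HasEnoughRootsOfUnity L (Monoid.exponent (Multiplicative G)) :=
  mzo_ch_enough L hL _ Monoid.exponent_ne_zero_of_finite

include hL in
/-- `|Ĝ| = |G|` -/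
theorem mzo_ch_card : Finite (mzo_Dual G L) ∧ Nat.card (mzo_Dual G L) = Nat.card G := by
  haveI := mzo_ch_enough_exp L hL G
  have h1 : Nat.card (Multiplicative G →* Lˣ) = Nat.card (Multiplicative G) :=
    CommGroup.card_monoidHom_of_hasEnoughRootsOfUnity (Multiplicative G) L
  have h2 : Nat.card (mzo_Dual G L) = Nat.card G := by
    rw [Nat.card_congr (mzo_ch_equiv (G := G) (L := L)), h1]
    exact Nat.card_congr Multiplicative.toAdd
  refine ⟨?_, h2⟩
  apply Nat.finite_of_card_ne_zero
  rw [h2]
  exact Nat.card_pos.ne'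

include hL in
/-- characters separate points -/
theorem mzo_ch_sep (x : G) (hx : x ≠ 0) : ∃ χ : mzo_Dual G L, χ x ≠ 1 := by
  haveI := mzo_ch_enough_exp L hL G
  have hx' : Multiplicative.ofAdd x ≠ 1 := fun h => hx (by
    have := congrArg Multiplicative.toAdd h
    simpa using this)
  obtain ⟨φ, hφ⟩ := CommGroup.exists_apply_ne_one_of_hasEnoughRootsOfUnity
    (Multiplicative G) L hx'
  refine ⟨mzo_ch_ofHom φ, fun h => hφ ?_⟩
  apply Units.ext
  rw [Units.val_one, ← h]
  rfl

include hL in
/-- characters extend along injections -/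
theorem mzo_ch_ext (F : Type) [AddCommGroup F] (ι : F →+ G) (hι : Function.Injective ι) :
    Function.Surjective (mzo_dualRes (L := L) ι) := by
  haveI := mzo_ch_enough_exp L hL G
  intro ψ
  let ι' : Multiplicative F →* Multiplicative G := AddMonoidHom.toMultiplicative ι
  have hι' : Function.Injective ι' := fun a b h => hι h
  let e : Multiplicative F ≃* ι'.range := MonoidHom.ofInjective hι'
  let ψ' : ι'.range →* Lˣ := (mzo_ch_toHom ψ).comp e.symm.toMonoidHom
  obtain ⟨Φ, hΦ⟩ := MonoidHom.domRestrict_surjective (M := L) ι'.range ψ'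
  refine ⟨mzo_ch_ofHom Φ, ?_⟩
  ext x
  rw [mzo_dualRes_apply, mzo_ch_ofHom_apply]
  have h1 : Φ (Multiplicative.ofAdd (ι x)) = ψ' (e (Multiplicative.ofAdd x)) := by
    rw [← hΦ]
    rfl
  rw [h1]
  show ((mzo_ch_toHom ψ (e.symm (e (Multiplicative.ofAdd x))) : Lˣ) : L) = ψ x
  rw [MulEquiv.symm_apply_apply]
  rfl

include hL in
/-- **[E-charA]** -/
theorem mzo_ch_charA :
    (Finite (mzo_Dual G L) ∧ Nat.card (mzo_Dual G L) = Nat.card G) ∧
    (∀ x : G, x ≠ 0 → ∃ χ : mzo_Dual G L, χ x ≠ 1) ∧
    ∀ (F : Type) [AddCommGroup F] (ι : F →+ G), Function.Injective ι →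
      Function.Surjective (mzo_dualRes (L := L) ι) :=
  ⟨mzo_ch_card L hL G, mzo_ch_sep L hL G, fun F _ ι hι => mzo_ch_ext L hL G F ι hι⟩

omit [Finite G] in
/-- characters are linearly independent -/
theorem mzo_ch_indep : LinearIndependent L (fun χ : mzo_Dual G L => (χ : G → L)) := by
  have h := (linearIndependent_monoidHom (Multiplicative G) L).comp
    (mzo_ch_toMonoidHom : mzo_Dual G L → (Multiplicative G →* L)) mzo_ch_toMonoidHom_injective
  exact h

include hL in
/-- **[E-charB]** -/
theorem mzo_ch_charB :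
    LinearIndependent L (fun χ : mzo_Dual G L => (χ : G → L)) ∧
    Submodule.span L (Set.range fun χ : mzo_Dual G L => (χ : G → L)) = ⊤ := by
  classical
  refine ⟨mzo_ch_indep L G, ?_⟩
  obtain ⟨hfin, hcard⟩ := mzo_ch_card L hL G
  haveI := hfin
  haveI : Fintype (mzo_Dual G L) := Fintype.ofFinite _
  haveI : Fintype G := Fintype.ofFinite G
  apply LinearIndependent.span_eq_top_of_card_eq_finrank' (mzo_ch_indep L G)
  rw [Module.finrank_fintype_fun_eq_card, ← Nat.card_eq_fintype_card, hcard,
    Nat.card_eq_fintype_card]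

end Roots

/-- **[E-charA]** closed. -/
theorem mzo_ch_seamCharA : mzo_SeamCharA := by
  intro L _ hL G _ _
  exact mzo_ch_charA L hL G

/-- **[E-charB]** closed. -/
theorem mzo_ch_seamCharB : mzo_SeamCharB := by
  intro L _ hL G _ _
  exact mzo_ch_charB L hL G

end Fermat.Agent.MZ
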