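/-
Project MAZUR (S15), node [HOPF] (deputy: helper13).  THE ASSEMBLY for `r` odd: the two outputs
consumed by the dévissage [MZ-H] at the place `v = r`.

Data: `G` a finite `Γ`-module with an order `H` (from [GEO]: `G = J[r^k]` or its `e_𝔓`-part), `z`
an `H`-flat cocycle (from [GEO]: a Kummer cocycle restricted to inertia), a subquotient
`E ↪ Q ↞ G` (`π : G → Q` onto, `ι : E → Q` injective, both equivariant) and a cocycle `zE` on `E`
whose image in `Q` is cohomologous to the image of `z` — THE PROPAGATED LOCAL CONDITION.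
* `mzo_out_triv` (OUT-1): `|E| = r` with trivial action ⟹ `zE = 0` (unramified);
* `mzo_out_mu`   (OUT-2): `E ≅ μ_r` through `T` ⟹ `zE` is the Kummer cocycle of a UNIT.
Prefix `mzo_`.
-/
import Mathlib
import Fermat.Agent.MZ.Hopf.Defs
import Fermat.Agent.MZ.Hopf.Seams
import Fermat.Agent.MZ.Hopf.Basic

set_option autoImplicit false

noncomputable section

namespace Fermat.Agent.MZ

section

variable {r : ℕ} {O : Type} [CommRing O] [IsDomain O] [IsDiscreteValuationRing O]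
  {L : Type} [Field L] [Algebra O L] {A : ValuationSubring L}
  {Γ : Type} [Group Γ] [MulSemiringAction Γ L]

/-- the induced order on a subquotient `E ↪ Q ↞ G`, and the propagated flatness. -/
theorem mzo_subquot (hQuot : mzo_SeamQuot) (hctx : mzo_Ctx r O L A Γ)
    {G : Type} [AddCommGroup G] [Finite G] [DistribMulAction Γ G]
    {H : Subalgebra O (G → L)} (hH : mzo_IsOrder A Γ G H)
    {z : Γ → G} (hzc : mzo_IsCocycle z) (hz : mzo_Flat A Γ H z)
    {Q : Type} [AddCommGroup Q] [DistribMulAction Γ Q] (π : G →+ Q)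
    (hπ : Function.Surjective π) (hπe : ∀ (σ : Γ) (x : G), π (σ • x) = σ • π x)
    {E : Type} [AddCommGroup E] [DistribMulAction Γ E] (ι : E →+ Q)
    (hι : Function.Injective ι) (hιe : ∀ (σ : Γ) (x : E), ι (σ • x) = σ • ι x)
    (zE : Γ → E) (q₀ : Q) (hzE : ∀ σ : Γ, ι (zE σ) = π (z σ) + σ • q₀ - q₀) :
    mzo_IsOrder A Γ E (mzo_restr (⇑ι) (mzo_pull (⇑π) H)) ∧
      mzo_Flat A Γ (mzo_restr (⇑ι) (mzo_pull (⇑π) H)) zE := by
  obtain ⟨hHQ, hflat⟩ := hQuot r O L A Γ hctx G Q π hπ hπe H hH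
  refine ⟨mzo_restr_isOrder ι hι hιe hHQ, ?_⟩
  apply mzo_restr_flat ι hι hιe
  have h1 := mzo_flat_cob (hflat z hzc hz) q₀
  have h2 : (⇑ι ∘ zE) = fun σ => (⇑π ∘ z) σ + σ • q₀ - q₀ := by
    funext σ
    exact hzE σ
  rw [h2]
  exact h1

/-- **(OUT-1)** (`r` odd) the propagated local condition at `r` on a constituent `E` of order `r`
with TRIVIAL inertia action is: unramified. -/
theorem mzo_out_triv (hQuot : mzo_SeamQuot) (hConn : mzo_SeamConn)
    (hctx : mzo_Ctx r O L A Γ) (hr2 : r ≠ 2)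
    {G : Type} [AddCommGroup G] [Finite G] [DistribMulAction Γ G]
    {H : Subalgebra O (G → L)} (hH : mzo_IsOrder A Γ G H)
    {z : Γ → G} (hzc : mzo_IsCocycle z) (hz : mzo_Flat A Γ H z)
    {Q : Type} [AddCommGroup Q] [DistribMulAction Γ Q] (π : G →+ Q)
    (hπ : Function.Surjective π) (hπe : ∀ (σ : Γ) (x : G), π (σ • x) = σ • π x)
    {E : Type} [AddCommGroup E] [Finite E] [DistribMulAction Γ E] (ι : E →+ Q)
    (hι : Function.Injective ι) (hιe : ∀ (σ : Γ) (x : E), ι (σ • x) = σ • ι x)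
    (hcard : Nat.card E = r) (htriv : ∀ (σ : Γ) (x : E), σ • x = x)
    (zE : Γ → E) (q₀ : Q) (hzE : ∀ σ : Γ, ι (zE σ) = π (z σ) + σ • q₀ - q₀) (σ : Γ) :
    zE σ = 0 := by
  obtain ⟨hHE, hfl⟩ := mzo_subquot hQuot hctx hH hzc hz π hπ hπe ι hι hιe zE q₀ hzE
  refine mzo_etale_unram hctx.inert ?_ hfl σ
  intro g hg
  by_contra hcon
  push Not at hcon
  apply hg
  refine hConn r O L A Γ hctx hr2 E _ hHE g (fun τ => htriv τ g) ?_ ?_
  · rw [← hcard]
    exact card_nsmul_eq_zero'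
  · intro φ hφ
    exact hcon φ hφ

/-- **(OUT-2)** (`r` odd) the propagated local condition at `r` on a constituent `E ≅ μ_r` is:
Kummer cocycles of UNITS. -/
theorem mzo_out_mu (hQuot : mzo_SeamQuot) (hMuO : mzo_SeamMuOrder) (hMuU : mzo_SeamMuUnit)
    (hctx : mzo_Ctx r O L A Γ) (hr2 : r ≠ 2)
    {G : Type} [AddCommGroup G] [Finite G] [DistribMulAction Γ G]
    {H : Subalgebra O (G → L)} (hH : mzo_IsOrder A Γ G H)
    {z : Γ → G} (hzc : mzo_IsCocycle z) (hz : mzo_Flat A Γ H z)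
    {Q : Type} [AddCommGroup Q] [DistribMulAction Γ Q] (π : G →+ Q)
    (hπ : Function.Surjective π) (hπe : ∀ (σ : Γ) (x : G), π (σ • x) = σ • π x)
    {E : Type} [AddCommGroup E] [Finite E] [DistribMulAction Γ E] (ι : E →+ Q)
    (hι : Function.Injective ι) (hιe : ∀ (σ : Γ) (x : E), ι (σ • x) = σ • ι x)
    (hcard : Nat.card E = r)
    (T : E → L) (hT : ∀ x y : E, T (x + y) = T x * T y) (hTi : Function.Injective T)
    (hTe : ∀ (σ : Γ) (x : E), T (σ • x) = σ • T x)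
    (zE : Γ → E) (hzEc : mzo_IsCocycle zE)
    (q₀ : Q) (hzE : ∀ σ : Γ, ι (zE σ) = π (z σ) + σ • q₀ - q₀) :
    ∃ β : L, β ∈ A ∧ β⁻¹ ∈ A ∧ ∀ σ : Γ, T (zE σ) * β = σ • β := by
  obtain ⟨hHE, hfl⟩ := mzo_subquot hQuot hctx hH hzc hz π hπ hπe ι hι hιe zE q₀ hzE
  obtain ⟨hTH, hHT⟩ := hMuO r O L A Γ hctx hr2 E hcard T hT hTi hTe _ hHE
  exact hMuU r O L A Γ hctx E hcard T hT hTi hTe _ hHE hTH hHT zE hzEc hfl

end

end Fermat.Agent.MZ
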