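/-
MAZUR / node [HOPF], cell (4)(c), second half (helper3, prefix `mzhp_c_`): FLAT ⇒ UNIT for the
multiplicative order.

`E` a finite group with an injective multiplicative character `ι : E → L` (for MAZUR: `E ≅ μ_r` and
`ι = T`, the generator of the order `O[T]/(T^r - 1)`), `X` an `E`-torsor, `HX` a set of functions
`X → L` with values in the valuation ring `A` (a torsor order).  From

* `(co)`  every `φ ∈ HX` has components: `φ (g +ᵥ x) = ∑ j < r, comp j x * ι g ^ j`, `comp j ∈ HX`,
* `(∇)`   `ι (y -ᵥ x) = ∑ i, a i x * b i y` with `a i, b i ∈ HX`,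

we get a function `f ∈ HX` of degree one (`f (g +ᵥ x) = ι g * f x`) ALL of whose values are UNITS of
`A` (`mzhp_c_unit`).  Consequently (`mzhp_c_unit_cocycle`) for every base point `x₀` the cocycle
`σ ↦ ι (σ x₀ -ᵥ x₀)` of the torsor is `σ β / β` for the unit `β = f x₀` of `A`: the Kummer class of
`X` is the class of the unit `β ^ r`.

The proof needs NO discreteness of the valuation, NO `e = 1`, NO primality of `r`:
after passing to homogeneous components, `∑ i, A i x * B i x = 1` with `A i * B i` constant, so one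
`A i * B i` is a unit, hence `B i` is unit-valued.  Mathlib only.
-/
import Mathlib

set_option autoImplicit false

namespace Fermat.Agent.MZ

open Finset

section Chars

variable {L : Type*} [Field L] {E : Type*} [AddGroup E] [Fintype E]

/-- **Independence of the characters `ι ^ j`, `j < |E|`.**  If `ι : E → L` is an injective
multiplicative character of the finite group `E` and `∑ j < |E|, c j * ι g ^ j = 0` for all `g`,
then all `c j` vanish. -/
theorem mzhp_c_char_indep (ι : E → L) (hι_add : ∀ g g' : E, ι (g + g') = ι g * ι g')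
    (hι0 : ι 0 = 1) (hι_inj : Function.Injective ι) (c : Fin (Fintype.card E) → L)
    (h : ∀ g : E, ∑ j, c j * ι g ^ (j : ℕ) = 0) : ∀ j, c j = 0 := by
  classical
  -- the monoid hom
  let ιh : Multiplicative E →* L :=
    { toFun := fun g => ι (Multiplicative.toAdd g)
      map_one' := hι0
      map_mul' := fun g g' => hι_add _ _ }
  have hιh_inj : Function.Injective ιh := fun g g' hgg' =>
    Multiplicative.toAdd.injective (hι_inj hgg')
  have hcyc : IsCyclic (Multiplicative E) := isCyclic_of_injective_ringHom ιh hιh_inj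
  obtain ⟨g0, hg0⟩ := IsCyclic.exists_generator (α := Multiplicative E)
  have hord : orderOf g0 = Fintype.card E := by
    rw [orderOf_eq_card_of_forall_mem_zpowers hg0, Nat.card_eq_fintype_card,
      Fintype.card_multiplicative]
  -- the characters
  let χ : Fin (Fintype.card E) → (Multiplicative E →* L) := fun j => ιh ^ (j : ℕ)
  have hχinj : Function.Injective χ := by
    intro j k hjk
    have h1 : (χ j) g0 = (χ k) g0 := by rw [hjk]
    simp only [χ, MonoidHom.pow_apply] at h1
    rw [← map_pow, ← map_pow] at h1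
    have h2 := hιh_inj h1
    rw [pow_inj_mod, hord, Nat.mod_eq_of_lt j.2, Nat.mod_eq_of_lt k.2] at h2
    exact Fin.ext h2
  have hli : LinearIndependent L (fun j : Fin (Fintype.card E) =>
      ((χ j : Multiplicative E →* L) : Multiplicative E → L)) :=
    (linearIndependent_monoidHom (Multiplicative E) L).comp χ hχinj
  rw [Fintype.linearIndependent_iff] at hli
  refine hli c ?_
  funext g
  have := h (Multiplicative.toAdd g)
  simp only [Finset.sum_apply, Pi.smul_apply, smul_eq_mul, Pi.zero_apply]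
  simpa [χ, ιh, MonoidHom.pow_apply] using this

variable {X : Type*} [AddTorsor E X]

/-- **Components are homogeneous.**  If `φ (g +ᵥ x) = ∑ j, comp j x * ι g ^ j` for all `g, x`, then
`comp j (g +ᵥ x) = ι g ^ j * comp j x`. -/
theorem mzhp_c_comp_homog (ι : E → L) (hι_add : ∀ g g' : E, ι (g + g') = ι g * ι g')
    (hι0 : ι 0 = 1) (hι_inj : Function.Injective ι) (φ : X → L)
    (comp : Fin (Fintype.card E) → X → L)
    (h : ∀ (g : E) (x : X), φ (g +ᵥ x) = ∑ j, comp j x * ι g ^ (j : ℕ))
    (j : Fin (Fintype.card E)) (g' : E) (x : X) :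
    comp j (g' +ᵥ x) = ι g' ^ (j : ℕ) * comp j x := by
  have key : ∀ g : E, ∑ j, (comp j (g' +ᵥ x) - ι g' ^ (j : ℕ) * comp j x) * ι g ^ (j : ℕ) = 0 := by
    intro g
    have h1 := h g (g' +ᵥ x)
    have h2 := h (g + g') x
    rw [vadd_vadd] at h1
    rw [h1] at h2
    have : ∑ j, (comp j (g' +ᵥ x) - ι g' ^ (j : ℕ) * comp j x) * ι g ^ (j : ℕ)
        = ∑ j, comp j (g' +ᵥ x) * ι g ^ (j : ℕ) - ∑ j, comp j x * ι (g + g') ^ (j : ℕ) := by
      rw [← Finset.sum_sub_distrib]
      refine Finset.sum_congr rfl fun j _ => ?_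
      rw [hι_add, mul_pow]; ring
    rw [this, h2, sub_self]
  have := mzhp_c_char_indep ι hι_add hι0 hι_inj _ key j
  exact sub_eq_zero.mp this

end Chars

section Core

variable {L : Type*} [Field L] (A : ValuationSubring L)
variable {E X : Type*} [AddGroup E] [AddTorsor E X]

/-- two elements of `A` whose product is a unit of `A`: the second one is a unit -/
theorem mzhp_c_unit_of_mul {a b : L} (ha : a ∈ A) (hb : b ∈ A) (hab : a * b ∉ A.nonunits) :
    b⁻¹ ∈ A := by
  rw [A.mem_nonunits_iff, not_lt, map_mul] at hab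
  have h1 : A.valuation a ≤ 1 := (A.valuation_le_one_iff a).mpr ha
  have h2 : A.valuation b ≤ 1 := (A.valuation_le_one_iff b).mpr hb
  have h3 : A.valuation b = 1 := by
    refine le_antisymm h2 ?_
    calc (1 : A.ValueGroup) ≤ A.valuation a * A.valuation b := hab
      _ ≤ 1 * A.valuation b := mul_le_mul_left h1 _
      _ = A.valuation b := one_mul _
  rw [← A.valuation_le_one_iff, map_inv₀, h3, inv_one]

/-- **(4)(c), second half, homogeneous core.**  `a i` of degree `-1`, `b i` of degree `1`, all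
`A`-valued, and `∑ i, a i x * b i y = ι (y -ᵥ x)`.  Then some `b i` takes only unit values. -/
theorem mzhp_c_unit_core (ι : E → L) (hι0 : ι 0 = 1) {n : ℕ} (a b : Fin n → X → L)
    (haint : ∀ i x, a i x ∈ A) (hbint : ∀ i x, b i x ∈ A)
    (hadeg : ∀ i (g : E) (x : X), a i (g +ᵥ x) * ι g = a i x)
    (hbdeg : ∀ i (g : E) (x : X), b i (g +ᵥ x) = ι g * b i x)
    (hnabla : ∀ x y : X, ∑ i, a i x * b i y = ι (y -ᵥ x)) :
    ∃ i, ∀ x : X, b i x ∈ A ∧ (b i x)⁻¹ ∈ A := by
  obtain ⟨x0⟩ := (AddTorsor.nonempty : Nonempty X)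
  have hsum : ∑ i, a i x0 * b i x0 = 1 := by rw [hnabla x0 x0, vsub_self, hι0]
  -- some term is a unit
  have hex : ∃ i, a i x0 * b i x0 ∉ A.nonunits := by
    by_contra hcon
    have hcon : ∀ i, a i x0 * b i x0 ∈ A.nonunits := fun i => by
      by_contra h; exact hcon ⟨i, h⟩
    have h1 : ∑ i, a i x0 * b i x0 ∈ A.nonunits := by
      rw [A.mem_nonunits_iff]
      refine Valuation.map_sum_lt _ one_ne_zero fun i _ => ?_
      exact A.mem_nonunits_iff.mp (hcon i)
    rw [hsum, A.mem_nonunits_iff, map_one] at h1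
    exact lt_irrefl _ h1
  obtain ⟨i, hi⟩ := hex
  refine ⟨i, fun x => ⟨hbint i x, ?_⟩⟩
  -- the product `a i * b i` is constant
  have hconst : a i x * b i x = a i x0 * b i x0 := by
    have hx : x = (x -ᵥ x0) +ᵥ x0 := (vsub_vadd x x0).symm
    set g := x -ᵥ x0 with hg
    rw [hx, hbdeg i g x0, ← mul_assoc, hadeg i g x0]
  exact mzhp_c_unit_of_mul A (haint i x) (hbint i x) (by rw [hconst]; exact hi)

end Core

section Main

variable {L : Type*} [Field L] (A : ValuationSubring L)
variable {E X : Type*} [AddGroup E] [Fintype E] [AddTorsor E X]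

/-- **(4)(c), second half: FLAT ⇒ UNIT.**  `ι` an injective multiplicative character of the finite
group `E`, `X` an `E`-torsor, `HX` a set of `A`-valued functions on `X` with `(co)` (in component
form) and `(∇)` for `ι`.  Then there is `f ∈ HX` of degree one, all of whose values are units of
`A`. -/
theorem mzhp_c_unit (ι : E → L) (hι_add : ∀ g g' : E, ι (g + g') = ι g * ι g')
    (hι0 : ι 0 = 1) (hι_inj : Function.Injective ι)
    (HX : Set (X → L)) (hint : ∀ φ ∈ HX, ∀ x, φ x ∈ A)
    (hco : ∀ φ ∈ HX, ∃ comp : Fin (Fintype.card E) → X → L, (∀ j, comp j ∈ HX) ∧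
      ∀ (g : E) (x : X), φ (g +ᵥ x) = ∑ j, comp j x * ι g ^ (j : ℕ))
    (hnabla : ∃ (n : ℕ) (a b : Fin n → X → L), (∀ i, a i ∈ HX) ∧ (∀ i, b i ∈ HX) ∧
      ∀ x y : X, ∑ i, a i x * b i y = ι (y -ᵥ x)) :
    ∃ f ∈ HX, (∀ (g : E) (x : X), f (g +ᵥ x) = ι g * f x) ∧
      ∀ x : X, f x ∈ A ∧ (f x)⁻¹ ∈ A := by
  classical
  obtain ⟨n, a, b, ha, hb, hab⟩ := hnabla
  -- the cardinality and the two indices `1` and `r - 1`
  set r := Fintype.card E with hr
  have hrpos : 0 < r := Fintype.card_pos_iff.mpr ⟨0⟩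
  have hιr : ∀ g : E, ι g ^ r = 1 := by
    intro g
    have h1 : ∀ m : ℕ, ι (m • g) = ι g ^ m := by
      intro m
      induction m with
      | zero => simp [hι0]
      | succ m ih => rw [succ_nsmul, hι_add, ih, pow_succ]
    rw [← h1, hr, card_nsmul_eq_zero, hι0]
  -- trivial case `r = 1`: everything has degree `0`; handle uniformly through `j₁ := 1 % r`
  -- components
  choose ca hca_mem hca using fun i => hco (a i) (ha i)
  choose cb hcb_mem hcb using fun i => hco (b i) (hb i)
  have hca_h := fun i => mzhp_c_comp_homog ι hι_add hι0 hι_inj (a i) (ca i) (hca i)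
  have hcb_h := fun i => mzhp_c_comp_homog ι hι_add hι0 hι_inj (b i) (cb i) (hcb i)
  -- index of degree one and of degree minus one
  let j1 : Fin r := ⟨1 % r, Nat.mod_lt _ hrpos⟩
  let jm : Fin r := ⟨(r - 1) % r, Nat.mod_lt _ hrpos⟩
  have hpow_mod : ∀ (g : E) (m : ℕ), ι g ^ (m % r) = ι g ^ m := by
    intro g m
    conv_rhs => rw [← Nat.div_add_mod m r, pow_add, pow_mul, hιr, one_pow, one_mul]
  -- step 1: replace `b i` by its degree-one component
  have step1 : ∀ x y : X, ∑ i, a i x * cb i j1 y = ι (y -ᵥ x) := by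
    intro x y
    -- coefficients of the characters in `g ↦ ∑ i, a i x * b i (g +ᵥ y) - ι g * ι (y -ᵥ x)`
    let c : Fin r → L := fun j => ∑ i, a i x * cb i j y - if j = j1 then ι (y -ᵥ x) else 0
    have hc : ∀ g : E, ∑ j, c j * ι g ^ (j : ℕ) = 0 := by
      intro g
      have h1 := hab x (g +ᵥ y)
      rw [vadd_vsub_assoc, hι_add] at h1
      have hswap : ∑ j, (∑ i, a i x * cb i j y) * ι g ^ (j : ℕ)
          = ∑ i, a i x * b i (g +ᵥ y) := by
        simp_rw [hcb _ g y, Finset.mul_sum, Finset.sum_mul]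
        rw [Finset.sum_comm]
        exact Finset.sum_congr rfl fun i _ => Finset.sum_congr rfl fun j _ => by ring
      have h2 : ∑ j, c j * ι g ^ (j : ℕ)
          = ∑ i, a i x * b i (g +ᵥ y) - ι (y -ᵥ x) * ι g ^ ((j1 : Fin r) : ℕ) := by
        simp only [c, sub_mul, Finset.sum_sub_distrib, ite_mul, zero_mul,
          Finset.sum_ite_eq', Finset.mem_univ, if_true]
        rw [hswap]
      rw [h2, h1]
      show ι g * ι (y -ᵥ x) - ι (y -ᵥ x) * ι g ^ (1 % r) = 0
      rw [hpow_mod, pow_one]; ring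
    have := mzhp_c_char_indep ι hι_add hι0 hι_inj c hc j1
    simp only [c, if_true] at this
    exact sub_eq_zero.mp this
  -- step 2: replace `a i` by its component of degree `r - 1`
  have step2 : ∀ x y : X, ∑ i, ca i jm x * cb i j1 y = ι (y -ᵥ x) := by
    intro x y
    let c : Fin r → L := fun j => ∑ i, ca i j x * cb i j1 y - if j = jm then ι (y -ᵥ x) else 0
    have hc : ∀ g : E, ∑ j, c j * ι g ^ (j : ℕ) = 0 := by
      intro g
      have h1 := step1 (g +ᵥ x) y
      rw [vsub_vadd_eq_vsub_sub] at h1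
      have hinv : ι (y -ᵥ x - g) * ι g = ι (y -ᵥ x) := by
        rw [← hι_add, sub_add_cancel]
      have hswap : ∑ j, (∑ i, ca i j x * cb i j1 y) * ι g ^ (j : ℕ)
          = ∑ i, a i (g +ᵥ x) * cb i j1 y := by
        simp_rw [hca _ g x, Finset.sum_mul]
        rw [Finset.sum_comm]
        exact Finset.sum_congr rfl fun i _ => Finset.sum_congr rfl fun j _ => by ring
      have h2 : ∑ j, c j * ι g ^ (j : ℕ)
          = ∑ i, a i (g +ᵥ x) * cb i j1 y - ι (y -ᵥ x) * ι g ^ ((jm : Fin r) : ℕ) := by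
        simp only [c, sub_mul, Finset.sum_sub_distrib, ite_mul, zero_mul,
          Finset.sum_ite_eq', Finset.mem_univ, if_true]
        rw [hswap]
      rw [h2, h1]
      show ι (y -ᵥ x - g) - ι (y -ᵥ x) * ι g ^ ((r - 1) % r) = 0
      rw [hpow_mod, ← hinv, mul_assoc, ← pow_succ', Nat.sub_add_cancel hrpos, hιr, mul_one,
        sub_self]
    have := mzhp_c_char_indep ι hι_add hι0 hι_inj c hc jm
    simp only [c, if_true] at this
    exact sub_eq_zero.mp this
  -- apply the homogeneous core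
  obtain ⟨i, hi⟩ := mzhp_c_unit_core A ι hι0 (fun i => ca i jm) (fun i => cb i j1)
    (fun i x => hint _ (hca_mem i jm) x) (fun i x => hint _ (hcb_mem i j1) x)
    (fun i g x => by
      rw [hca_h i jm g x]
      show ι g ^ ((r - 1) % r) * ca i jm x * ι g = ca i jm x
      rw [hpow_mod, mul_comm (ι g ^ (r - 1)), mul_assoc, ← pow_succ, Nat.sub_add_cancel hrpos,
        hιr, mul_one])
    (fun i g x => by
      rw [hcb_h i j1 g x]
      show ι g ^ (1 % r) * cb i j1 x = ι g * cb i j1 x
      rw [hpow_mod, pow_one])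
    step2
  refine ⟨cb i j1, hcb_mem i j1, fun g x => ?_, hi⟩
  rw [hcb_h i j1 g x]
  show ι g ^ (1 % r) * cb i j1 x = ι g * cb i j1 x
  rw [hpow_mod, pow_one]

/-- **(4)(c), second half, cocycle form.**  In the situation of `mzhp_c_unit`, for every base point
`x₀` there is a UNIT `β` of `A` such that for every pair `(t : X → X, s : L → L)` under which `HX` is
equivariant (`φ (t x) = s (φ x)`; e.g. the action of an element of the inertia group on `X` and on
`L`): `s β = ι (t x₀ -ᵥ x₀) * β`.  So the cocycle of the torsor `X` is the Kummer cocycle of the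
`|E|`-th root `β` of the unit `β ^ |E|`. -/
theorem mzhp_c_unit_cocycle (ι : E → L) (hι_add : ∀ g g' : E, ι (g + g') = ι g * ι g')
    (hι0 : ι 0 = 1) (hι_inj : Function.Injective ι)
    (HX : Set (X → L)) (hint : ∀ φ ∈ HX, ∀ x, φ x ∈ A)
    (hco : ∀ φ ∈ HX, ∃ comp : Fin (Fintype.card E) → X → L, (∀ j, comp j ∈ HX) ∧
      ∀ (g : E) (x : X), φ (g +ᵥ x) = ∑ j, comp j x * ι g ^ (j : ℕ))
    (hnabla : ∃ (n : ℕ) (a b : Fin n → X → L), (∀ i, a i ∈ HX) ∧ (∀ i, b i ∈ HX) ∧
      ∀ x y : X, ∑ i, a i x * b i y = ι (y -ᵥ x))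
    (x₀ : X) :
    ∃ β : L, β ∈ A ∧ β⁻¹ ∈ A ∧ ∀ (t : X → X) (s : L → L),
      (∀ φ ∈ HX, ∀ x : X, φ (t x) = s (φ x)) → s β = ι (t x₀ -ᵥ x₀) * β := by
  obtain ⟨f, hf, hdeg, hunit⟩ := mzhp_c_unit A ι hι_add hι0 hι_inj HX hint hco hnabla
  refine ⟨f x₀, (hunit x₀).1, (hunit x₀).2, fun t s hts => ?_⟩
  rw [← hts f hf x₀, ← hdeg, vsub_vadd]

end Main

end Fermat.Agent.MZ
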