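/-
MAZUR / node [HOPF], cell [B5], NONZERO FORM (helper22, prefix `mzhp_nz_`; proofs = helper3's
`MZ/Hopf/FlatUnit.lean` + `MuUnit.lean` with ONE extra clause).

In Lean `(0 : L)⁻¹ = 0`, so `β ∈ A ∧ β⁻¹ ∈ A` does NOT say that `β` is a unit of `A` (`β = 0`
satisfies it).  The statements `mzhp_c_unit_core`, `mzhp_c_unit`, `mzhp_c_unit_cocycle`,
`mzo_SeamMuUnit`, `mzo_out_mu` are therefore restated here WITH the clause `β ≠ 0`:

* `mzhp_nz_unit_core`, `mzhp_nz_unit`, `mzhp_nz_unit_cocycle`;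
* `mzo_SeamMuUnitNZ : Prop` and `mzhp_nz_seamMuUnit : mzo_SeamMuUnitNZ`;
* `mzo_out_mu_nz` : (OUT-2) with `β ≠ 0`.
-/
import Mathlib
import Fermat.Agent.MZ.Hopf.Defs
import Fermat.Agent.MZ.Hopf.Seams
import Fermat.Agent.MZ.Hopf.Basic
import Fermat.Agent.MZ.Hopf.FlatUnit
import Fermat.Agent.MZ.Hopf.Assembly

set_option autoImplicit false

noncomputable section

namespace Fermat.Agent.MZ

open Finset

section Core

variable {L : Type*} [Field L] (A : ValuationSubring L)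
variable {E X : Type*} [AddGroup E] [AddTorsor E X]

/-- **(4)(c), second half, homogeneous core.**  `a i` of degree `-1`, `b i` of degree `1`, all
`A`-valued, and `∑ i, a i x * b i y = ι (y -ᵥ x)`.  Then some `b i` takes only unit values. -/
theorem mzhp_nz_unit_core (ι : E → L) (hι0 : ι 0 = 1) {n : ℕ} (a b : Fin n → X → L)
    (haint : ∀ i x, a i x ∈ A) (hbint : ∀ i x, b i x ∈ A)
    (hadeg : ∀ i (g : E) (x : X), a i (g +ᵥ x) * ι g = a i x)
    (hbdeg : ∀ i (g : E) (x : X), b i (g +ᵥ x) = ι g * b i x)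
    (hnabla : ∀ x y : X, ∑ i, a i x * b i y = ι (y -ᵥ x)) :
    ∃ i, ∀ x : X, b i x ∈ A ∧ (b i x)⁻¹ ∈ A ∧ b i x ≠ 0 := by
  obtain ⟨x0⟩ := (AddTorsor.nonempty : Nonempty X)
  have hsum : ∑ i, a i x0 * b i x0 = 1 := by rw [hnabla x0 x0, vsub_self, hι0]
  -- some term is a unit
  have hex : ∃ i, a i x0 * b i x0 ∉ A.nonunits := by
    by_contra hcon
    have hcon : ∀ i, a i x0 * b i x0 ∈ A.nonunits := fun i => by
      by_contra h; exact hcon ⟨i, h⟩
    have h1 : ∑ i, a i x0 * b i x0 ∈ A.nonunits := by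
      rw [A.mem_nonunits_iff]
      refine Valuation.map_sum_lt _ one_ne_zero fun i _ => ?_
      exact A.mem_nonunits_iff.mp (hcon i)
    rw [hsum, A.mem_nonunits_iff, map_one] at h1
    exact lt_irrefl _ h1
  obtain ⟨i, hi⟩ := hex
  refine ⟨i, fun x => ?_⟩
  -- the product `a i * b i` is constant
  have hconst : a i x * b i x = a i x0 * b i x0 := by
    have hx : x = (x -ᵥ x0) +ᵥ x0 := (vsub_vadd x x0).symm
    set g := x -ᵥ x0 with hg
    rw [hx, hbdeg i g x0, ← mul_assoc, hadeg i g x0]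
  refine ⟨hbint i x, mzhp_c_unit_of_mul A (haint i x) (hbint i x) (by rw [hconst]; exact hi), ?_⟩
  intro h0
  apply hi
  rw [← hconst, h0, mul_zero]
  exact A.mem_nonunits_iff.mpr (by rw [map_zero]; exact zero_lt_one)

end Core

section Main

variable {L : Type*} [Field L] (A : ValuationSubring L)
variable {E X : Type*} [AddGroup E] [Fintype E] [AddTorsor E X]

/-- **(4)(c), second half: FLAT ⇒ UNIT.**  `ι` an injective multiplicative character of the finite
group `E`, `X` an `E`-torsor, `HX` a set of `A`-valued functions on `X` with `(co)` (in component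
form) and `(∇)` for `ι`.  Then there is `f ∈ HX` of degree one, all of whose values are units of
`A`. -/
theorem mzhp_nz_unit (ι : E → L) (hι_add : ∀ g g' : E, ι (g + g') = ι g * ι g')
    (hι0 : ι 0 = 1) (hι_inj : Function.Injective ι)
    (HX : Set (X → L)) (hint : ∀ φ ∈ HX, ∀ x, φ x ∈ A)
    (hco : ∀ φ ∈ HX, ∃ comp : Fin (Fintype.card E) → X → L, (∀ j, comp j ∈ HX) ∧
      ∀ (g : E) (x : X), φ (g +ᵥ x) = ∑ j, comp j x * ι g ^ (j : ℕ))
    (hnabla : ∃ (n : ℕ) (a b : Fin n → X → L), (∀ i, a i ∈ HX) ∧ (∀ i, b i ∈ HX) ∧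
      ∀ x y : X, ∑ i, a i x * b i y = ι (y -ᵥ x)) :
    ∃ f ∈ HX, (∀ (g : E) (x : X), f (g +ᵥ x) = ι g * f x) ∧
      ∀ x : X, f x ∈ A ∧ (f x)⁻¹ ∈ A ∧ f x ≠ 0 := by
  classical
  obtain ⟨n, a, b, ha, hb, hab⟩ := hnabla
  -- the cardinality and the two indices `1` and `r - 1`
  set r := Fintype.card E with hr
  have hrpos : 0 < r := Fintype.card_pos_iff.mpr ⟨0⟩
  have hιr : ∀ g : E, ι g ^ r = 1 := by
    intro g
    have h1 : ∀ m : ℕ, ι (m • g) = ι g ^ m := by
      intro m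
      induction m with
      | zero => simp [hι0]
      | succ m ih => rw [succ_nsmul, hι_add, ih, pow_succ]
    rw [← h1, hr, card_nsmul_eq_zero, hι0]
  -- trivial case `r = 1`: everything has degree `0`; handle uniformly through `j₁ := 1 % r`
  -- components
  choose ca hca_mem hca using fun i => hco (a i) (ha i)
  choose cb hcb_mem hcb using fun i => hco (b i) (hb i)
  have hca_h := fun i => mzhp_c_comp_homog ι hι_add hι0 hι_inj (a i) (ca i) (hca i)
  have hcb_h := fun i => mzhp_c_comp_homog ι hι_add hι0 hι_inj (b i) (cb i) (hcb i)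
  -- index of degree one and of degree minus one
  let j1 : Fin r := ⟨1 % r, Nat.mod_lt _ hrpos⟩
  let jm : Fin r := ⟨(r - 1) % r, Nat.mod_lt _ hrpos⟩
  have hpow_mod : ∀ (g : E) (m : ℕ), ι g ^ (m % r) = ι g ^ m := by
    intro g m
    conv_rhs => rw [← Nat.div_add_mod m r, pow_add, pow_mul, hιr, one_pow, one_mul]
  -- step 1: replace `b i` by its degree-one component
  have step1 : ∀ x y : X, ∑ i, a i x * cb i j1 y = ι (y -ᵥ x) := by
    intro x y
    -- coefficients of the characters in `g ↦ ∑ i, a i x * b i (g +ᵥ y) - ι g * ι (y -ᵥ x)`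
    let c : Fin r → L := fun j => ∑ i, a i x * cb i j y - if j = j1 then ι (y -ᵥ x) else 0
    have hc : ∀ g : E, ∑ j, c j * ι g ^ (j : ℕ) = 0 := by
      intro g
      have h1 := hab x (g +ᵥ y)
      rw [vadd_vsub_assoc, hι_add] at h1
      have hswap : ∑ j, (∑ i, a i x * cb i j y) * ι g ^ (j : ℕ)
          = ∑ i, a i x * b i (g +ᵥ y) := by
        simp_rw [hcb _ g y, Finset.mul_sum, Finset.sum_mul]
        rw [Finset.sum_comm]
        exact Finset.sum_congr rfl fun i _ => Finset.sum_congr rfl fun j _ => by ring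
      have h2 : ∑ j, c j * ι g ^ (j : ℕ)
          = ∑ i, a i x * b i (g +ᵥ y) - ι (y -ᵥ x) * ι g ^ ((j1 : Fin r) : ℕ) := by
        simp only [c, sub_mul, Finset.sum_sub_distrib, ite_mul, zero_mul,
          Finset.sum_ite_eq', Finset.mem_univ, if_true]
        rw [hswap]
      rw [h2, h1]
      show ι g * ι (y -ᵥ x) - ι (y -ᵥ x) * ι g ^ (1 % r) = 0
      rw [hpow_mod, pow_one]; ring
    have := mzhp_c_char_indep ι hι_add hι0 hι_inj c hc j1
    simp only [c, if_true] at this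
    exact sub_eq_zero.mp this
  -- step 2: replace `a i` by its component of degree `r - 1`
  have step2 : ∀ x y : X, ∑ i, ca i jm x * cb i j1 y = ι (y -ᵥ x) := by
    intro x y
    let c : Fin r → L := fun j => ∑ i, ca i j x * cb i j1 y - if j = jm then ι (y -ᵥ x) else 0
    have hc : ∀ g : E, ∑ j, c j * ι g ^ (j : ℕ) = 0 := by
      intro g
      have h1 := step1 (g +ᵥ x) y
      rw [vsub_vadd_eq_vsub_sub] at h1
      have hinv : ι (y -ᵥ x - g) * ι g = ι (y -ᵥ x) := by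
        rw [← hι_add, sub_add_cancel]
      have hswap : ∑ j, (∑ i, ca i j x * cb i j1 y) * ι g ^ (j : ℕ)
          = ∑ i, a i (g +ᵥ x) * cb i j1 y := by
        simp_rw [hca _ g x, Finset.sum_mul]
        rw [Finset.sum_comm]
        exact Finset.sum_congr rfl fun i _ => Finset.sum_congr rfl fun j _ => by ring
      have h2 : ∑ j, c j * ι g ^ (j : ℕ)
          = ∑ i, a i (g +ᵥ x) * cb i j1 y - ι (y -ᵥ x) * ι g ^ ((jm : Fin r) : ℕ) := by
        simp only [c, sub_mul, Finset.sum_sub_distrib, ite_mul, zero_mul,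
          Finset.sum_ite_eq', Finset.mem_univ, if_true]
        rw [hswap]
      rw [h2, h1]
      show ι (y -ᵥ x - g) - ι (y -ᵥ x) * ι g ^ ((r - 1) % r) = 0
      rw [hpow_mod, ← hinv, mul_assoc, ← pow_succ', Nat.sub_add_cancel hrpos, hιr, mul_one,
        sub_self]
    have := mzhp_c_char_indep ι hι_add hι0 hι_inj c hc jm
    simp only [c, if_true] at this
    exact sub_eq_zero.mp this
  -- apply the homogeneous core
  obtain ⟨i, hi⟩ := mzhp_nz_unit_core A ι hι0 (fun i => ca i jm) (fun i => cb i j1)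
    (fun i x => hint _ (hca_mem i jm) x) (fun i x => hint _ (hcb_mem i j1) x)
    (fun i g x => by
      rw [hca_h i jm g x]
      show ι g ^ ((r - 1) % r) * ca i jm x * ι g = ca i jm x
      rw [hpow_mod, mul_comm (ι g ^ (r - 1)), mul_assoc, ← pow_succ, Nat.sub_add_cancel hrpos,
        hιr, mul_one])
    (fun i g x => by
      rw [hcb_h i j1 g x]
      show ι g ^ (1 % r) * cb i j1 x = ι g * cb i j1 x
      rw [hpow_mod, pow_one])
    step2
  refine ⟨cb i j1, hcb_mem i j1, fun g x => ?_, hi⟩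
  rw [hcb_h i j1 g x]
  show ι g ^ (1 % r) * cb i j1 x = ι g * cb i j1 x
  rw [hpow_mod, pow_one]

/-- **(4)(c), second half, cocycle form.**  In the situation of `mzhp_nz_unit`, for every base point
`x₀` there is a UNIT `β` of `A` such that for every pair `(t : X → X, s : L → L)` under which `HX` is
equivariant (`φ (t x) = s (φ x)`; e.g. the action of an element of the inertia group on `X` and on
`L`): `s β = ι (t x₀ -ᵥ x₀) * β`.  So the cocycle of the torsor `X` is the Kummer cocycle of the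
`|E|`-th root `β` of the unit `β ^ |E|`. -/
theorem mzhp_nz_unit_cocycle (ι : E → L) (hι_add : ∀ g g' : E, ι (g + g') = ι g * ι g')
    (hι0 : ι 0 = 1) (hι_inj : Function.Injective ι)
    (HX : Set (X → L)) (hint : ∀ φ ∈ HX, ∀ x, φ x ∈ A)
    (hco : ∀ φ ∈ HX, ∃ comp : Fin (Fintype.card E) → X → L, (∀ j, comp j ∈ HX) ∧
      ∀ (g : E) (x : X), φ (g +ᵥ x) = ∑ j, comp j x * ι g ^ (j : ℕ))
    (hnabla : ∃ (n : ℕ) (a b : Fin n → X → L), (∀ i, a i ∈ HX) ∧ (∀ i, b i ∈ HX) ∧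
      ∀ x y : X, ∑ i, a i x * b i y = ι (y -ᵥ x))
    (x₀ : X) :
    ∃ β : L, β ∈ A ∧ β⁻¹ ∈ A ∧ β ≠ 0 ∧ ∀ (t : X → X) (s : L → L),
      (∀ φ ∈ HX, ∀ x : X, φ (t x) = s (φ x)) → s β = ι (t x₀ -ᵥ x₀) * β := by
  obtain ⟨f, hf, hdeg, hunit⟩ := mzhp_nz_unit A ι hι_add hι0 hι_inj HX hint hco hnabla
  refine ⟨f x₀, (hunit x₀).1, (hunit x₀).2.1, (hunit x₀).2.2, fun t s hts => ?_⟩
  rw [← hts f hf x₀, ← hdeg, vsub_vadd]

end Main

/-- **[B5], nonzero form** = `mzo_SeamMuUnit` with the clause `β ≠ 0` (so that `β` IS a unit of `A`).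
-/
def mzo_SeamMuUnitNZ : Prop :=
  ∀ (r : ℕ) (O : Type) [CommRing O] [IsDomain O] [IsDiscreteValuationRing O]
    (L : Type) [Field L] [Algebra O L] (A : ValuationSubring L)
    (Γ : Type) [Group Γ] [MulSemiringAction Γ L], mzo_Ctx r O L A Γ →
  ∀ (E : Type) [AddCommGroup E] [Finite E] [DistribMulAction Γ E], Nat.card E = r →
  ∀ T : E → L, (∀ x y : E, T (x + y) = T x * T y) → Function.Injective T →
    (∀ (σ : Γ) (x : E), T (σ • x) = σ • T x) →
  ∀ H : Subalgebra O (E → L), mzo_IsOrder A Γ E H → T ∈ H →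
    (∀ φ ∈ H, ∃ c : ℕ → O, φ = ∑ j ∈ Finset.range r, c j • T ^ j) →
  ∀ z : Γ → E, mzo_IsCocycle z → mzo_Flat A Γ H z →
    ∃ β : L, β ∈ A ∧ β⁻¹ ∈ A ∧ β ≠ 0 ∧ ∀ σ : Γ, T (z σ) * β = σ • β

/-- the nonzero form implies the original seam -/
theorem mzhp_nz_seam_of_nz (h : mzo_SeamMuUnitNZ) : mzo_SeamMuUnit := by
  intro r O _ _ _ L _ _ A Γ _ _ hctx E _ _ _ hcard T hTmul hTinj hTe H hH hTH hHT z hz hflat
  obtain ⟨β, h1, h2, -, h3⟩ := h r O L A Γ hctx E hcard T hTmul hTinj hTe H hH hTH hHT z hz hflat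
  exact ⟨β, h1, h2, h3⟩

/-- **[B5]** `mzo_SeamMuUnitNZ` holds. -/
theorem mzhp_nz_seamMuUnit : mzo_SeamMuUnitNZ := by
  intro r O _ _ _ L _ _ A Γ _ _ hctx E _ _ _ hcard T hTmul hTinj hTe H hH hTH hHT z hz hflat
  classical
  obtain ⟨HX, hHX⟩ := hflat
  let _ : Fintype E := Fintype.ofFinite E
  have hcardF : Fintype.card E = r := by rw [← Nat.card_eq_fintype_card, hcard]
  subst hcardF
  -- `T 0 = 1`
  have hT0 : T 0 = 1 := by
    have h1 : T 0 = T 0 * T 0 := by
      conv_lhs => rw [← add_zero (0 : E)]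
      exact hTmul 0 0
    by_cases h0 : T 0 = 0
    · exfalso
      have h2 : 1 < Fintype.card E := hctx.r_prime.one_lt
      obtain ⟨x, hx⟩ := Fintype.exists_ne_of_one_lt_card h2 (0 : E)
      apply hx
      apply hTinj
      have : T x = T x * T 0 := by
        conv_lhs => rw [← add_zero x]
        exact hTmul x 0
      rw [this, h0, mul_zero]
    · have h3 : T 0 * 1 = T 0 * T 0 := by rw [mul_one]; exact h1
      exact (mul_left_cancel₀ h0 h3).symm
  -- `(co)` in component form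
  have hco : ∀ φ ∈ (HX : Set (E → L)), ∃ comp : Fin (Fintype.card E) → E → L,
      (∀ j, comp j ∈ (HX : Set (E → L))) ∧
      ∀ (g : E) (x : E), φ (g +ᵥ x) = ∑ j, comp j x * T g ^ (j : ℕ) := by
    intro φ hφ
    obtain ⟨n, a, b, ha, hb, hab⟩ := hHX.co φ hφ
    choose c hc using fun i => hHT (b i) (hb i)
    refine ⟨fun j => ∑ i, c i (j : ℕ) • a i, fun j => ?_, fun g x => ?_⟩
    · exact HX.sum_mem fun i _ => HX.smul_mem (ha i) _
    · rw [vadd_eq_add, add_comm, hab x g]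
      have hbi : ∀ i, b i g = ∑ j : Fin (Fintype.card E),
          algebraMap O L (c i (j : ℕ)) * T g ^ (j : ℕ) := by
        intro i
        rw [hc i, Finset.sum_apply, Finset.sum_range]
        refine Finset.sum_congr rfl fun j _ => ?_
        rw [Pi.smul_apply, Pi.pow_apply, Algebra.smul_def]
      simp_rw [hbi, Finset.mul_sum, Finset.sum_apply, Finset.sum_mul]
      rw [Finset.sum_comm]
      refine Finset.sum_congr rfl fun j _ => Finset.sum_congr rfl fun i _ => ?_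
      rw [Pi.smul_apply, Algebra.smul_def]
      ring
  -- `(∇)` for `T`
  have hnabla : ∃ (n : ℕ) (a b : Fin n → E → L), (∀ i, a i ∈ (HX : Set (E → L))) ∧
      (∀ i, b i ∈ (HX : Set (E → L))) ∧ ∀ x y : E, ∑ i, a i x * b i y = T (y -ᵥ x) := by
    obtain ⟨n, a, b, ha, hb, hab⟩ := hHX.nabla T hTH
    exact ⟨n, a, b, ha, hb, fun x y => by rw [vsub_eq_sub, hab x y]⟩
  obtain ⟨β, hβ, hβinv, hβ0, hβc⟩ := mzhp_nz_unit_cocycle A T hTmul hT0 hTinj
    (HX : Set (E → L)) (fun φ hφ x => hHX.int φ hφ x) hco hnabla (0 : E)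
  refine ⟨β, hβ, hβinv, hβ0, fun σ => ?_⟩
  have h := hβc (fun x => σ • x + z σ) (fun a => σ • a)
    (fun φ hφ x => hHX.equiv φ hφ σ x)
  rw [h, vsub_eq_sub, smul_zero, zero_add, sub_zero]


section Out

variable {r : ℕ} {O : Type} [CommRing O] [IsDomain O] [IsDiscreteValuationRing O]
  {L : Type} [Field L] [Algebra O L] {A : ValuationSubring L}
  {Γ : Type} [Group Γ] [MulSemiringAction Γ L]

/-- **(OUT-2), nonzero form** (`r` odd) the propagated local condition at `r` on a constituent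
`E ≅ μ_r` is: Kummer cocycles of UNITS `β` (`β ∈ A`, `β⁻¹ ∈ A`, `β ≠ 0`). -/
theorem mzo_out_mu_nz (hQuot : mzo_SeamQuot) (hMuO : mzo_SeamMuOrder) (hMuU : mzo_SeamMuUnitNZ)
    (hctx : mzo_Ctx r O L A Γ) (hr2 : r ≠ 2)
    {G : Type} [AddCommGroup G] [Finite G] [DistribMulAction Γ G]
    {H : Subalgebra O (G → L)} (hH : mzo_IsOrder A Γ G H)
    {z : Γ → G} (hzc : mzo_IsCocycle z) (hz : mzo_Flat A Γ H z)
    {Q : Type} [AddCommGroup Q] [DistribMulAction Γ Q] (π : G →+ Q)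
    (hπ : Function.Surjective π) (hπe : ∀ (σ : Γ) (x : G), π (σ • x) = σ • π x)
    {E : Type} [AddCommGroup E] [Finite E] [DistribMulAction Γ E] (ι : E →+ Q)
    (hι : Function.Injective ι) (hιe : ∀ (σ : Γ) (x : E), ι (σ • x) = σ • ι x)
    (hcard : Nat.card E = r)
    (T : E → L) (hT : ∀ x y : E, T (x + y) = T x * T y) (hTi : Function.Injective T)
    (hTe : ∀ (σ : Γ) (x : E), T (σ • x) = σ • T x)
    (zE : Γ → E) (hzEc : mzo_IsCocycle zE)
    (q₀ : Q) (hzE : ∀ σ : Γ, ι (zE σ) = π (z σ) + σ • q₀ - q₀) :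
    ∃ β : L, β ∈ A ∧ β⁻¹ ∈ A ∧ β ≠ 0 ∧ ∀ σ : Γ, T (zE σ) * β = σ • β := by
  obtain ⟨hHE, hfl⟩ := mzo_subquot hQuot hctx hH hzc hz π hπ hπe ι hι hιe zE q₀ hzE
  obtain ⟨hTH, hHT⟩ := hMuO r O L A Γ hctx hr2 E hcard T hT hTi hTe _ hHE
  exact hMuU r O L A Γ hctx E hcard T hT hTi hTe _ hHE hTH hHT zE hzEc hfl

end Out

end Fermat.Agent.MZ
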