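/-
Project MAZUR (S15), node [HOPF] (deputy: helper13).  THE CLOSED OUTPUTS for `r` odd: all four
seams of the `r`-odd chain are proved ([A-quot] helper4 `mzhp_seamQuot`, [B1] `mzo_conn`,
[B4] helper3 `mzhp_m_seamMuOrder`, [B5] helper3/helper22 `mzhp_nz_seamMuUnit`).

Data: `G` a finite `Γ`-module with an order `H`, `z` an `H`-flat cocycle ([GEO]: `mzg_final`), a
subquotient `E ↪ Q ↞ G` and a cocycle `zE` on `E` whose image in `Q` is cohomologous to the image
of `z` (THE PROPAGATED LOCAL CONDITION of the dévissage at the place `r`).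
* `mzo_out_triv_closed` (OUT-1): `|E| = r`, trivial action ⟹ `zE = 0` (unramified);
* `mzo_out_mu_closed`   (OUT-2): `E ≅ μ_r` through `T` ⟹ `zE` is the Kummer cocycle of a UNIT
  `β` (`β ∈ A`, `β⁻¹ ∈ A`, `β ≠ 0`).
Prefix `mzo_`.
-/
import Mathlib
import Fermat.Agent.MZ.Hopf.Defs
import Fermat.Agent.MZ.Hopf.Seams
import Fermat.Agent.MZ.Hopf.Basic
import Fermat.Agent.MZ.Hopf.Assembly
import Fermat.Agent.MZ.Hopf.Conn
import Fermat.Agent.MZ.Hopf.Quot
import Fermat.Agent.MZ.Hopf.MuOrder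
import Fermat.Agent.MZ.Hopf.UnitNZ

set_option autoImplicit false

noncomputable section

namespace Fermat.Agent.MZ

variable {r : ℕ} {O : Type} [CommRing O] [IsDomain O] [IsDiscreteValuationRing O]
  {L : Type} [Field L] [Algebra O L] {A : ValuationSubring L}
  {Γ : Type} [Group Γ] [MulSemiringAction Γ L]

/-- **(OUT-1), closed** (`r` odd) the propagated local condition at `r` on a constituent `E` of
order `r` with trivial inertia action is: unramified. -/
theorem mzo_out_triv_closed (hctx : mzo_Ctx r O L A Γ) (hr2 : r ≠ 2)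
    {G : Type} [AddCommGroup G] [Finite G] [DistribMulAction Γ G]
    {H : Subalgebra O (G → L)} (hH : mzo_IsOrder A Γ G H)
    {z : Γ → G} (hzc : mzo_IsCocycle z) (hz : mzo_Flat A Γ H z)
    {Q : Type} [AddCommGroup Q] [DistribMulAction Γ Q] (π : G →+ Q)
    (hπ : Function.Surjective π) (hπe : ∀ (σ : Γ) (x : G), π (σ • x) = σ • π x)
    {E : Type} [AddCommGroup E] [Finite E] [DistribMulAction Γ E] (ι : E →+ Q)
    (hι : Function.Injective ι) (hιe : ∀ (σ : Γ) (x : E), ι (σ • x) = σ • ι x)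
    (hcard : Nat.card E = r) (htriv : ∀ (σ : Γ) (x : E), σ • x = x)
    (zE : Γ → E) (q₀ : Q) (hzE : ∀ σ : Γ, ι (zE σ) = π (z σ) + σ • q₀ - q₀) (σ : Γ) :
    zE σ = 0 :=
  mzo_out_triv mzhp_seamQuot mzo_conn hctx hr2 hH hzc hz π hπ hπe ι hι hιe hcard htriv zE q₀
    hzE σ

/-- **(OUT-2), closed** (`r` odd) the propagated local condition at `r` on a constituent
`E ≅ μ_r` is: Kummer cocycles of UNITS. -/
theorem mzo_out_mu_closed (hctx : mzo_Ctx r O L A Γ) (hr2 : r ≠ 2)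
    {G : Type} [AddCommGroup G] [Finite G] [DistribMulAction Γ G]
    {H : Subalgebra O (G → L)} (hH : mzo_IsOrder A Γ G H)
    {z : Γ → G} (hzc : mzo_IsCocycle z) (hz : mzo_Flat A Γ H z)
    {Q : Type} [AddCommGroup Q] [DistribMulAction Γ Q] (π : G →+ Q)
    (hπ : Function.Surjective π) (hπe : ∀ (σ : Γ) (x : G), π (σ • x) = σ • π x)
    {E : Type} [AddCommGroup E] [Finite E] [DistribMulAction Γ E] (ι : E →+ Q)
    (hι : Function.Injective ι) (hιe : ∀ (σ : Γ) (x : E), ι (σ • x) = σ • ι x)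
    (hcard : Nat.card E = r)
    (T : E → L) (hT : ∀ x y : E, T (x + y) = T x * T y) (hTi : Function.Injective T)
    (hTe : ∀ (σ : Γ) (x : E), T (σ • x) = σ • T x)
    (zE : Γ → E) (hzEc : mzo_IsCocycle zE)
    (q₀ : Q) (hzE : ∀ σ : Γ, ι (zE σ) = π (z σ) + σ • q₀ - q₀) :
    ∃ β : L, β ∈ A ∧ β⁻¹ ∈ A ∧ β ≠ 0 ∧ ∀ σ : Γ, T (zE σ) * β = σ • β :=
  mzo_out_mu_nz mzhp_seamQuot mzhp_m_seamMuOrder mzhp_nz_seamMuUnit hctx hr2 hH hzc hz π hπ hπe
    ι hι hιe hcard T hT hTi hTe zE hzEc q₀ hzE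

end Fermat.Agent.MZ
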