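/-
Project MAZUR (S15), node [HOPF] (owner: helper4).  CELL [D1]: `mzhp_seamTwo : mzo_SeamTwo`.

`r = 2`, `e = 1`: an order `H` for a group `E = {0, e}` of order `2` is either étale (some function
of `H` separates `0` and `e` modulo `𝔪_A`) or the order `O ⊕ O T` of `μ_2` (`T` the sign character).

Proof.  `Γ` acts trivially on `E`, so every value `φ x` (`φ ∈ H`) is an `A`-integral `Γ`-fixed
element of `L`, i.e. lies in `O`.  The differences `φ e - φ 0` form a nonzero ideal `(g)` of `O`.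
Take `φ ∈ H` with `φ 0 = 0`, `φ e = g`; writing `Δ φ = ∑ a_i ⊗ b_i` the second difference
`φ(e+e) - φ(e+0) - φ(0+e) + φ(0+0) = -2g` equals `∑ (a_i e - a_i 0)(b_i e - b_i 0) ∈ g² O`,
so `g ∣ 2`.  If `g` is a unit we are in the étale case; otherwise `2 ∣ g`, hence `g = 2·unit`,
`1 - (unit)⁻¹ φ = T ∈ H` and every `φ ∈ H` is `c₀ + c₁ T`.

Prefix `mzhp_`.  Mathlib + `MZ/Hopf/{Defs, Seams, Ctx}` only.
-/
import Mathlib
import Fermat.Agent.MZ.Hopf.Defs
import Fermat.Agent.MZ.Hopf.Seams
import Fermat.Agent.MZ.Hopf.Ctx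

set_option autoImplicit false

noncomputable section

namespace Fermat.Agent.MZ

section Two

variable {O : Type} [CommRing O] {L : Type} [Field L] [Algebra O L]

/-- the ideal of `O` of all differences `φ e - φ 0`, `φ ∈ H`. -/
def mzhp_diffIdeal {E : Type} [AddCommGroup E] (H : Subalgebra O (E → L)) (e : E) : Ideal O where
  carrier := {o | ∃ φ ∈ H, φ e - φ 0 = algebraMap O L o}
  add_mem' := by
    rintro a b ⟨φ, hφ, h1⟩ ⟨ψ, hψ, h2⟩
    refine ⟨φ + ψ, H.add_mem hφ hψ, ?_⟩
    rw [map_add, ← h1, ← h2]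
    simp only [Pi.add_apply]
    ring
  zero_mem' := ⟨0, H.zero_mem, by simp⟩
  smul_mem' := by
    rintro c a ⟨φ, hφ, h1⟩
    refine ⟨c • φ, H.smul_mem hφ c, ?_⟩
    rw [smul_eq_mul, map_mul, ← h1]
    simp only [Pi.smul_apply, Algebra.smul_def]
    ring

theorem mzhp_mem_diffIdeal {E : Type} [AddCommGroup E] {H : Subalgebra O (E → L)} {e : E}
    {o : O} : o ∈ mzhp_diffIdeal H e ↔ ∃ φ ∈ H, φ e - φ 0 = algebraMap O L o := Iff.rfl

end Two

/-- **[D1]** the two orders on a group of order `2` (`r = 2`, `e = 1`). -/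
theorem mzhp_seamTwo : mzo_SeamTwo := by
  intro O _ _ _ L _ _ A Γ _ _ h E _ _ _ hcard T hTmul hTinj H hH
  classical
  -- the two points of `E`
  obtain ⟨e, he0, heu⟩ := (Nat.card_eq_two_iff' (0 : E)).mp hcard
  have hcases : ∀ x : E, x = 0 ∨ x = e := by
    intro x
    by_cases hx : x = 0
    · exact Or.inl hx
    · exact Or.inr (heu x hx)
  have hee : e + e = 0 := by
    by_contra hne
    have := heu (e + e) hne
    exact he0 (by simpa using this)
  have hfixE : ∀ (σ : Γ) (x : E), σ • x = x := by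
    intro σ x
    rcases hcases x with rfl | rfl
    · exact smul_zero σ
    · have : σ • x ≠ 0 := by
        intro h0
        exact he0 ((smul_eq_zero_iff_eq σ).mp h0)
      exact heu _ this
  -- the sign character
  have hT0 : T 0 = 1 := by
    have h1 : T 0 * T 0 = T 0 := by rw [← hTmul, add_zero]
    have h2 : T 0 ≠ 0 := by
      intro h0
      have : T e = T 0 := by
        have := hTmul e 0
        rw [add_zero, h0, mul_zero] at this
        rw [this, h0]
      exact he0 (hTinj this)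
    exact mul_left_cancel₀ h2 (by rw [h1, mul_one])
  have hTe : T e = -1 := by
    have h1 : T e * T e = 1 := by rw [← hTmul, hee, hT0]
    have h2 : (T e - 1) * (T e + 1) = 0 := by
      have : (T e - 1) * (T e + 1) = T e * T e - 1 := by ring
      rw [this, h1, sub_self]
    rcases mul_eq_zero.mp h2 with h3 | h3
    · exfalso
      have : T e = T 0 := by rw [hT0]; exact sub_eq_zero.mp h3
      exact he0 (hTinj this)
    · exact eq_neg_of_add_eq_zero_left h3
  -- values of functions of `H` lie in `O`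
  have hval : ∀ φ ∈ H, ∀ x : E, ∃ o : O, algebraMap O L o = φ x := by
    intro φ hφ x
    refine h.exists_of_fixed (hH.int φ hφ x) (fun σ => ?_)
    rw [← hH.equiv φ hφ σ x, hfixE]
  -- the ideal of differences is principal and nonzero
  set I : Ideal O := mzhp_diffIdeal H e with hI
  obtain ⟨g, hg⟩ := (IsPrincipalIdealRing.principal I).principal
  have hgI : g ∈ I := by
    rw [hg]
    exact Submodule.mem_span_singleton_self g
  have hdiv : ∀ φ ∈ H, ∃ α : O, φ e - φ 0 = algebraMap O L g * algebraMap O L α := by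
    intro φ hφ
    obtain ⟨a, ha⟩ := hval φ hφ e
    obtain ⟨b, hb⟩ := hval φ hφ 0
    have hmem : a - b ∈ I := ⟨φ, hφ, by rw [map_sub, ha, hb]⟩
    rw [hg] at hmem
    obtain ⟨α, hα⟩ := Submodule.mem_span_singleton.mp hmem
    refine ⟨α, ?_⟩
    rw [← ha, ← hb, ← map_sub, ← hα, smul_eq_mul, map_mul, mul_comm]
  have hg0 : g ≠ 0 := by
    intro hg0
    obtain ⟨φ, hφ, hne⟩ := hH.sep e 0 he0
    obtain ⟨α, hα⟩ := hdiv φ hφ
    rw [hg0, map_zero, zero_mul] at hα
    exact hne (sub_eq_zero.mp hα)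
  have hγ0 : algebraMap O L g ≠ 0 := fun h0 => hg0 (h.inj (by rw [h0, map_zero]))
  -- a function `φ ∈ H` with `φ 0 = 0`, `φ e = g`
  obtain ⟨φ₀, hφ₀, hφ₀d⟩ := mzhp_mem_diffIdeal.mp hgI
  obtain ⟨c₀, hc₀⟩ := hval φ₀ hφ₀ 0
  set φ : E → L := φ₀ - algebraMap O (E → L) c₀ with hφdef
  have hφ : φ ∈ H := H.sub_mem hφ₀ (H.algebraMap_mem c₀)
  have hφ0 : φ 0 = 0 := by
    rw [hφdef, Pi.sub_apply, Pi.algebraMap_apply, hc₀, sub_self]
  have hφe : φ e = algebraMap O L g := by
    rw [hφdef, Pi.sub_apply, Pi.algebraMap_apply, hc₀, hφ₀d]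
  -- the second difference
  obtain ⟨n, a, b, ha, hb, hab⟩ := hH.comul φ hφ
  choose α hα using fun i => hdiv (a i) (ha i)
  choose β hβ using fun i => hdiv (b i) (hb i)
  have hsecond : φ (e + e) - φ (e + 0) - φ (0 + e) + φ (0 + 0)
      = ∑ i, (a i e - a i 0) * (b i e - b i 0) := by
    rw [hab, hab, hab, hab, ← Finset.sum_sub_distrib, ← Finset.sum_sub_distrib,
      ← Finset.sum_add_distrib]
    refine Finset.sum_congr rfl (fun i _ => ?_)
    ring
  have hkey : -(2 : L) * algebraMap O L g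
      = algebraMap O L g * algebraMap O L g * algebraMap O L (∑ i, α i * β i) := by
    have h1 : φ (e + e) - φ (e + 0) - φ (0 + e) + φ (0 + 0) = -(2 : L) * algebraMap O L g := by
      simp only [hee, add_zero, zero_add, hφ0, hφe]
      ring
    rw [← h1, hsecond, map_sum, Finset.mul_sum]
    refine Finset.sum_congr rfl (fun i _ => ?_)
    rw [hα i, hβ i, map_mul]
    ring
  -- `2 = - g * S` in `O`
  have hkeyO : (2 : O) = -(g * ∑ i, α i * β i) := by
    apply h.inj
    have h2 : -(2 : L) = algebraMap O L g * algebraMap O L (∑ i, α i * β i) := by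
      apply mul_right_cancel₀ hγ0
      rw [hkey]
      ring
    rw [map_neg, map_mul, ← h2, neg_neg, map_ofNat]
  by_cases hunit : IsUnit g
  · -- étale case
    left
    intro x hx
    have hxe : x = e := heu x hx
    subst hxe
    refine ⟨φ, hφ, ?_⟩
    rw [hφ0, sub_zero, hφe, h.nonunit_iff]
    exact fun hnu => hnu hunit
  · -- `μ_2` case
    right
    have h2dvd : ((2 : ℕ) : O) ∣ g := h.dvd_of_nonunit ((h.nonunit_iff g).mpr hunit)
    obtain ⟨v, hv⟩ := h2dvd
    have h2O : ((2 : ℕ) : O) ≠ 0 := h.r_ne_zero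
    have hvunit : IsUnit v := by
      have h3 : ((2 : ℕ) : O) * 1 = ((2 : ℕ) : O) * (v * -(∑ i, α i * β i)) := by
        have : ((2 : ℕ) : O) = (2 : O) := Nat.cast_ofNat
        rw [mul_one, ← mul_assoc, ← hv, mul_neg, ← hkeyO]
        exact this
      have h4 := mul_left_cancel₀ h2O h3
      exact IsUnit.of_mul_eq_one _ h4.symm
    obtain ⟨u, hu⟩ := hvunit
    -- `ψ 0 = 0`, `ψ e = 2`
    set ψ : E → L := ((u⁻¹ : Oˣ) : O) • φ with hψdef
    have hψ : ψ ∈ H := H.smul_mem hφ _
    have hψ0 : ψ 0 = 0 := by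
      rw [hψdef, Pi.smul_apply, hφ0, smul_zero]
    have hψe : ψ e = 2 := by
      rw [hψdef, Pi.smul_apply, hφe, Algebra.smul_def, ← map_mul, hv, ← hu]
      have : ((u⁻¹ : Oˣ) : O) * (((2 : ℕ) : O) * (u : O)) = ((2 : ℕ) : O) := by
        rw [mul_comm ((2 : ℕ) : O), ← mul_assoc, Units.inv_mul, one_mul]
      rw [this, map_natCast]
      norm_num
    have hTeq : T = 1 - ψ := by
      funext x
      rcases hcases x with rfl | rfl
      · rw [hT0, Pi.sub_apply, Pi.one_apply, hψ0, sub_zero]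
      · rw [hTe, Pi.sub_apply, Pi.one_apply, hψe]
        norm_num
    have hTH : T ∈ H := by
      rw [hTeq]
      exact H.sub_mem H.one_mem hψ
    refine ⟨hTH, ?_⟩
    intro χ hχ
    obtain ⟨p, hp⟩ := hval χ hχ 0
    obtain ⟨q, hq⟩ := hval χ hχ e
    -- `q - p` is a nonunit multiple of ... in `I`, hence divisible by `2`
    have hmem : q - p ∈ I := ⟨χ, hχ, by rw [map_sub, hp, hq]⟩
    rw [hg] at hmem
    obtain ⟨w, hw⟩ := Submodule.mem_span_singleton.mp hmem
    -- `q - p = w * g = 2 * (w * v)`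
    set c1 : O := -(w * v) with hc1
    set c0 : O := p + w * v with hc0
    refine ⟨fun j => if j = 0 then c0 else c1, ?_⟩
    have hsum : (∑ j ∈ Finset.range 2, (fun j => if j = 0 then c0 else c1) j • T ^ j)
        = c0 • (1 : E → L) + c1 • T := by
      rw [Finset.sum_range_succ, Finset.sum_range_succ, Finset.sum_range_zero, zero_add]
      simp only [if_true, one_ne_zero, if_false, pow_zero, pow_one]
    rw [hsum]
    funext x
    rw [Pi.add_apply, Pi.smul_apply, Pi.smul_apply, Pi.one_apply, Algebra.smul_def,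
      Algebra.smul_def, mul_one]
    rcases hcases x with rfl | rfl
    · rw [hT0, mul_one, ← map_add, ← hp, hc0, hc1]
      congr 1
      ring
    · rw [hTe, mul_neg, mul_one, ← map_neg, ← map_add, ← hq, hc0, hc1]
      congr 1
      have : q = p + w * g := by
        rw [smul_eq_mul] at hw
        rw [hw]
        ring
      rw [this, hv]
      have h2 : ((2 : ℕ) : O) = 2 := Nat.cast_ofNat
      rw [h2]
      ring

end Fermat.Agent.MZ
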