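/-
Project MAZUR (S15), node [HOPF] (deputy: helper13).  THE CLOSED OUTPUT for `r = 2` in the design of
helper4's note #2971 (architect ruling (R7)): at the place `2` EVERY leaf `E` of order `2` of the
dévissage gets the UNIT condition, with no typing:
the induced order on `E` is étale or `O ⊕ O T` ([D1], helper4 `mzhp_seamTwo`); in the first case the
propagated cocycle vanishes on inertia (`mzo_etale_unram`, `β = 1`), in the second it is the Kummer
cocycle of a unit ([B5], `mzhp_nz_seamMuUnit`).
* `mzo_out_two` (OUT-2 at `r = 2`).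
Prefix `mzo_`.
-/
import Mathlib
import Fermat.Agent.MZ.Hopf.Defs
import Fermat.Agent.MZ.Hopf.Seams
import Fermat.Agent.MZ.Hopf.Basic
import Fermat.Agent.MZ.Hopf.Assembly
import Fermat.Agent.MZ.Hopf.Quot
import Fermat.Agent.MZ.Hopf.UnitNZ
import Fermat.Agent.MZ.Hopf.Two

set_option autoImplicit false

noncomputable section

namespace Fermat.Agent.MZ

variable {O : Type} [CommRing O] [IsDomain O] [IsDiscreteValuationRing O]
  {L : Type} [Field L] [Algebra O L] {A : ValuationSubring L}
  {Γ : Type} [Group Γ] [MulSemiringAction Γ L]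

/-- a multiplicative injective function on a group of order `2` is the sign character, and it is
equivariant for every action. -/
theorem mzo_two_char {E : Type} [AddCommGroup E] [Finite E] [DistribMulAction Γ E]
    (hcard : Nat.card E = 2) (T : E → L) (hT : ∀ x y : E, T (x + y) = T x * T y)
    (hTi : Function.Injective T) :
    T 0 = 1 ∧ ∀ (σ : Γ) (x : E), T (σ • x) = σ • T x := by
  classical
  have : Fintype E := Fintype.ofFinite E
  have hcardF : Fintype.card E = 2 := by rw [← Nat.card_eq_fintype_card, hcard]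
  have hT0 : T 0 = 1 := by
    have h1 : T 0 = T 0 * T 0 := by
      conv_lhs => rw [← add_zero (0 : E)]
      exact hT 0 0
    by_cases h0 : T 0 = 0
    · exfalso
      have h2 : 1 < Fintype.card E := by rw [hcardF]; norm_num
      obtain ⟨x, hx⟩ := Fintype.exists_ne_of_one_lt_card h2 (0 : E)
      apply hx
      apply hTi
      have : T x = T x * T 0 := by
        conv_lhs => rw [← add_zero x]
        exact hT x 0
      rw [this, h0, mul_zero]
    · have h3 : T 0 * 1 = T 0 * T 0 := by rw [mul_one]; exact h1
      exact (mul_left_cancel₀ h0 h3).symm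
  refine ⟨hT0, fun σ x => ?_⟩
  -- every element is fixed by `σ`
  have hfix : σ • x = x := by
    by_cases hx : x = 0
    · rw [hx, smul_zero]
    · by_contra hne
      -- `0`, `x`, `σ • x` are three distinct elements
      have hσx : σ • x ≠ 0 := by
        intro h
        apply hx
        have := congrArg (fun y => σ⁻¹ • y) h
        simpa using this
      have h3 : ({0, x, σ • x} : Finset E).card = 3 := by
        rw [Finset.card_insert_of_notMem, Finset.card_insert_of_notMem, Finset.card_singleton]
        · simpa using fun h : x = σ • x => hne h.symm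
        · simp only [Finset.mem_insert, Finset.mem_singleton, not_or]
          exact ⟨fun h => hx h.symm, fun h => hσx h.symm⟩
      have h4 := Finset.card_le_univ ({0, x, σ • x} : Finset E)
      rw [h3, hcardF] at h4
      omega
  rw [hfix]
  -- `T x = ± 1`
  have hxx : x + x = 0 := by
    have := card_nsmul_eq_zero' (G := E) (x := x)
    rw [hcard, two_nsmul] at this
    exact this
  have hsq : T x * T x = 1 := by rw [← hT, hxx, hT0]
  have hpm : T x = 1 ∨ T x = -1 := mul_self_eq_one_iff.mp hsq
  rcases hpm with h | h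
  · rw [h, smul_one]
  · rw [h, smul_neg, smul_one]

/-- **(OUT-2) at `r = 2`, closed**: the propagated local condition at `2` on ANY constituent `E`
of order `2` is inside: Kummer cocycles of UNITS. -/
theorem mzo_out_two (hctx : mzo_Ctx 2 O L A Γ)
    {G : Type} [AddCommGroup G] [Finite G] [DistribMulAction Γ G]
    {H : Subalgebra O (G → L)} (hH : mzo_IsOrder A Γ G H)
    {z : Γ → G} (hzc : mzo_IsCocycle z) (hz : mzo_Flat A Γ H z)
    {Q : Type} [AddCommGroup Q] [DistribMulAction Γ Q] (π : G →+ Q)
    (hπ : Function.Surjective π) (hπe : ∀ (σ : Γ) (x : G), π (σ • x) = σ • π x)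
    {E : Type} [AddCommGroup E] [Finite E] [DistribMulAction Γ E] (ι : E →+ Q)
    (hι : Function.Injective ι) (hιe : ∀ (σ : Γ) (x : E), ι (σ • x) = σ • ι x)
    (hcard : Nat.card E = 2)
    (T : E → L) (hT : ∀ x y : E, T (x + y) = T x * T y) (hTi : Function.Injective T)
    (zE : Γ → E) (hzEc : mzo_IsCocycle zE)
    (q₀ : Q) (hzE : ∀ σ : Γ, ι (zE σ) = π (z σ) + σ • q₀ - q₀) :
    ∃ β : L, β ∈ A ∧ β⁻¹ ∈ A ∧ β ≠ 0 ∧ ∀ σ : Γ, T (zE σ) * β = σ • β := by
  obtain ⟨hT0, hTe⟩ := mzo_two_char (Γ := Γ) hcard T hT hTi
  obtain ⟨hHE, hfl⟩ := mzo_subquot mzhp_seamQuot hctx hH hzc hz π hπ hπe ι hι hιe zE q₀ hzE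
  rcases mzhp_seamTwo O L A Γ hctx E hcard T hT hTi _ hHE with het | ⟨hTH, hHT⟩
  · -- étale: the cocycle vanishes, `β = 1`
    refine ⟨1, A.one_mem, by rw [inv_one]; exact A.one_mem, one_ne_zero, fun σ => ?_⟩
    rw [mzo_etale_unram hctx.inert het hfl σ, hT0, mul_one, smul_one]
  · exact mzhp_nz_seamMuUnit 2 O L A Γ hctx E hcard T hT hTi hTe _ hHE hTH hHT zE hzEc hfl

end Fermat.Agent.MZ
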