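/-
MAZUR / node [HOPF], cell (4)(c), first half (helper3, prefix `mzhp_c_`): FLAT ⇒ UNRAMIFIED for the
étale order.

If the diagonal indicator of a set `X` is a finite sum `∑ a i ⊗ b i` of functions taking values in
a valuation ring `A` and equivariant for a pair `(t : X → X, s : L → L)` where `s` is trivial modulo
the maximal ideal of `A` (an "inertia element"), then `t` is the identity of `X`.
This is `(∇)` applied to the indicator `δ₀` of the étale order (helper27's shortcut (S2)).
Mathlib only; no group, no ring structure on the set of functions is needed.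
-/
import Mathlib

set_option autoImplicit false

namespace Fermat.Agent.MZ

open Finset

/-- the sum of finitely many non-units of a valuation ring is a non-unit -/
theorem mzhp_c_sum_mem_nonunits {L : Type*} [Field L] (A : ValuationSubring L) {ι : Type*}
    (s : Finset ι) (f : ι → L) (hf : ∀ i ∈ s, f i ∈ A.nonunits) : ∑ i ∈ s, f i ∈ A.nonunits := by
  rw [A.mem_nonunits_iff]
  refine Valuation.map_sum_lt _ one_ne_zero fun i hi => ?_
  exact A.mem_nonunits_iff.mp (hf i hi)

/-- a product `a * b` with `a ∈ A` and `b` a non-unit is a non-unit -/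
theorem mzhp_c_mul_mem_nonunits {L : Type*} [Field L] (A : ValuationSubring L) {a b : L}
    (ha : a ∈ A) (hb : b ∈ A.nonunits) : a * b ∈ A.nonunits := by
  rw [A.mem_nonunits_iff] at hb ⊢
  rw [map_mul]
  have h1 : A.valuation a ≤ 1 := (A.valuation_le_one_iff a).mpr ha
  calc A.valuation a * A.valuation b ≤ 1 * A.valuation b := mul_le_mul_left h1 _
    _ = A.valuation b := one_mul _
    _ < 1 := hb

/-- **(4)(c), first half, core.**  `A` a valuation ring of the field `L`; `s : L → L` any map which is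
trivial modulo the maximal ideal on `A`; `t : X → X` any map; `HX` a set of `A`-valued functions on
`X` with `φ (t x) = s (φ x)`; the diagonal indicator of `X` is a finite sum `∑ a i ⊗ b i` with
`a i, b i ∈ HX`.  Then `t = id`. -/
theorem mzhp_c_unram {L : Type*} [Field L] (A : ValuationSubring L)
    (s : L → L) (hin : ∀ a ∈ A, s a - a ∈ A.nonunits)
    {X : Type*} (t : X → X) (HX : Set (X → L))
    (hint : ∀ φ ∈ HX, ∀ x, φ x ∈ A)
    (hequiv : ∀ φ ∈ HX, ∀ x : X, φ (t x) = s (φ x))
    (hdiag : ∃ (n : ℕ) (a b : Fin n → X → L), (∀ i, a i ∈ HX) ∧ (∀ i, b i ∈ HX) ∧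
      (∀ x : X, ∑ i, a i x * b i x = 1) ∧ ∀ x y : X, x ≠ y → ∑ i, a i x * b i y = 0)
    (x : X) : t x = x := by
  by_contra hne
  obtain ⟨n, a, b, ha, hb, hab1, hab0⟩ := hdiag
  have h1 : ∑ i, a i x * b i (t x) = 0 := hab0 x (t x) (fun h => hne h.symm)
  have h2 : ∑ i, a i x * b i x = 1 := hab1 x
  have h3 : ∑ i, a i x * (s (b i x) - b i x) = -1 := by
    have : ∑ i, a i x * (s (b i x) - b i x)
        = ∑ i, a i x * b i (t x) - ∑ i, a i x * b i x := by
      rw [← Finset.sum_sub_distrib]
      refine Finset.sum_congr rfl fun i _ => ?_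
      rw [hequiv (b i) (hb i) x]; ring
    rw [this, h1, h2, zero_sub]
  have h4 : ∑ i, a i x * (s (b i x) - b i x) ∈ A.nonunits :=
    mzhp_c_sum_mem_nonunits A _ _ fun i _ =>
      mzhp_c_mul_mem_nonunits A (hint (a i) (ha i) x) (hin _ (hint (b i) (hb i) x))
  rw [h3, A.mem_nonunits_iff, Valuation.map_neg, map_one] at h4
  exact lt_irrefl _ h4

/-- **(4)(c), first half, torsor form.**  `X` a torsor under the additive group `E`; `ψ : E → L` is
the indicator of `0 ∈ E` (it belongs to the étale order) and `(∇)` holds for it: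
`ψ (y -ᵥ x) = ∑ a i x * b i y` with `a i, b i ∈ HX`.  Then every "inertia pair" `(t, s)` acts
trivially on `X`. -/
theorem mzhp_c_unram_torsor {L : Type*} [Field L] (A : ValuationSubring L)
    (s : L → L) (hin : ∀ a ∈ A, s a - a ∈ A.nonunits)
    {E X : Type*} [AddGroup E] [AddTorsor E X]
    (t : X → X) (HX : Set (X → L))
    (hint : ∀ φ ∈ HX, ∀ x, φ x ∈ A)
    (hequiv : ∀ φ ∈ HX, ∀ x : X, φ (t x) = s (φ x))
    (ψ : E → L) (hψ0 : ψ 0 = 1) (hψ : ∀ g : E, g ≠ 0 → ψ g = 0)
    (hnabla : ∃ (n : ℕ) (a b : Fin n → X → L), (∀ i, a i ∈ HX) ∧ (∀ i, b i ∈ HX) ∧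
      ∀ x y : X, ∑ i, a i x * b i y = ψ (y -ᵥ x))
    (x : X) : t x = x := by
  refine mzhp_c_unram A s hin t HX hint hequiv ?_ x
  obtain ⟨n, a, b, ha, hb, hab⟩ := hnabla
  refine ⟨n, a, b, ha, hb, fun x => ?_, fun x y hxy => ?_⟩
  · rw [hab x x, vsub_self, hψ0]
  · rw [hab x y]
    exact hψ _ fun h0 => hxy (vsub_eq_zero_iff_eq.mp h0).symm

end Fermat.Agent.MZ
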