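/-
MAZUR / node [HOPF], cell [B4], part 1 (helper3, prefix `mzhp_m_`): finite Fourier analysis for an
injective multiplicative character `T : E → L` of a finite abelian group (`E ≅ μ_r`).

* `mzhp_m_coef T j f = |E|⁻¹ ∑ y, f y * T (-y) ^ j`  (the `j`-th Fourier coefficient),
* `mzhp_m_inversion`      : `∑ j < |E|, coef j f * T x ^ j = f x`,
* `mzhp_m_coef_translate` : `coef j (y ↦ f (x + y)) = T x ^ j * coef j f`,
* `mzhp_m_coef_sum_mul`   : linearity in the form used with `φ (x + y) = ∑ a i x * b i y`,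
* `mzhp_m_coef_pow`, `mzhp_m_coef_const` : coefficients of `T ^ j` and of constants (`|E|` prime).
Mathlib only.
-/
import Mathlib

set_option autoImplicit false

noncomputable section

namespace Fermat.Agent.MZ

open Finset

variable {L : Type} [Field L] {E : Type} [AddCommGroup E] [Fintype E]

/-- the hypotheses on the character `T` -/
structure mzhp_m_Char (T : E → L) : Prop where
  mul : ∀ x y : E, T (x + y) = T x * T y
  zero : T 0 = 1
  inj : Function.Injective T
  card_ne : ((Fintype.card E : ℕ) : L) ≠ 0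

namespace mzhp_m_Char

variable {T : E → L} (hT : mzhp_m_Char T)
include hT

theorem nsmul (n : ℕ) (x : E) : T (n • x) = T x ^ n := by
  induction n with
  | zero => rw [zero_nsmul, pow_zero, hT.zero]
  | succ n ih => rw [succ_nsmul, hT.mul, ih, pow_succ]

theorem pow_card (x : E) : T x ^ Fintype.card E = 1 := by
  rw [← hT.nsmul, card_nsmul_eq_zero, hT.zero]

theorem neg_mul (x : E) : T (-x) * T x = 1 := by
  rw [← hT.mul, neg_add_cancel, hT.zero]

theorem ne_zero (x : E) : T x ≠ 0 := by
  intro h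
  have := hT.neg_mul x
  rw [h, mul_zero] at this
  exact zero_ne_one this

theorem sub (x y : E) : T (x - y) = T x * T (-y) := by
  rw [sub_eq_add_neg, hT.mul]

/-- geometric sums of the values of `T` -/
theorem geom (z : E) [DecidableEq E] :
    ∑ j ∈ range (Fintype.card E), T z ^ j = if z = 0 then ((Fintype.card E : ℕ) : L) else 0 := by
  split_ifs with hz
  · subst hz
    simp [hT.zero]
  · have h1 : T z - 1 ≠ 0 := by
      intro h
      apply hz
      apply hT.inj
      rw [hT.zero]
      exact sub_eq_zero.mp h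
    have h2 := mul_geom_sum (T z) (Fintype.card E)
    rw [hT.pow_card, sub_self] at h2
    exact (mul_eq_zero.mp h2).resolve_left h1

end mzhp_m_Char

/-- the `j`-th Fourier coefficient of `f` with respect to `T` -/
def mzhp_m_coef (T : E → L) (j : ℕ) (f : E → L) : L :=
  ((Fintype.card E : ℕ) : L)⁻¹ * ∑ y, f y * T (-y) ^ j

section

variable {T : E → L} (hT : mzhp_m_Char T)
include hT

/-- **Fourier inversion.** -/
theorem mzhp_m_inversion (f : E → L) (x : E) :
    ∑ j ∈ range (Fintype.card E), mzhp_m_coef T j f * T x ^ j = f x := by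
  classical
  have h1 : ∀ j, mzhp_m_coef T j f * T x ^ j
      = ((Fintype.card E : ℕ) : L)⁻¹ * ∑ y, f y * T (x - y) ^ j := by
    intro j
    rw [mzhp_m_coef, mul_assoc, Finset.sum_mul]
    congr 1
    refine Finset.sum_congr rfl fun y _ => ?_
    rw [hT.sub, mul_pow]; ring
  simp_rw [h1]
  rw [← Finset.mul_sum, Finset.sum_comm]
  have h2 : ∀ y, ∑ j ∈ range (Fintype.card E), f y * T (x - y) ^ j
      = if y = x then f x * ((Fintype.card E : ℕ) : L) else 0 := by
    intro y
    rw [← Finset.mul_sum, hT.geom (x - y)]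
    by_cases hxy : y = x
    · subst hxy; simp
    · have : x - y ≠ 0 := fun h => hxy (sub_eq_zero.mp h).symm
      rw [if_neg this, if_neg hxy, mul_zero]
  simp_rw [h2]
  rw [Finset.sum_ite_eq' Finset.univ x, if_pos (Finset.mem_univ x), mul_comm (f x), ← mul_assoc,
    inv_mul_cancel₀ hT.card_ne, one_mul]

/-- coefficients of a translate -/
theorem mzhp_m_coef_translate (f : E → L) (x : E) (j : ℕ) :
    mzhp_m_coef T j (fun y => f (x + y)) = T x ^ j * mzhp_m_coef T j f := by
  rw [mzhp_m_coef, mzhp_m_coef, mul_left_comm]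
  congr 1
  rw [Finset.mul_sum]
  refine Fintype.sum_equiv (Equiv.addLeft x) _ _ fun y => ?_
  simp only [Equiv.coe_addLeft]
  have : T (-y) = T x * T (-(x + y)) := by
    rw [← hT.mul]; congr 1; abel
  rw [this, mul_pow]; ring

omit hT in
/-- linearity -/
theorem mzhp_m_coef_sum_mul {n : ℕ} (c : Fin n → L) (b : Fin n → E → L) (j : ℕ) :
    mzhp_m_coef T j (fun y => ∑ i, c i * b i y) = ∑ i, c i * mzhp_m_coef T j (b i) := by
  simp only [mzhp_m_coef, Finset.sum_mul, Finset.mul_sum]
  rw [Finset.sum_comm]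
  refine Finset.sum_congr rfl fun i _ => Finset.sum_congr rfl fun y _ => ?_
  ring

omit hT in
theorem mzhp_m_coef_add (f g : E → L) (j : ℕ) :
    mzhp_m_coef T j (fun y => f y + g y) = mzhp_m_coef T j f + mzhp_m_coef T j g := by
  simp only [mzhp_m_coef, add_mul, Finset.sum_add_distrib, mul_add]

omit hT in
theorem mzhp_m_coef_smul (c : L) (f : E → L) (j : ℕ) :
    mzhp_m_coef T j (fun y => c * f y) = c * mzhp_m_coef T j f := by
  simp only [mzhp_m_coef, Finset.mul_sum]
  refine Finset.sum_congr rfl fun y _ => ?_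
  ring

/-- the `j`-th coefficient of `T ^ j` is `1` -/
theorem mzhp_m_coef_pow_self (j : ℕ) : mzhp_m_coef T j (fun y => T y ^ j) = 1 := by
  have h1 : ∀ y : E, T y ^ j * T (-y) ^ j = 1 := by
    intro y
    rw [← mul_pow, mul_comm, hT.neg_mul, one_pow]
  simp only [mzhp_m_coef, h1]
  rw [Finset.sum_const, Finset.card_univ, nsmul_eq_mul, mul_one, inv_mul_cancel₀ hT.card_ne]

/-- `∑ y, T y ^ j = 0` for `0 < j < |E|`, `|E|` prime -/
theorem mzhp_m_sum_pow_eq_zero (hp : (Fintype.card E).Prime) {j : ℕ} (hj0 : 0 < j)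
    (hj : j < Fintype.card E) : ∑ y, T y ^ j = 0 := by
  have : Fact (Fintype.card E).Prime := ⟨hp⟩
  obtain ⟨y0, hy0⟩ := Fintype.exists_ne_of_one_lt_card hp.one_lt (0 : E)
  have h1 : T y0 ^ j ≠ 1 := by
    rw [← hT.nsmul, ← hT.zero]
    intro h
    have h2 : j • y0 = 0 := hT.inj h
    have h3 : addOrderOf y0 = Fintype.card E := addOrderOf_eq_prime card_nsmul_eq_zero hy0
    have h4 := addOrderOf_dvd_of_nsmul_eq_zero h2
    rw [h3] at h4
    exact absurd (Nat.le_of_dvd hj0 h4) (not_le.mpr hj)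
  have h5 : T y0 ^ j * ∑ y, T y ^ j = ∑ y, T y ^ j := by
    rw [Finset.mul_sum]
    refine Fintype.sum_equiv (Equiv.addLeft y0) _ _ fun y => ?_
    simp only [Equiv.coe_addLeft]
    rw [hT.mul, mul_pow]
  have h6 : (T y0 ^ j - 1) * ∑ y, T y ^ j = 0 := by rw [sub_mul, h5, one_mul, sub_self]
  exact (mul_eq_zero.mp h6).resolve_left (sub_ne_zero.mpr h1)

/-- coefficients of a constant function (`|E|` prime, `j < |E|`) -/
theorem mzhp_m_coef_const (hp : (Fintype.card E).Prime) (c : L) {j : ℕ}
    (hj : j < Fintype.card E) :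
    mzhp_m_coef T j (fun _ => c) = if j = 0 then c else 0 := by
  have hneg : ∑ y, T (-y) ^ j = ∑ y, T y ^ j :=
    Fintype.sum_equiv (Equiv.neg E) _ _ fun y => by simp
  rw [mzhp_m_coef, ← Finset.mul_sum, hneg]
  split_ifs with h0
  · subst h0
    simp only [pow_zero, Finset.sum_const, Finset.card_univ, nsmul_eq_mul, mul_one]
    rw [mul_left_comm, inv_mul_cancel₀ hT.card_ne, mul_one]
  · rw [mzhp_m_sum_pow_eq_zero hT hp (Nat.pos_of_ne_zero h0) hj, mul_zero, mul_zero]

end

end Fermat.Agent.MZ
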