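/-
MAZUR / node [HOPF], cell [B4] (helper3, prefix `mzhp_m_`): the seam `mzo_SeamMuOrder` is CLOSED.

`E ≅ μ_r` through an equivariant injective character `T`, `r` odd, `e = 1`: every order `H` for `E`
is `⊕_j O T^j`.  NO duality theory is needed:
1. `H` is CONNECTED (`φ x ≡ φ 0 mod 𝔪_A`): the congruence class of `0` is a subgroup of the group `E`
   of prime order; if it were trivial, `Γ` would act trivially on `E`, `T` would take values in `O`,
   and `O` (uniformiser `r`, `r` odd) contains no nontrivial `r`-th root of unity (E1);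
2. the Fourier coefficients `c_j φ = r⁻¹ ∑ y, φ y T(-y)^j` of `φ ∈ H` lie in `O`: for `φ 0 = 0` the
   sum is a `Γ`-fixed non-unit, hence divisible by `r` in `A` (`e = 1`);
3. `H` is GRADED: `c_j φ · T^j = ∑ i, c_j (b i) · a i ∈ H` if `φ (x + y) = ∑ a i x * b i y`;
4. the ideals `I_j = {o : o T^j ∈ H}` satisfy `I_j ⊆ I_j²` (apply `c_j ⊗ c_j` to `Δ (o T^j)`), so
   `I_j ∈ {0, O}`;
5. `H` separates points, so `I_j = O` for some `0 < j < r`, and `T = (T^j)^m`.
-/
import Mathlib
import Fermat.Agent.MZ.Hopf.Defs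
import Fermat.Agent.MZ.Hopf.Seams
import Fermat.Agent.MZ.Hopf.Ctx
import Fermat.Agent.MZ.Hopf.Conn
import Fermat.Agent.MZ.Hopf.E1
import Fermat.Agent.MZ.Hopf.MuFourier

set_option autoImplicit false

noncomputable section

namespace Fermat.Agent.MZ

open Finset

section

variable {r : ℕ} {O : Type} [CommRing O] [IsDomain O] [IsDiscreteValuationRing O]
  {L : Type} [Field L] [Algebra O L] {A : ValuationSubring L}
  {Γ : Type} [Group Γ] [MulSemiringAction Γ L]
  {E : Type} [AddCommGroup E] [Fintype E] [DistribMulAction Γ E]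
  {T : E → L} {H : Subalgebra O (E → L)}

/-- the values of `T` are units of `A` (roots of unity) -/
theorem mzhp_m_T_mem (hT : mzhp_m_Char T) (x : E) : T x ∈ A := by
  rw [← A.valuation_le_one_iff]
  by_contra hlt
  rw [not_le] at hlt
  have hn : Fintype.card E ≠ 0 := Fintype.card_ne_zero
  have h1 : 1 < A.valuation (T x) ^ Fintype.card E := one_lt_pow₀ hlt hn
  rw [← map_pow, hT.pow_card, map_one] at h1
  exact lt_irrefl _ h1

/-- `Γ`-invariance of the Fourier sums of an equivariant function -/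
theorem mzhp_m_sum_fixed (hTe : ∀ (σ : Γ) (x : E), T (σ • x) = σ • T x) (f : E → L)
    (hf : ∀ (σ : Γ) (y : E), f (σ • y) = σ • f y) (j : ℕ) (σ : Γ) :
    σ • ∑ y, f y * T (-y) ^ j = ∑ y, f y * T (-y) ^ j := by
  rw [Finset.smul_sum]
  refine Fintype.sum_equiv (MulAction.toPerm σ) _ _ fun y => ?_
  rw [MulAction.toPerm_apply, smul_mul', smul_pow', hf, ← hTe, smul_neg]

/-- the Fourier coefficients of an equivariant function with non-unit values lie in `O` -/
theorem mzhp_m_coef_mem_of_nonunits (hctx : mzo_Ctx r O L A Γ) (hcard : Fintype.card E = r)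
    (hT : mzhp_m_Char T) (hTe : ∀ (σ : Γ) (x : E), T (σ • x) = σ • T x) (f : E → L)
    (hf : ∀ (σ : Γ) (y : E), f (σ • y) = σ • f y) (hfn : ∀ y, f y ∈ A.nonunits) (j : ℕ) :
    ∃ o : O, algebraMap O L o = mzhp_m_coef T j f := by
  set S := ∑ y, f y * T (-y) ^ j with hS
  have hSn : S ∈ A.nonunits :=
    mzo_nonunits_sum _ _ fun y _ => mzo_nonunits_mul_mem (hfn y) (A.pow_mem (mzhp_m_T_mem hT _) j)
  have hfix : ∀ σ : Γ, σ • S = S := fun σ => mzhp_m_sum_fixed hTe f hf j σ
  have h1 := hctx.unif S hSn hfix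
  have h2 : mzhp_m_coef T j f = S / (r : L) := by
    rw [mzhp_m_coef, hcard, div_eq_mul_inv, mul_comm]
  rw [h2]
  refine hctx.exists_of_fixed h1 fun σ => ?_
  rw [div_eq_mul_inv, smul_mul', smul_inv'', hfix, mzo_smul_natCast]

/-- **Step 1: every order for `E ≅ μ_r` is connected** (`r` odd, `e = 1`). -/
theorem mzhp_m_conn (hctx : mzo_Ctx r O L A Γ) (hr2 : r ≠ 2) (hcard : Fintype.card E = r)
    (hT : mzhp_m_Char T) (hTe : ∀ (σ : Γ) (x : E), T (σ • x) = σ • T x)
    (hH : mzo_IsOrder A Γ E H) : ∀ x : E, ∀ φ ∈ H, φ x - φ 0 ∈ A.nonunits := by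
  classical
  have hp : (Fintype.card E).Prime := hcard ▸ hctx.r_prime
  have hodd : Odd r := hctx.r_prime.eq_two_or_odd'.resolve_left hr2
  -- the congruence class of `0`
  let X0 : AddSubgroup E :=
    { carrier := {x | ∀ φ ∈ H, φ x - φ 0 ∈ A.nonunits}
      zero_mem' := fun φ _ => by rw [sub_self]; exact mzo_nonunits_zero
      add_mem' := by
        intro x y hx hy φ hφ
        obtain ⟨n, a, b, ha, hb, hab⟩ := hH.comul φ hφ
        have h2 : φ 0 = ∑ i, a i 0 * b i 0 := by
          have := hab 0 0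
          rwa [add_zero] at this
        rw [hab x y, h2, ← Finset.sum_sub_distrib]
        refine mzo_nonunits_sum _ _ fun i _ => ?_
        have : a i x * b i y - a i 0 * b i 0
            = (a i x - a i 0) * b i y + a i 0 * (b i y - b i 0) := by ring
        rw [this]
        exact mzo_nonunits_add (mzo_nonunits_mul_mem (hx (a i) (ha i)) (hH.int _ (hb i) _))
          (mzo_mem_mul_nonunits (hH.int _ (ha i) _) (hy (b i) (hb i)))
      neg_mem' := by
        intro x hx φ hφ
        have h1 := mzo_conn_nsmul hH hx (Fintype.card E - 1) φ hφ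
        have h2 : (Fintype.card E - 1) • x = -x := by
          have h3 : (Fintype.card E - 1) • x + x = 0 := by
            rw [← succ_nsmul, Nat.sub_add_cancel hp.pos, card_nsmul_eq_zero]
          exact eq_neg_of_add_eq_zero_left h3
        rwa [h2] at h1 }
  have : Fact (Nat.card E).Prime := ⟨by rw [Nat.card_eq_fintype_card]; exact hp⟩
  rcases X0.eq_bot_or_eq_top_of_prime_card with hbot | htop
  · exfalso
    -- `Γ` acts trivially on `E`
    have htriv : ∀ (σ : Γ) (x : E), σ • x = x := by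
      intro σ x
      have hmem : σ • x - x ∈ X0 := by
        intro φ hφ
        obtain ⟨n, a, b, ha, hb, hab⟩ := hH.comul φ hφ
        have h1 : φ (σ • x - x) = ∑ i, a i (σ • x) * b i (-x) := by rw [sub_eq_add_neg, hab]
        have h2 : φ 0 = ∑ i, a i x * b i (-x) := by rw [← hab, add_neg_cancel]
        rw [h1, h2, ← Finset.sum_sub_distrib]
        refine mzo_nonunits_sum _ _ fun i _ => ?_
        rw [← sub_mul, hH.equiv _ (ha i)]
        exact mzo_nonunits_mul_mem (hctx.inert σ _ (hH.int _ (ha i) x)) (hH.int _ (hb i) _)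
      rw [hbot, AddSubgroup.mem_bot, sub_eq_zero] at hmem
      exact hmem
    -- so `T` takes values in `O`
    have hTO : ∀ x : E, ∃ o : O, algebraMap O L o = T x := fun x =>
      hctx.exists_of_fixed (mzhp_m_T_mem hT x) fun σ => by rw [← hTe, htriv]
    choose t ht using hTO
    have ht_mul : ∀ x y : E, t (x + y) = t x * t y := fun x y =>
      hctx.inj (by rw [map_mul, ht, ht, ht, hT.mul])
    have ht0 : t 0 = 1 := hctx.inj (by rw [ht, hT.zero, map_one])
    have ht_pow : ∀ x : E, t x ^ r = 1 := fun x =>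
      hctx.inj (by rw [map_pow, ht, map_one, ← hcard, hT.pow_card])
    -- `t x ≡ 1 mod r` (Frobenius in the residue field)
    have hdiv : ∀ x : E, ((r : ℕ) : O) ∣ t x - 1 := by
      intro x
      have hr0 : ((r : ℕ) : IsLocalRing.ResidueField O) = 0 := by
        have h1 : ((r : ℕ) : O) ∈ IsLocalRing.maximalIdeal O := by
          rw [hctx.maximalIdeal_eq]
          exact Ideal.mem_span_singleton_self _
        have h2 := (IsLocalRing.residue_eq_zero_iff _).mpr h1
        rwa [map_natCast] at h2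
      have hchar : ringChar (IsLocalRing.ResidueField O) = r := by
        rcases (Nat.dvd_prime hctx.r_prime).mp (ringChar.dvd hr0) with h | h
        · exact absurd h CharP.ringChar_ne_one
        · exact h
      have hcp : CharP (IsLocalRing.ResidueField O) r := hchar ▸ ringChar.charP _
      have hfact : Fact r.Prime := ⟨hctx.r_prime⟩
      have h3 : (IsLocalRing.residue O (t x) - 1) ^ r = 0 := by
        rw [sub_pow_char, one_pow, ← map_pow, ht_pow, map_one, sub_self]
      have h4 : IsLocalRing.residue O (t x - 1) = 0 := by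
        rw [map_sub, map_one]
        exact pow_eq_zero_iff (hctx.r_prime.ne_zero) |>.mp h3
      have h5 := (IsLocalRing.residue_eq_zero_iff _).mp h4
      rw [hctx.maximalIdeal_eq, Ideal.mem_span_singleton] at h5
      exact h5
    -- (E1)
    let f : E → O := fun x => t x - 1
    have hA : mzh1_A ({f} : Set (E → O)) := by
      intro g hg
      rw [Set.mem_singleton_iff] at hg
      subst hg
      refine ⟨1, fun _ => f, fun _ => f, fun _ => rfl, fun _ => rfl, fun x y => ?_⟩
      simp only [f, ht_mul, Finset.univ_unique, Finset.sum_singleton]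
      ring
    obtain ⟨x0, hx0⟩ := Fintype.exists_ne_of_one_lt_card hp.one_lt (0 : E)
    have hE1 := mzh1_E1 ({f} : Set (E → O)) hA
      (fun g hg => by rw [Set.mem_singleton_iff] at hg; subst hg; simp [f, ht0]) r hodd
      (fun a ha => (mul_eq_zero.mp ha).resolve_left hctx.r_ne_zero)
      (fun a ha => hctx.sep a ha) x0 (by rw [← hcard]; exact card_nsmul_eq_zero)
      (fun g hg k => by rw [Set.mem_singleton_iff] at hg; subst hg; exact hdiv _) f rfl 1
    rw [one_nsmul] at hE1
    have h6 : t x0 = 1 := sub_eq_zero.mp hE1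
    apply hx0
    apply hT.inj
    rw [← ht, h6, map_one, hT.zero]
  · intro x φ hφ
    have hx : x ∈ X0 := by rw [htop]; exact AddSubgroup.mem_top x
    exact hx φ hφ

/-- **Step 2: the Fourier coefficients of `φ ∈ H` lie in `O`.** -/
theorem mzhp_m_coef_mem (hctx : mzo_Ctx r O L A Γ) (hcard : Fintype.card E = r)
    (hT : mzhp_m_Char T) (hTe : ∀ (σ : Γ) (x : E), T (σ • x) = σ • T x)
    (hH : mzo_IsOrder A Γ E H) (hconn : ∀ x : E, ∀ φ ∈ H, φ x - φ 0 ∈ A.nonunits)
    {φ : E → L} (hφ : φ ∈ H) {j : ℕ} (hj : j < r) :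
    ∃ o : O, algebraMap O L o = mzhp_m_coef T j φ := by
  have hp : (Fintype.card E).Prime := hcard ▸ hctx.r_prime
  have h0fix : ∀ σ : Γ, σ • φ 0 = φ 0 := fun σ => by
    rw [← hH.equiv φ hφ σ 0, smul_zero]
  obtain ⟨o1, ho1⟩ := mzhp_m_coef_mem_of_nonunits hctx hcard hT hTe (fun y => φ y - φ 0)
    (fun σ y => by rw [hH.equiv φ hφ, smul_sub, h0fix]) (fun y => hconn y φ hφ) j
  obtain ⟨o0, ho0⟩ := mzo_exists_val hctx hH hφ (y := 0) (fun σ => smul_zero σ)
  have h1 : mzhp_m_coef T j φ
      = mzhp_m_coef T j (fun y => φ y - φ 0) + mzhp_m_coef T j (fun _ => φ 0) := by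
    rw [← mzhp_m_coef_add]
    congr 1
    funext y
    ring
  rw [h1, mzhp_m_coef_const hT hp _ (hcard ▸ hj), ← ho1]
  split_ifs
  · exact ⟨o1 + o0, by rw [map_add, ho0]⟩
  · exact ⟨o1, by rw [add_zero]⟩

/-- **Step 3: `H` is graded**: `c_j φ · T^j ∈ H` for `φ ∈ H`. -/
theorem mzhp_m_graded (hctx : mzo_Ctx r O L A Γ) (hcard : Fintype.card E = r)
    (hT : mzhp_m_Char T) (hTe : ∀ (σ : Γ) (x : E), T (σ • x) = σ • T x)
    (hH : mzo_IsOrder A Γ E H) (hconn : ∀ x : E, ∀ φ ∈ H, φ x - φ 0 ∈ A.nonunits)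
    {φ : E → L} (hφ : φ ∈ H) {j : ℕ} (hj : j < r) :
    (fun x => mzhp_m_coef T j φ * T x ^ j) ∈ H := by
  obtain ⟨n, a, b, ha, hb, hab⟩ := hH.comul φ hφ
  choose o ho using fun i => mzhp_m_coef_mem hctx hcard hT hTe hH hconn (hb i) hj
  have key : (fun x => mzhp_m_coef T j φ * T x ^ j) = ∑ i, o i • a i := by
    funext x
    have h1 := mzhp_m_coef_translate hT φ x j
    have h2 : (fun y => φ (x + y)) = fun y => ∑ i, a i x * b i y := funext (hab x)
    rw [h2, mzhp_m_coef_sum_mul] at h1
    rw [mul_comm, ← h1, Finset.sum_apply]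
    refine Finset.sum_congr rfl fun i _ => ?_
    rw [Pi.smul_apply, Algebra.smul_def, ho, mul_comm]
  rw [key]
  exact H.sum_mem fun i _ => H.smul_mem (ha i) _

/-- the ideal `I_j = {o : o · T^j ∈ H}` -/
def mzhp_m_ideal (T : E → L) (H : Subalgebra O (E → L)) (j : ℕ) : Ideal O where
  carrier := {o | (fun x => algebraMap O L o * T x ^ j) ∈ H}
  zero_mem' := by
    show (fun x => algebraMap O L 0 * T x ^ j) ∈ H
    have : (fun x => algebraMap O L 0 * T x ^ j) = (0 : E → L) := by
      funext x; rw [map_zero, zero_mul]; rfl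
    rw [this]
    exact H.zero_mem
  add_mem' := by
    intro p q hp hq
    show (fun x => algebraMap O L (p + q) * T x ^ j) ∈ H
    have : (fun x => algebraMap O L (p + q) * T x ^ j)
        = (fun x => algebraMap O L p * T x ^ j) + (fun x => algebraMap O L q * T x ^ j) := by
      funext x; rw [map_add, add_mul]; rfl
    rw [this]
    exact H.add_mem hp hq
  smul_mem' := by
    intro c p hp
    show (fun x => algebraMap O L (c • p) * T x ^ j) ∈ H
    have : (fun x => algebraMap O L (c • p) * T x ^ j)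
        = c • (fun x => algebraMap O L p * T x ^ j) := by
      funext x
      rw [Pi.smul_apply, smul_eq_mul, Algebra.smul_def, map_mul, mul_assoc]
    rw [this]
    exact H.smul_mem hp c

omit [IsDomain O] [IsDiscreteValuationRing O] [AddCommGroup E] [Fintype E] in
theorem mzhp_m_mem_ideal {j : ℕ} {o : O} :
    o ∈ mzhp_m_ideal T H j ↔ (fun x => algebraMap O L o * T x ^ j) ∈ H := Iff.rfl

/-- **Step 4: `I_j ⊆ I_j²`**, hence `I_j = 0` or `I_j = O`. -/
theorem mzhp_m_ideal_bot_or_top (hctx : mzo_Ctx r O L A Γ) (hcard : Fintype.card E = r)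
    (hT : mzhp_m_Char T) (hTe : ∀ (σ : Γ) (x : E), T (σ • x) = σ • T x)
    (hH : mzo_IsOrder A Γ E H) (hconn : ∀ x : E, ∀ φ ∈ H, φ x - φ 0 ∈ A.nonunits)
    {j : ℕ} (hj : j < r) : mzhp_m_ideal T H j = ⊥ ∨ mzhp_m_ideal T H j = ⊤ := by
  set I := mzhp_m_ideal T H j with hI
  have hle : I ≤ I * I := by
    intro o hoI
    have hf : (fun x => algebraMap O L o * T x ^ j) ∈ H := hoI
    obtain ⟨n, a, b, ha, hb, hab⟩ := hH.comul _ hf
    choose p hp using fun i => mzhp_m_coef_mem hctx hcard hT hTe hH hconn (ha i) hj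
    choose q hq using fun i => mzhp_m_coef_mem hctx hcard hT hTe hH hconn (hb i) hj
    have hpI : ∀ i, p i ∈ I := fun i => by
      have := mzhp_m_graded hctx hcard hT hTe hH hconn (ha i) hj
      rw [← hp i] at this
      exact this
    have hqI : ∀ i, q i ∈ I := fun i => by
      have := mzhp_m_graded hctx hcard hT hTe hH hconn (hb i) hj
      rw [← hq i] at this
      exact this
    -- apply `c_j` in the second variable
    have h1 : ∀ x : E, algebraMap O L o * T x ^ j = ∑ i, mzhp_m_coef T j (b i) * a i x := by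
      intro x
      have e1 : (fun y => algebraMap O L o * T (x + y) ^ j)
          = fun y => (algebraMap O L o * T x ^ j) * T y ^ j := by
        funext y; rw [hT.mul, mul_pow, mul_assoc]
      have e2 : (fun y => algebraMap O L o * T (x + y) ^ j) = fun y => ∑ i, a i x * b i y :=
        funext (hab x)
      have e3 := congrArg (mzhp_m_coef T j) e2
      rw [e1, mzhp_m_coef_smul, mzhp_m_coef_pow_self hT, mul_one, mzhp_m_coef_sum_mul] at e3
      rw [e3]
      exact Finset.sum_congr rfl fun i _ => mul_comm _ _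
    -- apply `c_j` in the first variable
    have h2 : algebraMap O L o = ∑ i, mzhp_m_coef T j (b i) * mzhp_m_coef T j (a i) := by
      have e1 : (fun x => algebraMap O L o * T x ^ j)
          = fun x => ∑ i, mzhp_m_coef T j (b i) * a i x := funext h1
      have e2 := congrArg (mzhp_m_coef T j) e1
      rw [mzhp_m_coef_smul, mzhp_m_coef_pow_self hT, mul_one, mzhp_m_coef_sum_mul] at e2
      exact e2
    have h3 : o = ∑ i, q i * p i := by
      apply hctx.inj
      rw [h2, map_sum]
      exact Finset.sum_congr rfl fun i _ => by rw [map_mul, hp, hq]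
    rw [h3]
    exact Ideal.sum_mem _ fun i _ => Ideal.mul_mem_mul (hqI i) (hpI i)
  have hidem : IsIdempotentElem I := le_antisymm Ideal.mul_le_left hle
  exact (Ideal.isIdempotentElem_iff_eq_bot_or_top I (IsNoetherian.noetherian I)).mp hidem

end

/-- **[B4]** `mzo_SeamMuOrder` holds. -/
theorem mzhp_m_seamMuOrder : mzo_SeamMuOrder := by
  intro r O _ _ _ L _ _ A Γ _ _ hctx hr2 E _ _ _ hcardN T hTmul hTinj hTe H hH
  classical
  let _ : Fintype E := Fintype.ofFinite E
  have hcard : Fintype.card E = r := by rw [← Nat.card_eq_fintype_card, hcardN]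
  have hp : (Fintype.card E).Prime := hcard ▸ hctx.r_prime
  -- `T 0 = 1`
  have hT0 : T 0 = 1 := by
    have h1 : T 0 = T 0 * T 0 := by
      conv_lhs => rw [← add_zero (0 : E)]
      exact hTmul 0 0
    by_cases h0 : T 0 = 0
    · exfalso
      obtain ⟨x, hx⟩ := Fintype.exists_ne_of_one_lt_card hp.one_lt (0 : E)
      apply hx
      apply hTinj
      have : T x = T x * T 0 := by
        conv_lhs => rw [← add_zero x]
        exact hTmul x 0
      rw [this, h0, mul_zero]
    · have h3 : T 0 * 1 = T 0 * T 0 := by rw [mul_one]; exact h1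
      exact (mul_left_cancel₀ h0 h3).symm
  have hT : mzhp_m_Char T := ⟨hTmul, hT0, hTinj, by rw [hcard]; exact hctx.r_ne⟩
  have hconn := mzhp_m_conn hctx hr2 hcard hT hTe hH
  -- a non-constant function gives a nonzero coefficient in positive degree
  obtain ⟨x0, hx0⟩ := Fintype.exists_ne_of_one_lt_card hp.one_lt (0 : E)
  obtain ⟨φ, hφ, hφne⟩ := hH.sep x0 0 hx0
  have hex : ∃ j0, 0 < j0 ∧ j0 < r ∧ mzhp_m_coef T j0 φ ≠ 0 := by
    by_contra hcon
    have hzero : ∀ j, j ∈ range (Fintype.card E) → j ≠ 0 → mzhp_m_coef T j φ = 0 := by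
      intro j hj hj0
      by_contra hne
      exact hcon ⟨j, Nat.pos_of_ne_zero hj0, hcard ▸ Finset.mem_range.mp hj, hne⟩
    apply hφne
    have hmem0 : 0 ∈ range (Fintype.card E) := Finset.mem_range.mpr hp.pos
    rw [← mzhp_m_inversion hT φ x0, ← mzhp_m_inversion hT φ 0,
      Finset.sum_eq_single_of_mem 0 hmem0 (fun j hj hj0 => by rw [hzero j hj hj0, zero_mul]),
      Finset.sum_eq_single_of_mem 0 hmem0 (fun j hj hj0 => by rw [hzero j hj hj0, zero_mul]),
      pow_zero, pow_zero]
  obtain ⟨j0, hj0pos, hj0r, hj0ne⟩ := hex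
  -- `T ^ j0 ∈ H`
  have hTj0 : (fun x => T x ^ j0) ∈ H := by
    obtain ⟨o, ho⟩ := mzhp_m_coef_mem hctx hcard hT hTe hH hconn hφ hj0r
    have hoI : o ∈ mzhp_m_ideal T H j0 := by
      rw [mzhp_m_mem_ideal, ho]
      exact mzhp_m_graded hctx hcard hT hTe hH hconn hφ hj0r
    have hone : o ≠ 0 := by
      intro h
      rw [h, map_zero] at ho
      exact hj0ne ho.symm
    rcases mzhp_m_ideal_bot_or_top hctx hcard hT hTe hH hconn hj0r with hb | ht
    · rw [hb, Ideal.mem_bot] at hoI
      exact absurd hoI hone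
    · have h1 : (1 : O) ∈ mzhp_m_ideal T H j0 := by rw [ht]; exact Submodule.mem_top
      rw [mzhp_m_mem_ideal] at h1
      simpa only [map_one, one_mul] using h1
  -- `T ∈ H`
  have hTH : T ∈ H := by
    have hcop : Nat.Coprime j0 r :=
      ((Nat.Prime.coprime_iff_not_dvd hctx.r_prime).mpr
        (Nat.not_dvd_of_pos_of_lt hj0pos hj0r)).symm
    obtain ⟨m, -, hm⟩ := Nat.exists_mul_mod_eq_one_of_coprime hcop hctx.r_prime.one_lt
    have hTeq : T = (fun x => T x ^ j0) ^ m := by
      funext x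
      have hpc : T x ^ r = 1 := by rw [← hcard]; exact hT.pow_card x
      rw [Pi.pow_apply, ← pow_mul, ← Nat.div_add_mod (j0 * m) r, hm, pow_add, pow_mul, hpc,
        one_pow, one_mul, pow_one]
    rw [hTeq]
    exact H.pow_mem hTj0 m
  refine ⟨hTH, fun ψ hψ => ?_⟩
  have hco : ∀ j, ∃ o : O, j < r → algebraMap O L o = mzhp_m_coef T j ψ := by
    intro j
    by_cases hj : j < r
    · obtain ⟨o, ho⟩ := mzhp_m_coef_mem hctx hcard hT hTe hH hconn hψ hj
      exact ⟨o, fun _ => ho⟩
    · exact ⟨0, fun h => absurd h hj⟩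
  choose c hc using hco
  refine ⟨c, ?_⟩
  funext x
  rw [← mzhp_m_inversion hT ψ x, hcard, Finset.sum_apply]
  refine Finset.sum_congr rfl fun j hj => ?_
  rw [Pi.smul_apply, Pi.pow_apply, Algebra.smul_def, hc j (Finset.mem_range.mp hj)]

end Fermat.Agent.MZ
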