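/-
MAZUR / node [HOPF], cell [B5] (helper3, prefix `mzhp_c_`): the seam `mzo_SeamMuUnit` is CLOSED.

`E ≅ μ_r` through the equivariant injective character `T`, `H = ⊕_j O T^j` an order, `z` an `H`-flat
cocycle: then `T (z σ) * β = σ • β` for a UNIT `β` of `A` (all `r`, also `r = 2`).
Adapter from `mzhp_c_unit_cocycle` (`MZ/Hopf/FlatUnit.lean`): the torsor is `E` acting on itself,
`(co)` in component form comes from `H ⊆ ∑ O T^j`, the twisted action `x ↦ σ • x + z σ` is the
"inertia pair".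
-/
import Mathlib
import Fermat.Agent.MZ.Hopf.Defs
import Fermat.Agent.MZ.Hopf.Seams
import Fermat.Agent.MZ.Hopf.FlatUnit

set_option autoImplicit false

noncomputable section

namespace Fermat.Agent.MZ

open Finset

/-- **[B5]** `mzo_SeamMuUnit` holds. -/
theorem mzhp_c_seamMuUnit : mzo_SeamMuUnit := by
  intro r O _ _ _ L _ _ A Γ _ _ hctx E _ _ _ hcard T hTmul hTinj hTe H hH hTH hHT z hz hflat
  classical
  obtain ⟨HX, hHX⟩ := hflat
  let _ : Fintype E := Fintype.ofFinite E
  have hcardF : Fintype.card E = r := by rw [← Nat.card_eq_fintype_card, hcard]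
  subst hcardF
  -- `T 0 = 1`
  have hT0 : T 0 = 1 := by
    have h1 : T 0 = T 0 * T 0 := by
      conv_lhs => rw [← add_zero (0 : E)]
      exact hTmul 0 0
    by_cases h0 : T 0 = 0
    · exfalso
      have h2 : 1 < Fintype.card E := hctx.r_prime.one_lt
      obtain ⟨x, hx⟩ := Fintype.exists_ne_of_one_lt_card h2 (0 : E)
      apply hx
      apply hTinj
      have : T x = T x * T 0 := by
        conv_lhs => rw [← add_zero x]
        exact hTmul x 0
      rw [this, h0, mul_zero]
    · have h3 : T 0 * 1 = T 0 * T 0 := by rw [mul_one]; exact h1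
      exact (mul_left_cancel₀ h0 h3).symm
  -- `(co)` in component form
  have hco : ∀ φ ∈ (HX : Set (E → L)), ∃ comp : Fin (Fintype.card E) → E → L,
      (∀ j, comp j ∈ (HX : Set (E → L))) ∧
      ∀ (g : E) (x : E), φ (g +ᵥ x) = ∑ j, comp j x * T g ^ (j : ℕ) := by
    intro φ hφ
    obtain ⟨n, a, b, ha, hb, hab⟩ := hHX.co φ hφ
    choose c hc using fun i => hHT (b i) (hb i)
    refine ⟨fun j => ∑ i, c i (j : ℕ) • a i, fun j => ?_, fun g x => ?_⟩
    · exact HX.sum_mem fun i _ => HX.smul_mem (ha i) _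
    · rw [vadd_eq_add, add_comm, hab x g]
      have hbi : ∀ i, b i g = ∑ j : Fin (Fintype.card E),
          algebraMap O L (c i (j : ℕ)) * T g ^ (j : ℕ) := by
        intro i
        rw [hc i, Finset.sum_apply, Finset.sum_range]
        refine Finset.sum_congr rfl fun j _ => ?_
        rw [Pi.smul_apply, Pi.pow_apply, Algebra.smul_def]
      simp_rw [hbi, Finset.mul_sum, Finset.sum_apply, Finset.sum_mul]
      rw [Finset.sum_comm]
      refine Finset.sum_congr rfl fun j _ => Finset.sum_congr rfl fun i _ => ?_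
      rw [Pi.smul_apply, Algebra.smul_def]
      ring
  -- `(∇)` for `T`
  have hnabla : ∃ (n : ℕ) (a b : Fin n → E → L), (∀ i, a i ∈ (HX : Set (E → L))) ∧
      (∀ i, b i ∈ (HX : Set (E → L))) ∧ ∀ x y : E, ∑ i, a i x * b i y = T (y -ᵥ x) := by
    obtain ⟨n, a, b, ha, hb, hab⟩ := hHX.nabla T hTH
    exact ⟨n, a, b, ha, hb, fun x y => by rw [vsub_eq_sub, hab x y]⟩
  obtain ⟨β, hβ, hβinv, hβc⟩ := mzhp_c_unit_cocycle A T hTmul hT0 hTinj
    (HX : Set (E → L)) (fun φ hφ x => hHX.int φ hφ x) hco hnabla (0 : E)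
  refine ⟨β, hβ, hβinv, fun σ => ?_⟩
  have h := hβc (fun x => σ • x + z σ) (fun a => σ • a)
    (fun φ hφ x => hHX.equiv φ hφ σ x)
  rw [h, vsub_eq_sub, smul_zero, zero_add, sub_zero]

end Fermat.Agent.MZ
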