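/-
MAZUR / [HOPF] (4)(b) "Tate–Oort by hand" (helper11).  Prefix `mzhb_`.  Mathlib only.

`O` a domain in which every non-unit is divisible by the odd prime `r` (`r` is a uniformiser: `e = 1`),
`r` not a unit, `⋂ rⁿ O = 0`.  THEOREM: the only `Δ`-closed `O`-subalgebra `H ≠ O·1` of
`Map(ℤ/r, O)` is `Map(ℤ/r, O)` itself (the étale order).

Proof (carry cocycle): if some `x ≠ 0` is not separated from `0` modulo `r` then nothing is, the
augmentation ideal `I_H` lies in `r · Map`; if `I_H ⊆ rⁿ Map` (`n ≥ 1`) then, writing `t = rⁿ s`,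
`s (x + y) - s x - s y = rⁿ ∑ sa_i x * sb_i y` with `sb_i` additive mod `r`; summing over `y = j • x`,
`j < r`, the left side telescopes to `- r * s x` and the right side is divisible by `rⁿ⁺¹` because
`∑_{j<r} j = r (r-1)/2` and `r` is odd; so `I_H ⊆ rⁿ⁺¹ Map`, and `I_H = 0` by separatedness.
-/
import Mathlib

set_option autoImplicit false

open Finset

namespace Fermat.Agent.MZ

section
variable {O : Type*} [CommRing O] {G : Type*} [AddCommGroup G]

/-- `Δ`-closedness of an algebra of functions on an additive group. -/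
def mzhb_Comul (H : Subalgebra O (G → O)) : Prop :=
  ∀ φ ∈ H, ∃ (n : ℕ) (a b : Fin n → G → O), (∀ i, a i ∈ H) ∧ (∀ i, b i ∈ H) ∧
    ∀ x y : G, φ (x + y) = ∑ i, a i x * b i y

theorem mzhb_const_mem (H : Subalgebra O (G → O)) (c : O) : (fun _ : G => c) ∈ H := by
  have h : (fun _ : G => c) = algebraMap O (G → O) c := by
    funext x; simp [Pi.algebraMap_apply]
  rw [h]; exact H.algebraMap_mem c

/-- the reduced comultiplication of an element of the augmentation ideal lands in `I_H ⊗ I_H`. -/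
theorem mzhb_delta (H : Subalgebra O (G → O)) (hH : mzhb_Comul H) (φ : G → O) (hφ : φ ∈ H)
    (h0 : φ 0 = 0) :
    ∃ (n : ℕ) (a b : Fin n → G → O), (∀ i, a i ∈ H ∧ a i 0 = 0) ∧ (∀ i, b i ∈ H ∧ b i 0 = 0) ∧
      ∀ x y : G, φ (x + y) - φ x - φ y = ∑ i, a i x * b i y := by
  obtain ⟨n, a, b, ha, hb, hab⟩ := hH φ hφ
  refine ⟨n, fun i => a i - fun _ => a i 0, fun i => b i - fun _ => b i 0, ?_, ?_, ?_⟩
  · intro i
    exact ⟨H.sub_mem (ha i) (mzhb_const_mem H _), by simp⟩
  · intro i
    exact ⟨H.sub_mem (hb i) (mzhb_const_mem H _), by simp⟩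
  · intro x y
    have e1 := hab x y
    have e2 := hab x 0
    have e3 := hab 0 y
    have e4 := hab 0 0
    simp only [add_zero, zero_add] at e2 e3 e4
    rw [h0] at e4
    simp only [Pi.sub_apply]
    have : ∑ i, (a i x - a i 0) * (b i y - b i 0)
        = ∑ i, a i x * b i y - ∑ i, a i x * b i 0 - ∑ i, a i 0 * b i y + ∑ i, a i 0 * b i 0 := by
      rw [← Finset.sum_sub_distrib, ← Finset.sum_sub_distrib, ← Finset.sum_add_distrib]
      refine Finset.sum_congr rfl fun i _ => ?_
      ring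
    rw [this, ← e1, ← e2, ← e3, ← e4]
    ring

end


section
variable {O : Type*} [CommRing O] [IsDomain O] (r : ℕ)

/-- `I_H ⊆ rⁿ · Map(ℤ/r, O)`. -/
def mzhb_P (H : Subalgebra O (ZMod r → O)) (n : ℕ) : Prop :=
  ∀ φ ∈ H, φ 0 = 0 → ∀ x, (r : O) ^ n ∣ φ x

variable {r}

/-- the basic identity: `s (y + z) - s y - s z = rⁿ ∑ sa_i y * sb_i z`. -/
theorem mzhb_star (hr0 : (r : O) ≠ 0) (H : Subalgebra O (ZMod r → O)) (hH : mzhb_Comul H)
    (n : ℕ) (hP : mzhb_P r H n) (t : ZMod r → O) (ht : t ∈ H) (t0 : t 0 = 0)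
    (s : ZMod r → O) (hs : ∀ y, t y = (r : O) ^ n * s y) :
    ∃ (m : ℕ) (b sa sb : Fin m → ZMod r → O), (∀ i, b i ∈ H ∧ b i 0 = 0) ∧
      (∀ i y, b i y = (r : O) ^ n * sb i y) ∧
      ∀ y z, s (y + z) - s y - s z = (r : O) ^ n * ∑ i, sa i y * sb i z := by
  obtain ⟨m, a, b, ha, hb, hab⟩ := mzhb_delta H hH t ht t0
  choose sa hsa using fun i y => hP (a i) (ha i).1 (ha i).2 y
  choose sb hsb using fun i y => hP (b i) (hb i).1 (hb i).2 y
  refine ⟨m, b, sa, sb, hb, hsb, ?_⟩
  intro y z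
  apply mul_left_cancel₀ (pow_ne_zero n hr0)
  calc (r : O) ^ n * (s (y + z) - s y - s z) = t (y + z) - t y - t z := by
        rw [hs, hs, hs]; ring
    _ = ∑ i, a i y * b i z := hab y z
    _ = ∑ i, ((r : O) ^ n * sa i y) * ((r : O) ^ n * sb i z) := by
        refine Finset.sum_congr rfl fun i _ => ?_
        rw [hsa, hsb]
    _ = (r : O) ^ n * ((r : O) ^ n * ∑ i, sa i y * sb i z) := by
        rw [Finset.mul_sum, Finset.mul_sum]
        refine Finset.sum_congr rfl fun i _ => ?_
        ring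

/-- `s` is additive modulo `r`. -/
theorem mzhb_add_mod (hr0 : (r : O) ≠ 0) (H : Subalgebra O (ZMod r → O)) (hH : mzhb_Comul H)
    (n : ℕ) (hn : 1 ≤ n) (hP : mzhb_P r H n) (t : ZMod r → O) (ht : t ∈ H) (t0 : t 0 = 0)
    (s : ZMod r → O) (hs : ∀ y, t y = (r : O) ^ n * s y) (j : ℕ) (y : ZMod r) :
    (r : O) ∣ s (j • y) - j * s y := by
  obtain ⟨m, b, sa, sb, -, -, hstar⟩ := mzhb_star hr0 H hH n hP t ht t0 s hs
  have hs0 : s 0 = 0 := by
    have := hs 0
    rw [t0] at this
    rcases mul_eq_zero.mp this.symm with h | h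
    · exact absurd h (pow_ne_zero n hr0)
    · exact h
  induction j with
  | zero => simp [hs0]
  | succ j ih =>
    have h1 : (r : O) ∣ s (j • y + y) - s (j • y) - s y := by
      rw [hstar]
      exact Dvd.dvd.mul_right (dvd_pow_self _ (by omega)) _
    have h2 : s ((j + 1) • y) - ((j + 1 : ℕ) : O) * s y
        = (s (j • y + y) - s (j • y) - s y) + (s (j • y) - j * s y) := by
      rw [succ_nsmul]; push_cast; ring
    rw [h2]
    exact dvd_add h1 ih


/-- `∑_{j<r} j = r * ((r-1)/2)` for odd `r`. -/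
theorem mzhb_sum_range (hodd : Odd r) :
    ∑ j ∈ Finset.range r, (j : O) = (r : O) * (((r - 1) / 2 : ℕ) : O) := by
  have h := Finset.sum_range_id_mul_two r
  obtain ⟨k, hk⟩ := hodd
  have h2 : (∑ j ∈ Finset.range r, j) = r * ((r - 1) / 2) := by
    have h3 : (r - 1) / 2 = k := by omega
    rw [h3]
    have h4 : r - 1 = 2 * k := by omega
    rw [h4] at h
    have : (∑ j ∈ Finset.range r, j) * 2 = (r * k) * 2 := by rw [h]; ring
    exact Nat.eq_of_mul_eq_mul_right (by norm_num) this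
  have := congrArg (Nat.cast (R := O)) h2
  push_cast at this ⊢
  exact this

/-- the induction step: `I_H ⊆ rⁿ Map` implies `I_H ⊆ rⁿ⁺¹ Map` (`n ≥ 1`, `r` odd). -/
theorem mzhb_step [Fact r.Prime] (hodd : Odd r) (hr0 : (r : O) ≠ 0)
    (H : Subalgebra O (ZMod r → O)) (hH : mzhb_Comul H)
    (n : ℕ) (hn : 1 ≤ n) (hP : mzhb_P r H n) : mzhb_P r H (n + 1) := by
  intro t ht t0 x
  choose s hs using fun y => hP t ht t0 y
  obtain ⟨m, b, sa, sb, hb, hsb, hstar⟩ := mzhb_star hr0 H hH n hP t ht t0 s hs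
  have hs0 : s 0 = 0 := by
    have := hs 0
    rw [t0] at this
    rcases mul_eq_zero.mp this.symm with h | h
    · exact absurd h (pow_ne_zero n hr0)
    · exact h
  -- the left side telescopes
  have hL : ∑ j ∈ Finset.range r, (s (x + j • x) - s x - s (j • x)) = -((r : O) * s x) := by
    have h1 : ∀ j : ℕ, s (x + j • x) = s ((j + 1) • x) := by
      intro j; rw [succ_nsmul']
    simp_rw [h1]
    rw [Finset.sum_sub_distrib, Finset.sum_sub_distrib]
    have h2 : ∑ j ∈ Finset.range r, s ((j + 1) • x) - ∑ j ∈ Finset.range r, s (j • x)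
        = s (r • x) - s (0 • x) := by
      rw [← Finset.sum_sub_distrib]
      exact Finset.sum_range_sub (fun j => s (j • x)) r
    have h3 : r • x = 0 := by
      rw [nsmul_eq_mul, ZMod.natCast_self, zero_mul]
    have h4 : ∑ j ∈ Finset.range r, s x = (r : O) * s x := by
      rw [Finset.sum_const, Finset.card_range, nsmul_eq_mul]
    have h5 : ∑ j ∈ Finset.range r, s ((j + 1) • x) - ∑ j ∈ Finset.range r, s x
          - ∑ j ∈ Finset.range r, s (j • x)
        = (∑ j ∈ Finset.range r, s ((j + 1) • x) - ∑ j ∈ Finset.range r, s (j • x))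
          - ∑ j ∈ Finset.range r, s x := by ring
    rw [h5, h2, h3, zero_nsmul, hs0, h4]; ring
  -- the right side is divisible by `r ^ (n + 1)`
  have hR : ∃ w : O, ∑ j ∈ Finset.range r, (∑ i, sa i x * sb i (j • x)) = (r : O) * w := by
    have hadd : ∀ i (j : ℕ), (r : O) ∣ sb i (j • x) - j * sb i x := fun i j =>
      mzhb_add_mod hr0 H hH n hn hP (b i) (hb i).1 (hb i).2 (sb i) (hsb i) j x
    choose e he using hadd
    have h1 : ∀ j : ℕ, ∑ i, sa i x * sb i (j • x)
        = (j : O) * (∑ i, sa i x * sb i x) + (r : O) * ∑ i, sa i x * e i j := by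
      intro j
      rw [Finset.mul_sum, Finset.mul_sum, ← Finset.sum_add_distrib]
      refine Finset.sum_congr rfl fun i _ => ?_
      have := he i j
      have h' : sb i (j • x) = j * sb i x + (r : O) * e i j := by rw [← this]; ring
      rw [h']; ring
    simp_rw [h1]
    rw [Finset.sum_add_distrib, ← Finset.sum_mul, mzhb_sum_range hodd, ← Finset.mul_sum]
    exact ⟨(((r - 1) / 2 : ℕ) : O) * (∑ i, sa i x * sb i x)
      + ∑ j ∈ Finset.range r, ∑ i, sa i x * e i j, by ring⟩
  obtain ⟨w, hw⟩ := hR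
  have hsum : ∑ j ∈ Finset.range r, (s (x + j • x) - s x - s (j • x))
      = (r : O) ^ n * ((r : O) * w) := by
    rw [← hw, Finset.mul_sum]
    exact Finset.sum_congr rfl fun j _ => hstar x (j • x)
  rw [hL] at hsum
  -- cancel `r`
  have hsx : s x = -((r : O) ^ n * w) := by
    apply mul_left_cancel₀ hr0
    have : (r : O) * s x = -((r : O) ^ n * ((r : O) * w)) := by rw [← hsum]; ring
    rw [this]; ring
  rw [hs x, hsx]
  refine ⟨-((r : O) ^ (n - 1) * w), ?_⟩
  obtain ⟨k, rfl⟩ : ∃ k, n = k + 1 := ⟨n - 1, by omega⟩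
  simp only [Nat.add_sub_cancel]
  ring


/-- `I_H ⊆ rⁿ Map` for all `n ≥ 1`, once it holds for `n = 1`. -/
theorem mzhb_all [Fact r.Prime] (hodd : Odd r) (hr0 : (r : O) ≠ 0)
    (H : Subalgebra O (ZMod r → O)) (hH : mzhb_Comul H) (hP1 : mzhb_P r H 1) (n : ℕ) :
    mzhb_P r H (n + 1) := by
  induction n with
  | zero => exact hP1
  | succ n ih => exact mzhb_step hodd hr0 H hH (n + 1) (by omega) ih

/-- translation: `u ↦ φ (u + c)` stays in `H`. -/
theorem mzhb_translate (H : Subalgebra O (ZMod r → O)) (hH : mzhb_Comul H) (φ : ZMod r → O)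
    (hφ : φ ∈ H) (c : ZMod r) : (fun u => φ (u + c)) ∈ H := by
  obtain ⟨n, a, b, ha, hb, hab⟩ := hH φ hφ
  have : (fun u => φ (u + c)) = ∑ i, (b i c) • a i := by
    funext u
    rw [hab u c, Finset.sum_apply]
    refine Finset.sum_congr rfl fun i _ => ?_
    simp [mul_comm]
  rw [this]
  exact H.sum_mem fun i _ => H.smul_mem (ha i) _

/-- the set of points not separated from `0` modulo `r` is closed under addition. -/
theorem mzhb_N_add (H : Subalgebra O (ZMod r → O)) (hH : mzhb_Comul H) (x y : ZMod r)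
    (hx : ∀ φ ∈ H, (r : O) ∣ φ x - φ 0) (hy : ∀ φ ∈ H, (r : O) ∣ φ y - φ 0) :
    ∀ φ ∈ H, (r : O) ∣ φ (x + y) - φ 0 := by
  intro φ hφ
  obtain ⟨n, a, b, ha, hb, hab⟩ := hH φ hφ
  have e0 := hab 0 0
  rw [add_zero] at e0
  rw [hab x y, e0, ← Finset.sum_sub_distrib]
  refine Finset.dvd_sum fun i _ => ?_
  have : a i x * b i y - a i 0 * b i 0 = (a i x - a i 0) * b i y + a i 0 * (b i y - b i 0) := by
    ring
  rw [this]
  exact dvd_add (Dvd.dvd.mul_right (hx _ (ha i)) _) (Dvd.dvd.mul_left (hy _ (hb i)) _)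

/-- **[HOPF] (4)(b)**: over a base with uniformiser the odd prime `r` (`e = 1`), the only
`Δ`-closed algebra of functions on `ℤ/r`, other than the constants, is the étale one. -/
theorem mzhb_main [Fact r.Prime] (hodd : Odd r) (hr0 : (r : O) ≠ 0)
    (hloc : ∀ a : O, ¬ IsUnit a → (r : O) ∣ a)
    (hsep : ∀ a : O, (∀ n : ℕ, (r : O) ^ n ∣ a) → a = 0)
    (H : Subalgebra O (ZMod r → O)) (hH : mzhb_Comul H)
    (hnt : ∃ φ ∈ H, ∃ x, φ x ≠ φ 0) : H = ⊤ := by
  classical
  by_cases hA : ∃ x : ZMod r, x ≠ 0 ∧ ∀ φ ∈ H, (r : O) ∣ φ x - φ 0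
  · -- connected case: impossible
    exfalso
    obtain ⟨x, hx0, hx⟩ := hA
    have hall : ∀ y : ZMod r, ∀ φ ∈ H, (r : O) ∣ φ y - φ 0 := by
      have hj : ∀ j : ℕ, ∀ φ ∈ H, (r : O) ∣ φ (j • x) - φ 0 := by
        intro j
        induction j with
        | zero => intro φ _; simp
        | succ j ih =>
          rw [succ_nsmul]
          exact mzhb_N_add H hH _ _ ih hx
      intro y
      have : y = (y * x⁻¹).val • x := by
        rw [nsmul_eq_mul, ZMod.natCast_val, ZMod.cast_id', id_eq, mul_assoc,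
          inv_mul_cancel₀ hx0, mul_one]
      rw [this]
      exact hj _
    have hP1 : mzhb_P r H 1 := by
      intro φ hφ h0 y
      have := hall y φ hφ
      rwa [h0, sub_zero, ← pow_one (r : O)] at this
    obtain ⟨φ, hφ, y, hy⟩ := hnt
    -- `ψ = φ - φ 0` is in the augmentation ideal and nonzero at `y`
    set ψ : ZMod r → O := φ - fun _ => φ 0 with hψdef
    have hψ : ψ ∈ H := H.sub_mem hφ (mzhb_const_mem H _)
    have hψ0 : ψ 0 = 0 := by simp [hψdef]
    have hz : φ y - φ 0 = 0 := by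
      apply hsep
      intro n
      rcases n with _ | n
      · simp
      · have := mzhb_all hodd hr0 H hH hP1 n ψ hψ hψ0 y
        simpa [hψdef] using this
    exact hy (sub_eq_zero.mp hz)
  · -- étale case: Lagrange idempotents
    have hA' : ∀ x : ZMod r, x ≠ 0 → ∃ φ ∈ H, ¬ (r : O) ∣ φ x - φ 0 := by
      intro x hx
      by_contra hcon
      apply hA
      refine ⟨x, hx, fun φ hφ => ?_⟩
      by_contra hnd
      exact hcon ⟨φ, hφ, hnd⟩
    have hunit : ∀ x y : ZMod r, x ≠ y → ∃ ψ ∈ H, IsUnit (ψ x - ψ y) := by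
      intro x y hxy
      obtain ⟨φ, hφ, hnd⟩ := hA' (x - y) (sub_ne_zero.mpr hxy)
      refine ⟨fun u => φ (u + (-y)), mzhb_translate H hH φ hφ (-y), ?_⟩
      by_contra hnu
      apply hnd
      have := hloc _ hnu
      simpa [sub_eq_add_neg] using this
    choose ψ hψH hψu using hunit
    -- the indicator of `x`
    have hind : ∀ x : ZMod r, (Pi.single x (1 : O) : ZMod r → O) ∈ H := by
      intro x
      have hprod : (∏ y ∈ (Finset.univ.erase x).attach,
          ((↑((hψu x y.1 (Finset.ne_of_mem_erase y.2).symm).unit⁻¹ : Oˣ) : O)) •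
            (ψ x y.1 (Finset.ne_of_mem_erase y.2).symm
              - fun _ => ψ x y.1 (Finset.ne_of_mem_erase y.2).symm y.1)) ∈ H :=
        H.prod_mem fun y _ => H.smul_mem (H.sub_mem (hψH _ _ _) (mzhb_const_mem H _)) _
      convert hprod using 1
      funext z
      rw [Finset.prod_apply]
      by_cases hz : z = x
      · subst hz
        rw [Pi.single_eq_same]
        symm
        apply Finset.prod_eq_one
        intro y _
        simp only [Pi.smul_apply, Pi.sub_apply, smul_eq_mul]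
        exact IsUnit.val_inv_mul (hψu z y.1 (Finset.ne_of_mem_erase y.2).symm)
      · rw [Pi.single_eq_of_ne hz]
        symm
        apply Finset.prod_eq_zero (i := ⟨z, Finset.mem_erase.mpr ⟨hz, Finset.mem_univ _⟩⟩)
          (Finset.mem_attach _ _)
        simp
    rw [eq_top_iff]
    intro f _
    have : f = ∑ x : ZMod r, f x • (Pi.single x (1 : O) : ZMod r → O) := by
      funext z
      rw [Finset.sum_apply]
      simp [Pi.single_apply]
    rw [this]
    exact H.sum_mem fun x _ => H.smul_mem (hind x) _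

end

end Fermat.Agent.MZ
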